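import Mathlib
import Fermat.Agent.MUL.Lib.BadRed.Graph.RedSpaceG
import Fermat.Agent.MUL.Lib.BadRed.Nodal.Deuring2.FI2
import Fermat.Agent.MUL.Orig.S27.GR.LiftStatements

section MergeWrap_Lib_BadRed_Graph_Deuring_FIG -- from Lib/BadRed/Graph/Deuring/FIG.lean

set_option autoImplicit false
set_option linter.style.haveILetI false
set_option linter.unusedSectionVars false

/-!
# Cluster G, graph Deuring construction: the fundamental inequality for a FAMILY of constant
reductions  (helper20; port of `Nodal/Deuring2/FI2.lean`)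

`C : GraphCore K F k κ Fk ι`: the constant reductions `S c` (`c : κ`) of `F / K` over the same
valuation ring of `K`, pairwise incomparable (`C.indep`).

* `GraphCore.exists_consts` : constants with pairwise distinct residues (`k` infinite);
* `GraphCore.linearIndependent_of_redAll` : a family in `⋂ O_c` whose tuples of reductions are
  `k`-linearly independent is `K`-linearly independent;
* `GraphCore.fi_degree_le` : **(FI)** for `w ∈ ⋂_c O_c`:  `∑_c deg (red_c w)_∞ ≤ deg (w)_∞`.
-/

noncomputable section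

open AlgebraicCurve Fermat.Agent.RR Fermat.Agent.Deuring

namespace Fermat.Agent.BadRedG

open Fermat.Agent.BadRed

variable {K F k : Type*} [Field K] [Field F] [Algebra K F] [Field k]
  {κ : Type*} {Fk : κ → Type*} [∀ c, Field (Fk c)] [∀ c, Algebra k (Fk c)] {ι : Type*}

variable (C : GraphCore K F k κ Fk ι)

/-- constants with pairwise distinct residues. -/
theorem GraphCore.exists_consts [Infinite k] (c₀ : κ) :
    ∃ cst : ℕ → F, (∀ c m, cst m ∈ (C.S c).Ov) ∧
      ∀ c m m', m ≠ m' → cst m - cst m' ∉ (C.S c).Ov.nonunits := by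
  have emb := Infinite.natEmbedding k
  choose x hx using fun m => (C.S c₀).res_surj (emb m)
  refine ⟨fun m => algebraMap K F (x m : K),
    fun c m => (C.S c).algebraMap_mem (C.mem_A (x m).2 c), ?_⟩
  intro c m m' hmm hnon
  have h1 := fi2_red_eq_zero_of_nonunits (C.S c) hnon
  have hmem₀ : ((x m : K) - (x m' : K)) ∈ (C.S c₀).A := sub_mem (x m).2 (x m').2
  have hmem : ((x m : K) - (x m' : K)) ∈ (C.S c).A := C.mem_A hmem₀ c
  rw [← map_sub, (C.S c).red_algebraMap hmem] at h1
  have h2 : (C.S c).res ⟨(x m : K) - (x m' : K), hmem⟩ = 0 :=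
    (map_eq_zero_iff _ (algebraMap k (Fk c)).injective).mp h1
  rw [C.res_eq c c₀ _ hmem hmem₀] at h2
  have h3 : (⟨(x m : K) - (x m' : K), hmem₀⟩ : (C.S c₀).A) = x m - x m' := rfl
  rw [h3, map_sub, hx, hx, sub_eq_zero] at h2
  exact hmm (emb.injective h2)

/-- A family in `⋂ O_c` whose tuples of reductions are linearly independent over `k` is linearly
independent over `K`. -/
theorem GraphCore.linearIndependent_of_redAll (c₀ : κ) {J : Type*} [Fintype J] (u : J → F)
    (hu : ∀ j c, u j ∈ (C.S c).Ov)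
    (hli : LinearIndependent k (fun j => C.redAll (u j))) : LinearIndependent K u := by
  classical
  rw [Fintype.linearIndependent_iff]
  intro a ha
  by_contra hcon
  push Not at hcon
  obtain ⟨j, hj⟩ := hcon
  obtain ⟨i₀, hi₀, hall⟩ := exists_max_coeff (C.S c₀).A a ⟨j, hj⟩
  set d : J → K := fun i => a i * (a i₀)⁻¹ with hd
  have hd₀ : ∀ i, d i ∈ (C.S c₀).A := hall
  have hsum' : ∑ i, d i • u i = 0 := by
    have : ∑ i, d i • u i = (a i₀)⁻¹ • ∑ i, a i • u i := by
      rw [Finset.smul_sum]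
      refine Finset.sum_congr rfl fun i _ => ?_
      rw [hd, smul_smul, mul_comm]
    rw [this, ha, smul_zero]
  have h3 : ∑ i, (C.S c₀).res ⟨d i, hd₀ i⟩ • C.redAll (u i) = 0 := by
    funext c
    have h1 := Fermat.Agent.GaussInt.red_sum_smul (C.S c) Finset.univ d u
      (fun i => C.mem_A (hd₀ i) c) (fun i => hu i c)
    rw [hsum', (C.S c).red_zero] at h1
    rw [Finset.sum_apply, Pi.zero_apply, h1]
    refine Finset.sum_congr rfl fun i _ => ?_
    rw [Pi.smul_apply, C.res_eq c c₀ (d i) (C.mem_A (hd₀ i) c) (hd₀ i)]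
    rfl
  have h4 := (Fintype.linearIndependent_iff.mp hli) (fun i => (C.S c₀).res ⟨d i, hd₀ i⟩) h3 i₀
  have h5 : (⟨d i₀, hd₀ i₀⟩ : (C.S c₀).A) = 1 := by
    apply Subtype.ext
    show a i₀ * (a i₀)⁻¹ = 1
    exact mul_inv_cancel₀ hi₀
  rw [h5, map_one] at h4
  exact one_ne_zero h4

/-- **(FI) the fundamental inequality for the family**: for `w ∈ ⋂_c O_c`,
`∑_c deg (red_c w)_∞ ≤ deg (w)_∞`. -/
theorem GraphCore.fi_degree_le [Fintype κ] [Infinite k] (c₀ : κ) {w : F}
    (hw : ∀ c, w ∈ (C.S c).Ov) :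
    ∑ c, Divisor.degree (poleDiv (C.S c).hFk ((C.S c).red w)) ≤
      Divisor.degree (poleDiv (C.S c₀).hF w) := by
  classical
  have hb0 : 0 ≤ Divisor.degree (poleDiv (C.S c₀).hF w) :=
    degree_nonneg_of_nonneg (C.S c₀).hF (poleDiv_nonneg (C.S c₀).hF w)
  have hd0 : ∀ c, 0 ≤ Divisor.degree (poleDiv (C.S c).hFk ((C.S c).red w)) := fun c =>
    degree_nonneg_of_nonneg (C.S c).hFk (poleDiv_nonneg (C.S c).hFk _)
  choose d hd using fun c =>
    (⟨_, Int.toNat_of_nonneg (hd0 c)⟩ :
      ∃ d : ℕ, (d : ℤ) = Divisor.degree (poleDiv (C.S c).hFk ((C.S c).red w)))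
  choose ybar hli using fun c => fi_exists_family_aux (C.S c).hFk ((C.S c).red w) (d c) (hd c)
  choose x hx using fun c (i : Fin (d c)) => (C.S c).ρ_surj (ybar c i)
  obtain ⟨cst, hc, hcu⟩ := C.exists_consts c₀
  choose E hE1 hE2 hE3 using fun c =>
    exists_idempotent_like (fun c => (C.S c).Ov) cst C.indep hc hcu c
  choose s hs1 hs2 hs3 using fun c =>
    exists_common_denominator (fun c => (C.S c).Ov) cst hc hcu c
      (fun i : Fin (d c) => (x c i : F)) (fun i => (x c i).2)
  set y : ∀ c, Fin (d c) → F := fun c i => E c * (s c * x c i) with hy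
  have hy_mem : ∀ c i c', y c i ∈ (C.S c').Ov := fun c i c' =>
    mul_mem (hE1 c c') (hs3 c i c')
  have hs0 : ∀ c, s c ≠ 0 := by
    intro c h0
    have := hs2 c
    rw [h0, map_zero] at this
    exact zero_ne_one this
  have hsinv : ∀ c, (s c)⁻¹ ∈ (C.S c).Ov := by
    intro c
    rw [← ValuationSubring.valuation_le_one_iff, map_inv₀, hs2 c, inv_one]
  have hσ : ∀ c, (C.S c).red (s c) ≠ 0 := fun c =>
    (C.S c).red_ne_zero (hs1 c c) (hsinv c) (hs0 c)
  have hEred : ∀ c, (C.S c).red (E c) = 1 := by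
    intro c
    have h1 := fi2_red_eq_zero_of_nonunits (C.S c) (hE2 c)
    rw [(C.S c).red_sub (hE1 c c) (C.S c).Ov.one_mem, (C.S c).red_one, sub_eq_zero] at h1
    exact h1
  have hy_red : ∀ c i, (C.S c).red (y c i) = (C.S c).red (s c) * ybar c i := by
    intro c i
    rw [hy]
    show (C.S c).red (E c * (s c * x c i)) = _
    rw [(C.S c).red_mul (hE1 c c) (hs3 c i c), hEred c, one_mul,
      (C.S c).red_mul (hs1 c c) (x c i).2, (C.S c).red_of_mem (x c i).2, hx]
  have hy_zero : ∀ c i c', c' ≠ c → (C.S c').red (y c i) = 0 := by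
    intro c i c' hne
    exact fi2_red_eq_zero_of_nonunits (C.S c')
      (nonunits_mul_mem (hE3 c c' hne) (hs3 c i c'))
  obtain ⟨Cd, hC0, hC⟩ := exists_common_poleBound (C.S c₀).hF
    (Finset.univ.biUnion fun c => Finset.univ.image (y c))
  have hCy : ∀ c i, y c i ∈ riemannRochSpace Cd := fun c i =>
    hC _ (Finset.mem_biUnion.mpr ⟨c, Finset.mem_univ _,
      Finset.mem_image_of_mem _ (Finset.mem_univ _)⟩)
  have hc0 : 0 ≤ Divisor.degree Cd := degree_nonneg_of_nonneg (C.S c₀).hF hC0
  -- the counting inequality for every `l`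
  have hcount : ∀ l : ℕ, ((l : ℤ) + 1) * (∑ c, (d c : ℤ)) ≤
      (l : ℤ) * Divisor.degree (poleDiv (C.S c₀).hF w) + Divisor.degree Cd + 1 := by
    intro l
    let u : (Σ c, Fin (l + 1) × Fin (d c)) → F := fun p => w ^ (p.2.1 : ℕ) * y p.1 p.2.2
    have hu : ∀ p c, u p ∈ (C.S c).Ov := fun p c =>
      mul_mem (pow_mem (hw c) _) (hy_mem _ _ c)
    let v : ∀ c, Fin (l + 1) × Fin (d c) → Fk c := fun c q =>
      (C.S c).red (s c) * ((C.S c).red w ^ (q.1 : ℕ) * ybar c q.2)
    have hv : ∀ c, LinearIndependent k (v c) := by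
      intro c
      have h1 : LinearIndependent k
          (fun q : Fin (l + 1) × Fin (d c) => (C.S c).red w ^ (q.1 : ℕ) * ybar c q.2) :=
        (hli c).comp (fun q : Fin (l + 1) × Fin (d c) => ((q.1 : ℕ), q.2)) (by
          intro q q' hqq
          simp only [Prod.mk.injEq] at hqq
          exact Prod.ext (Fin.ext hqq.1) hqq.2)
      have h2 := h1.map' (LinearMap.mulLeft k ((C.S c).red (s c)))
        (LinearMap.ker_eq_bot.mpr (mul_right_injective₀ (hσ c)))
      exact h2
    have hred : (fun p => C.redAll (u p)) =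
        fun p : (Σ c, Fin (l + 1) × Fin (d c)) => Pi.single p.1 (v p.1 p.2) := by
      funext p
      obtain ⟨c, q⟩ := p
      funext c'
      show (C.S c').red (w ^ (q.1 : ℕ) * y c q.2) = _
      rw [(C.S c').red_mul (pow_mem (hw c') _) (hy_mem _ _ c'), (C.S c').red_pow (hw c')]
      by_cases h : c' = c
      · subst h
        rw [Pi.single_eq_same, hy_red]
        show _ = (C.S c').red (s c') * ((C.S c').red w ^ (q.1 : ℕ) * ybar c' q.2)
        ring
      · rw [Pi.single_eq_of_ne h, hy_zero c q.2 c' h, mul_zero]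
    have hliAll : LinearIndependent k (fun p => C.redAll (u p)) := by
      rw [hred]
      exact Pi.linearIndependent_single v hv
    have hliK : LinearIndependent K u := C.linearIndependent_of_redAll c₀ u hu hliAll
    have hmem : ∀ p, u p ∈ riemannRochSpace (l • poleDiv (C.S c₀).hF w + Cd) := fun p =>
      pow_mul_mem (C.S c₀).hF w (hCy _ _) (Nat.lt_succ_iff.mp p.2.1.2)
    have hli2 : LinearIndependent K (fun p =>
        (⟨u p, hmem p⟩ : riemannRochSpace (l • poleDiv (C.S c₀).hF w + Cd))) := by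
      apply LinearIndependent.of_comp (riemannRochSpace (l • poleDiv (C.S c₀).hF w + Cd)).subtype
      exact hliK
    have hfin := finite_riemannRochSpace (C.S c₀).hF (l • poleDiv (C.S c₀).hF w + Cd)
    have hcard := hli2.fintype_card_le_finrank
    rw [Fintype.card_sigma] at hcard
    simp only [Fintype.card_prod, Fintype.card_fin] at hcard
    have hdeg : Divisor.degree (l • poleDiv (C.S c₀).hF w + Cd) =
        (l : ℤ) * Divisor.degree (poleDiv (C.S c₀).hF w) + Divisor.degree Cd := by
      rw [map_add, map_nsmul, nsmul_eq_mul]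
    have hnn : 0 ≤ Divisor.degree (l • poleDiv (C.S c₀).hF w + Cd) := by
      rw [hdeg]
      positivity
    have hle := ell_le_degree_add_one (C.S c₀).hF hnn
    rw [hdeg, ell_def] at hle
    have hcard' : ((∑ c, (l + 1) * d c : ℕ) : ℤ) ≤
        (Module.finrank K (riemannRochSpace (l • poleDiv (C.S c₀).hF w + Cd)) : ℤ) := by
      exact_mod_cast hcard
    push_cast at hcard'
    rw [← Finset.mul_sum] at hcard'
    linarith
  have hsum : ∑ c, Divisor.degree (poleDiv (C.S c).hFk ((C.S c).red w)) = ∑ c, (d c : ℤ) :=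
    Finset.sum_congr rfl fun c _ => (hd c).symm
  rw [hsum]
  by_contra hlt
  push Not at hlt
  have h1 := hcount ((Divisor.degree Cd).toNat + 1)
  have h2 : ((Divisor.degree Cd).toNat : ℤ) = Divisor.degree Cd := Int.toNat_of_nonneg hc0
  push_cast at h1
  rw [h2] at h1
  have h3 : Divisor.degree (poleDiv (C.S c₀).hF w) + 1 ≤ ∑ c, (d c : ℤ) := hlt
  have h4 : (Divisor.degree Cd + 1 + 1) * (Divisor.degree (poleDiv (C.S c₀).hF w) + 1) ≤
      (Divisor.degree Cd + 1 + 1) * (∑ c, (d c : ℤ)) :=
    mul_le_mul_of_nonneg_left h3 (by omega)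
  nlinarith

end Fermat.Agent.BadRedG
end
end MergeWrap_Lib_BadRed_Graph_Deuring_FIG
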