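import Mathlib
import Fermat.Agent.MUL.Lib.BadRed.Graph.S1
import Fermat.Agent.MUL.Lib.BadRed.Graph.RRGraph
import Fermat.Agent.MUL.E.Desc.W.Main

section MergeWrap_Lib_BadRed_Graph_Deuring_RRDim -- from Lib/BadRed/Graph/Deuring/RRDim.lean

set_option autoImplicit false

/-!
# Cluster G, graph Deuring construction: `HasRRDim`, the genus relation and (LIFT), unconditional

Wiring of `RRGraph.finrank_graphRR` (helper25) into `S1.lean` (helper61):

* `card_graphRRBranchesAt_le_card` : a component carries at most `#ι` branches (`src i ≠ tgt i`);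
* `GraphSeed.hasRRDim : G.HasRRDim`;
* `GraphSeed.genus_eq : g + #κ = Σ g_c + #ι + 1`;
* `GraphSeed.hasLift : G.HasLift`.
-/

noncomputable section

open AlgebraicCurve Fermat.Agent.RR Fermat.Agent.Deuring

namespace Fermat.Agent.BadRedG

open Fermat.Agent.BadRed

section Card

variable {k : Type*} [Field k] {κ : Type*} {Fk : κ → Type*} [∀ c, Field (Fk c)]
  [∀ c, Algebra k (Fk c)] {ι : Type*} [Fintype ι]
  {src tgt : ι → κ} {s₁ : ∀ i : ι, Place k (Fk (src i))} {s₂ : ∀ i : ι, Place k (Fk (tgt i))}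

/-- a component carries at most one branch of every node. -/
theorem card_graphRRBranchesAt_le_card (hne : ∀ i, src i ≠ tgt i) (c : κ) :
    (graphRRBranchesAt src tgt s₁ s₂ c).card ≤ Fintype.card ι := by
  classical
  have hex : ∀ Q : {Q // Q ∈ graphRRBranchesAt src tgt s₁ s₂ c}, ∃ i : ι,
      (⟨src i, s₁ i⟩ : Σ c, Place k (Fk c)) = ⟨c, Q.1⟩ ∨
        (⟨tgt i, s₂ i⟩ : Σ c, Place k (Fk c)) = ⟨c, Q.1⟩ := by
    rintro ⟨Q, hQ⟩
    rcases mem_graphRRBranches.mp (mem_graphRRBranchesAt.mp hQ) with ⟨i, hi⟩ | ⟨i, hi⟩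
    · exact ⟨i, Or.inl hi⟩
    · exact ⟨i, Or.inr hi⟩
  choose f hf using hex
  have hinj : Function.Injective f := by
    intro Q Q' h
    have h1 := hf Q
    have h2 := hf Q'
    rw [← h] at h2
    apply Subtype.ext
    have key : (⟨c, Q.1⟩ : Σ c, Place k (Fk c)) = ⟨c, Q'.1⟩ := by
      rcases h1 with h1 | h1 <;> rcases h2 with h2 | h2
      · rw [← h1, ← h2]
      · exfalso
        have a := congrArg Sigma.fst h1
        have b := congrArg Sigma.fst h2
        exact hne (f Q) (a.trans b.symm)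
      · exfalso
        have a := congrArg Sigma.fst h1
        have b := congrArg Sigma.fst h2
        exact hne (f Q) (b.trans a.symm)
      · rw [← h1, ← h2]
    exact graph_sigma_mk_injective c key
  have := Fintype.card_le_of_injective f hinj
  rwa [Fintype.card_coe] at this

end Card

variable {K F k : Type*} [Field K] [Field F] [Algebra K F] [Field k]
  {κ : Type*} {Fk : κ → Type*} [∀ c, Field (Fk c)] [∀ c, Algebra k (Fk c)] {ι : Type*}
  [Fintype κ] [Fintype ι]

variable (G : GraphSeed K F k κ Fk ι)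

/-- **the dimension of the graph Riemann-Roch spaces** of the multiples of the seed. -/
theorem GraphSeed.hasRRDim : G.HasRRDim := by
  intro m hm
  refine ⟨finite_graphRR (fun c => (G.S c).hFk) _ _ _ _ _, ?_⟩
  rw [← G.sum_rr_smul m]
  refine finrank_graphRR (fun c => (G.S c).hFk) G.s₁_inj G.s₂_inj G.s₁_ne_s₂
    (G.smul_R_node₁ m) (G.smul_R_node₂ m) (fun c => ?_)
  have h1 := G.degree_smul_R_gt hm c
  have h2 : ((graphRRBranchesAt G.src G.tgt G.s₁ G.s₂ c).card : ℤ) ≤ Fintype.card ι := by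
    exact_mod_cast card_graphRRBranchesAt_le_card G.src_ne_tgt c
  omega

/-- **The genus relation** `g + #κ = Σ g_c + #ι + 1`. -/
theorem GraphSeed.genus_eq (G : GraphSeed K F k κ Fk ι) [Nonempty κ] :
    genusFF K F + Fintype.card κ = (∑ c, genusFF k (Fk c)) + Fintype.card ι + 1 :=
  G.genus_eq_of G.hasRRDim

/-- **(LIFT)**. -/
theorem GraphSeed.hasLift [Nonempty κ] : G.HasLift :=
  G.hasLift_of G.hasRRDim

end Fermat.Agent.BadRedG
end
end MergeWrap_Lib_BadRed_Graph_Deuring_RRDim
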