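import Mathlib
import Fermat.Agent.MUL.Lib.BadRed.Graph.Deuring.PermDef
import Fermat.Agent.MUL.Lib.BadRed.Graph.RedSpaceG
import Fermat.Agent.MUL.Lib.BadRed.Graph.RRGraph
import Fermat.Agent.MUL.Lib.BadRed.Nodal.Deuring2.Canon
import Fermat.Agent.MUL.Lib.BadRed.Graph.Deuring.TypeB
import Fermat.Agent.MUL.Lib.BadRed.Graph.Deuring.TypeDual
import Fermat.Agent.MUL.Lib.BadRed.Graph.Deuring.TypeDef
import Fermat.Agent.MUL.Lib.BadRed.Nodal.Deuring2.Push
import Fermat.Agent.MUL.Lib.BadRed.Nodal.Deuring2.Main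
import Fermat.Agent.MUL.Lib.BadRed.Graph.Deuring.Thresh
import Fermat.Agent.MUL.Lib.BadRed.Graph.Deuring.RRDim
import Fermat.Agent.MUL.Lib.BadRed.Nodal.NSBuildLift
import Fermat.Agent.MUL.S18.NSBuild
import Fermat.Agent.MUL.Lib.BadRed.Graph.NSDef
import Fermat.Agent.MUL.Lib.BadRed.Graph.Lift
import Fermat.Agent.MUL.Lib.BadRed.Nodal.Interp1
import Fermat.Agent.MUL.Lib.BadRed.Nodal.Deuring2.RRExist
import Fermat.Agent.MUL.Lib.BadRed.Nodal.Deuring2.Assembly
import Fermat.Agent.MUL.Lib.BadRed.Nodal.KeyMain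
import Fermat.Agent.MUL.S18.KeyGlue
import Fermat.Agent.MUL.Orig.S18.KeyJacobi
import Fermat.Agent.MUL.Lib.BadRed.Nodal.KeyJacobi
import Fermat.Agent.MUL.Lib.RedTr.Final

section MergeWrap_Lib_BadRed_Graph_Deuring_CanonPerm -- from Lib/BadRed/Graph/Deuring/CanonPerm.lean

set_option autoImplicit false
set_option linter.unusedSectionVars false

/-!
# Cluster G, graph Deuring construction, DEU-4: CANONICITY of the reduction of places
(helper40; port of `Nodal/Deuring2/Canon.lean` + `CanonSemi.lean`, with a permutation of the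
components)

* `GraphType.r_eq_of_pole` : **uniqueness**: if some `f ∈ 𝔏(m D₀ + P)` has a reduction on `c` with
  a pole of order `m R_c(Q) + 1` at the smooth point `Q`, then `r P = some ⟨c, Q⟩`;
* `graph_isInt_smul` : an automorphism which permutes the valuation rings and fixes `D₀` maps
  `𝔏(m D₀ + P)` into `𝔏(m D₀ + t P)`;
* `GraphType.rSmulPerm : T.RSmulPerm` : `r (t • P) = (π, e) • r P` for the automorphisms of the
  seed (`GraphSeed.IsPermAut`);
* `GraphType.ordSmulPerm : T.OrdSmulPerm` : they preserve the ordinary places;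
* `GraphType.canon : T.Canon` : `r (t • P) = r P` for the automorphisms which preserve the
  valuation rings and are trivial on the residue fields (the inertial case of T).
-/

noncomputable section

open AlgebraicCurve Fermat.Agent.RR Fermat.Agent.Deuring

namespace Fermat.Agent.BadRedG

open Fermat.Agent.BadRed

variable {K F k : Type*} [Field K] [Field F] [Algebra K F] [Field k]
  {κ : Type*} {Fk : κ → Type*} [∀ c, Field (Fk c)] [∀ c, Algebra k (Fk c)] {ι : Type*}
  [Fintype κ] [Fintype ι] {G : GraphSeed K F k κ Fk ι}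

/-! ### (i) uniqueness -/

/-- **uniqueness of the reduction**: a pole of order `m R_c(Q) + 1` at the smooth point `Q` of a
function of `𝔏(m D₀ + P)` forces `r P = ⟨c, Q⟩`. -/
theorem GraphType.r_eq_of_pole (T : GraphType G) {P : Place K F} {c : κ} {Q : Place k (Fk c)}
    (hQ : G.toGraphCore.IsSmoothPt c Q) {m : ℕ} {f : F}
    (hf : G.toGraphCore.IsInt (m • G.D₀ + Finsupp.single P 1) f) (hred : (G.S c).red f ≠ 0)
    (hord : Q.ord ((G.S c).red f) = -((m • G.R c) Q) - 1) : T.r P = some ⟨c, Q⟩ := by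
  by_contra hne
  obtain ⟨m', h, hh, hhred, hhord⟩ := T.unit P c Q hQ hne
  have hfh : G.toGraphCore.IsInt ((m + m') • G.D₀) (f * h) := by
    have h1 := GraphCore.IsInt.mul G.toGraphCore hf hh
    have e : m • G.D₀ + Finsupp.single P 1 + (m' • G.D₀ - Finsupp.single P 1) =
        (m + m') • G.D₀ := by
      rw [add_smul]
      abel
    rwa [e] at h1
  have hseed := G.seed (m + m') (f * h) hfh.1 hfh.2
  rw [mem_graphRR] at hseed
  have h1 : (G.S c).red (f * h) ∈ riemannRochSpace ((m + m') • G.R c) := hseed.1 c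
  rw [(G.S c).red_mul (hf.2 c) (hh.2 c)] at h1
  exact canon_not_mem_aux (G.R c) Q hred hhred hord hhord h1

/-! ### (ii) transport of `𝔏(m D₀ + P)` -/

/-- an automorphism which permutes the valuation rings and fixes `D₀` maps `𝔏(m D₀ + P)` into
`𝔏(m D₀ + t P)`. -/
theorem graph_isInt_smul (t : SemilinearAut K F) (π : Equiv.Perm κ)
    (hm : ∀ (c : κ) (f : F), f ∈ (G.S c).Ov → t • f ∈ (G.S (π c)).Ov)
    (hD : ∀ P, G.D₀ (t • P) = G.D₀ P) {m : ℕ} {P : Place K F} {f : F}
    (hf : G.toGraphCore.IsInt (m • G.D₀ + Finsupp.single P 1) f) :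
    G.toGraphCore.IsInt (m • G.D₀ + Finsupp.single (t • P) 1) (t • f) := by
  classical
  obtain ⟨h1, h2⟩ := hf
  refine ⟨?_, fun c => ?_⟩
  · rw [mem_riemannRochSpace_iff] at h1 ⊢
    intro v
    rcases h1 (t⁻¹ • v) with h0 | hle
    · left
      rw [h0, smul_zero]
    · right
      have hord : v.ord (t • f) = (t⁻¹ • v).ord f := by
        have h := SemilinearAut.ord_smul t (t⁻¹ • v) f
        rwa [smul_inv_smul] at h
      have hdiv : (m • G.D₀ + Finsupp.single (t • P) 1 : Divisor K F) v =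
          (m • G.D₀ + Finsupp.single P 1 : Divisor K F) (t⁻¹ • v) := by
        have hD' : G.D₀ v = G.D₀ (t⁻¹ • v) := by
          have := hD (t⁻¹ • v)
          rwa [smul_inv_smul] at this
        rw [Finsupp.add_apply, Finsupp.add_apply, Finsupp.smul_apply, Finsupp.smul_apply, hD',
          Finsupp.single_apply, Finsupp.single_apply]
        congr 1
        by_cases hP : t • P = v
        · have hP' : P = t⁻¹ • v := by rw [← hP, inv_smul_smul]
          rw [if_pos hP, if_pos hP']
        · have hP' : ¬ P = t⁻¹ • v := by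
            intro h
            apply hP
            rw [h, smul_inv_smul]
          rw [if_neg hP, if_neg hP']
      rw [hord, hdiv]
      exact hle
  · have h := hm (π.symm c) f (h2 _)
    rwa [Equiv.apply_symm_apply] at h

/-! ### (iii) the theorems -/

/-- **canonicity for the automorphisms of the seed which permute the components**:
`r (t • P) = (π, e) • r P`. -/
theorem GraphType.rSmulPerm (T : GraphType G) : T.RSmulPerm := by
  intro t π e ht P c Q hX
  obtain ⟨m, f, hf, hred, hord⟩ := T.pole P c Q hX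
  have hQ : G.toGraphCore.IsSmoothPt c Q :=
    ⟨fun i hi => T.r_ne_node₁ P i (by rw [hX, hi]), fun i hi => T.r_ne_node₂ P i (by rw [hX, hi])⟩
  obtain ⟨Q', hcorr, hR⟩ := ht.R_smul c Q
  have hQ' := ht.smooth c Q Q' hcorr hQ
  have hf' := graph_isInt_smul t π ht.mem ht.D₀_smul hf
  have hred' : (G.S (π c)).red (t • f) = e c ((G.S c).red f) := ht.red c f (hf.2 c)
  refine ⟨Q', hcorr, T.r_eq_of_pole hQ' hf' ?_ ?_⟩
  · rw [hred']
    exact (map_ne_zero_iff (e c) (e c).injective).mpr hred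
  · rw [hred', hcorr, hord, Finsupp.smul_apply, Finsupp.smul_apply, hR]

/-- the automorphisms of the seed preserve the ordinary places. -/
theorem GraphType.ordSmulPerm (T : GraphType G) : T.OrdSmulPerm :=
  T.ordSmulPerm_of_rSmulPerm T.rSmulPerm

/-- one direction of the inertial canonicity. -/
theorem GraphType.r_of_r_smul (T : GraphType G) (t : SemilinearAut K F)
    (hm : ∀ (c : κ) (f : F), f ∈ (G.S c).Ov → t • f ∈ (G.S c).Ov)
    (hr : ∀ (c : κ) (f : F), f ∈ (G.S c).Ov → (G.S c).red (t • f) = (G.S c).red f)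
    (hD : ∀ P, G.D₀ (t • P) = G.D₀ P) (P : Place K F)
    (X : Σ c, Place k (Fk c)) (hX : T.r (t • P) = some X) : T.r P = some X := by
  have hDinv : ∀ P, G.D₀ (t⁻¹ • P) = G.D₀ P := by
    intro P
    have := hD (t⁻¹ • P)
    rw [smul_inv_smul] at this
    exact this.symm
  obtain ⟨c, Q⟩ := X
  obtain ⟨m, f, hf, hred, hord⟩ := T.pole (t • P) c Q hX
  have hQ : G.toGraphCore.IsSmoothPt c Q :=
    ⟨fun i hi => T.r_ne_node₁ (t • P) i (by rw [hX, hi]),
      fun i hi => T.r_ne_node₂ (t • P) i (by rw [hX, hi])⟩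
  have hf' := graph_isInt_smul (G := G) t⁻¹ (Equiv.refl κ)
    (fun c f hf => canon_inv_mem (G.S c) t (hm c) (hr c) f hf) hDinv hf
  rw [inv_smul_smul] at hf'
  have hred' : (G.S c).red (t⁻¹ • f) = (G.S c).red f :=
    canon_inv_red (G.S c) t (hm c) (hr c) f (hf.2 c)
  exact T.r_eq_of_pole hQ hf' (by rw [hred']; exact hred) (by rw [hred']; exact hord)

/-- **canonicity** (inertial case): `r (t • P) = r P`. -/
theorem GraphType.canon (T : GraphType G) : T.Canon := by
  intro t hm hr hD P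
  have hDinv : ∀ P, G.D₀ (t⁻¹ • P) = G.D₀ P := by
    intro P
    have := hD (t⁻¹ • P)
    rw [smul_inv_smul] at this
    exact this.symm
  have hback : ∀ X, T.r P = some X → T.r (t • P) = some X := by
    intro X hX
    have h := T.r_of_r_smul t⁻¹ (fun c f hf => canon_inv_mem (G.S c) t (hm c) (hr c) f hf)
      (fun c f hf => canon_inv_red (G.S c) t (hm c) (hr c) f hf) hDinv (t • P) X
    rw [inv_smul_smul] at h
    exact h hX
  cases hP : T.r P with
  | some X => exact hback X hP
  | none =>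
    cases htP : T.r (t • P) with
    | none => rfl
    | some X =>
      have := T.r_of_r_smul t hm hr hD P X htP
      rw [hP] at this
      exact absurd this (by simp)

end Fermat.Agent.BadRedG
end
end MergeWrap_Lib_BadRed_Graph_Deuring_CanonPerm

section MergeWrap_Lib_BadRed_Graph_Deuring_Type -- from Lib/BadRed/Graph/Deuring/Type.lean

set_option autoImplicit false
set_option linter.style.haveILetI false
set_option linter.unusedSectionVars false

/-!
# Cluster G, graph Deuring construction: the reduction map of a seed, ASSEMBLY of `GraphType`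
(helper20; port of `Nodal/Deuring2/Type.lean`)

`G.graphType hl : GraphType G` with `r = G.rmap hl` (`TypeB.lean`), all the characteristic
properties from `TypeDual.lean` (helper71).
-/

noncomputable section

open AlgebraicCurve Fermat.Agent.RR Fermat.Agent.Deuring

namespace Fermat.Agent.BadRedG

open Fermat.Agent.BadRed

variable {K F k : Type*} [Field K] [Field F] [Algebra K F] [Field k]
  {κ : Type*} {Fk : κ → Type*} [∀ c, Field (Fk c)] [∀ c, Algebra k (Fk c)] {ι : Type*}
  [Fintype κ] [Fintype ι]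

/-- **The reduction map of places** attached to a seed, with its characteristic properties. -/
def GraphSeed.graphType [Infinite k] [Nonempty κ] (G : GraphSeed K F k κ Fk ι)
    (hl : G.HasLift) : GraphType G where
  r := G.rmap hl
  r_ne_node₁ := fun P i h => by
    obtain ⟨f, hf, hne, hord⟩ := (GraphSeed.rmap_eq_some_iff hl).mp h
    exact G.td_ne_node₁ hl hf hne hord i rfl
  r_ne_node₂ := fun P i h => by
    obtain ⟨f, hf, hne, hord⟩ := (GraphSeed.rmap_eq_some_iff hl).mp h
    exact G.td_ne_node₂ hl hf hne hord i rfl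
  pole := fun P c Q h => by
    obtain ⟨f, hf, hne, hord⟩ := (GraphSeed.rmap_eq_some_iff hl).mp h
    exact ⟨G.m₁ hl, f, hf, hne, hord⟩
  zero := fun P c Q h => by
    obtain ⟨f, hf, hne, hord⟩ := (GraphSeed.rmap_eq_some_iff hl).mp h
    exact G.td_zero hl hf hne hord
  unit := fun P c Q hQ h => by
    rcases GraphSeed.trichotomy hl le_rfl P with ⟨c', Q', f, hf, hne, hord⟩ | ⟨f, hf, hfL, hn⟩
    · have hQQ' : (⟨c, Q⟩ : Σ c, Place k (Fk c)) ≠ ⟨c', Q'⟩ := by
        intro e
        apply h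
        rw [e]
        exact (GraphSeed.rmap_eq_some_iff hl).mpr ⟨f, hf, hne, hord⟩
      exact G.td_unit hl hf hne hord c Q hQ hQQ'
    · exact G.td_unitN hl hf hfL hn c Q hQ
  node_unit := fun P X h i => by
    obtain ⟨c, Q⟩ := X
    obtain ⟨f, hf, hne, hord⟩ := (GraphSeed.rmap_eq_some_iff hl).mp h
    exact G.td_node_unit hl hf hne hord i
  supp := fun P hP => by
    rcases GraphSeed.trichotomy hl le_rfl P with ⟨c', Q', f, hf, hne, hord⟩ | ⟨f, hf, hfL, hn⟩
    · exact ⟨c', Q', (GraphSeed.rmap_eq_some_iff hl).mpr ⟨f, hf, hne, hord⟩,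
        G.td_supp hP hf hne hord⟩
    · exact absurd (G.td_suppN hP hf hfL hn) id

@[simp]
theorem GraphSeed.graphType_r [Infinite k] [Nonempty κ] (G : GraphSeed K F k κ Fk ι)
    (hl : G.HasLift) : (G.graphType hl).r = G.rmap hl := rfl

/-- the places of node type are the places without reduction. -/
theorem GraphSeed.graphType_r_eq_none_iff [Infinite k] [Nonempty κ]
    (G : GraphSeed K F k κ Fk ι) (hl : G.HasLift) {P : Place K F} :
    (G.graphType hl).r P = none ↔ G.IsNodeType (G.m₁ hl) P :=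
  GraphSeed.rmap_eq_none_iff hl

end Fermat.Agent.BadRedG
end
end MergeWrap_Lib_BadRed_Graph_Deuring_Type

section MergeWrap_Lib_BadRed_Graph_Deuring_Push -- from Lib/BadRed/Graph/Deuring/Push.lean

set_option autoImplicit false
set_option linter.unusedSectionVars false
set_option linter.style.haveILetI false

/-!
# Cluster G, graph Deuring, steps S4 / S5: the PUSH inequality at a smooth point (helper18)

Port of `Nodal/Deuring2/Push.lean` to a family of components.  ABSTRACT form, for one component and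
one point of it.  Data: a graph core `C`, a divisor `D₀` of `F`, a `k`-algebra homomorphism
`π : (∀ c, Fk c) → Fk'` (`Pi.evalAlgHom`), a place `Q` of `Fk'`, an integer `ρ` (`= R Q`), and a
set `toQ` of places of `F` (the places REDUCING TO `Q`).  Hypotheses (`GPushHyp`):

* `base`   : `π (V(m D₀)) ⊂ {x | ord_Q x ≥ - m ρ}`;
* `exact₀` : for `m ≥ m₁` some element of `V(m D₀)` has order exactly `- m ρ` at `Q`;
* `pole`   : for `P ∈ toQ` some element of some `V(m D₀ + P)` has order exactly `- m ρ - 1`;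
* `away`   : for `P ∉ toQ` some element of some `V(m D₀ - P)` has order exactly `- m ρ`.

Results:
* `GPushHyp.sum_ord_le` (**S4**) : for `g ∈ ⋂ O_c` with `π (red g) ≠ 0`:
  `∑_{P ∈ toQ} ord_P g ≤ ord_Q (π (red g))`;
* `GPushHyp.sum_ord_eq` (**S5**) : equality if `g⁻¹ ∈ ⋂ O_c` as well.
-/

noncomputable section

open AlgebraicCurve Fermat.Agent.RR Fermat.Agent.Deuring

namespace Fermat.Agent.BadRedG

open Fermat.Agent.BadRed Fermat.Agent.BadRed.Push

variable {K F k : Type*} [Field K] [Field F] [Algebra K F] [Field k]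
  {κ : Type*} {Fk : κ → Type*} [∀ c, Field (Fk c)] [∀ c, Algebra k (Fk c)] {ι : Type*}
  [Finite κ] [Nonempty κ]

/-- `1 ∈ V(0)`. -/
theorem GPush.one_mem_V_zero (C : GraphCore K F k κ Fk ι) :
    (1 : ∀ c, Fk c) ∈ C.V 0 := by
  have h := C.redAll_mem_V (D := 0) (f := 1)
    ⟨one_mem_riemannRochSpace_of_nonneg (le_refl (0 : Divisor K F)), fun _ => one_mem _⟩
  rw [C.redAll_one] at h
  exact h

/-- `V(D) ⊂ V(D + P)` has codimension at most one. -/
theorem GPush.finrank_V_add_single_le (C : GraphCore K F k κ Fk ι) (D : Divisor K F)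
    (P : Place K F) :
    Module.finrank k (C.V (D + Finsupp.single P 1)) ≤ Module.finrank k (C.V D) + 1 := by
  obtain ⟨c₀⟩ := ‹Nonempty κ›
  haveI : Nonempty κ := ⟨c₀⟩
  rw [C.finrank_V, C.finrank_V]
  exact ell_add_single_le (C.S c₀).hF D P

/-- **Hypotheses of the push inequality** at the point `Q` of the component `π`. -/
structure GPushHyp (C : GraphCore K F k κ Fk ι) (D₀ : Divisor K F) {Fk' : Type*} [Field Fk']
    [Algebra k Fk'] (π : (∀ c, Fk c) →ₐ[k] Fk') (Q : Place k Fk') (ρ : ℤ)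
    (toQ : Place K F → Prop) : Prop where
  /-- the reduction of `m D₀` has multiplicity at most `m ρ` at `Q` -/
  base : ∀ (m : ℕ) (y : ∀ c, Fk c), y ∈ C.V (m • D₀) → π y ∈ ordGE Q (-(m * ρ))
  /-- and exactly `m ρ` for large `m` -/
  exact₀ : ∃ m₁ : ℕ, ∀ m : ℕ, m₁ ≤ m →
    ∃ u ∈ C.V (m • D₀), π u ≠ 0 ∧ Q.ord (π u) = -(m * ρ)
  /-- a place reducing to `Q` produces a pole at `Q` -/
  pole : ∀ P, toQ P → ∃ (m : ℕ) (w : ∀ c, Fk c),
    w ∈ C.V (m • D₀ + Finsupp.single P 1) ∧ π w ≠ 0 ∧ Q.ord (π w) = -(m * ρ) - 1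
  /-- a place not reducing to `Q` can be avoided -/
  away : ∀ P, ¬ toQ P → ∃ (m : ℕ) (h : ∀ c, Fk c),
    h ∈ C.V (m • D₀ - Finsupp.single P 1) ∧ π h ≠ 0 ∧ Q.ord (π h) = -(m * ρ)

namespace GPushHyp

variable {C : GraphCore K F k κ Fk ι} {D₀ : Divisor K F} {Fk' : Type*} [Field Fk']
  [Algebra k Fk'] {π : (∀ c, Fk c) →ₐ[k] Fk'} {Q : Place k Fk'} {ρ : ℤ} {toQ : Place K F → Prop}

/-- (A1) elements with a pole of exact order along a sum of places reducing to `Q`. -/
theorem exists_exact_pole (H : GPushHyp C D₀ π Q ρ toQ) (l : List (Place K F))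
    (hl : ∀ P ∈ l, toQ P) :
    ∃ (m : ℕ) (y : ∀ c, Fk c), y ∈ C.V (m • D₀ + listDiv l) ∧ π y ≠ 0 ∧
      Q.ord (π y) = -(m * ρ) - l.length := by
  induction l with
  | nil =>
    refine ⟨0, 1, ?_, ?_, ?_⟩
    · rw [zero_smul, listDiv_nil, add_zero]
      exact GPush.one_mem_V_zero C
    · rw [map_one]
      exact one_ne_zero
    · rw [map_one, Place.ord_one]
      simp
  | cons P l ih =>
    obtain ⟨m, y, hy, hy0, hyo⟩ := ih fun P' hP' => hl P' (List.mem_cons_of_mem _ hP')
    obtain ⟨m', w, hw, hw0, hwo⟩ := H.pole P (hl P List.mem_cons_self)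
    refine ⟨m + m', y * w, ?_, ?_, ?_⟩
    · have e : (m + m') • D₀ + listDiv (P :: l)
          = (m • D₀ + listDiv l) + (m' • D₀ + Finsupp.single P 1) := by
        rw [listDiv_cons, add_smul]
        abel
      rw [e]
      exact C.mul_mem_V hy hw
    · rw [map_mul]
      exact mul_ne_zero hy0 hw0
    · rw [map_mul, Q.ord_mul hy0 hw0, hyo, hwo, List.length_cons]
      push_cast
      ring

/-- elements of exact order of every large level. -/
theorem exists_exact_level (H : GPushHyp C D₀ π Q ρ toQ) :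
    ∃ m₁ : ℕ, ∀ m : ℕ, m₁ ≤ m → ∃ u ∈ C.V (m • D₀), π u ≠ 0 ∧ Q.ord (π u) = -(m * ρ) :=
  H.exact₀

/-- (A2) the pole order along a sum of places reducing to `Q` is at most the number of
places. -/
theorem pole_le (H : GPushHyp C D₀ π Q ρ toQ) (l : List (Place K F))
    (hl : ∀ P ∈ l, toQ P) (m : ℕ) (z : ∀ c, Fk c) (hz : z ∈ C.V (m • D₀ + listDiv l)) :
    π z ∈ ordGE Q (-(m * ρ) - l.length) := by
  induction l generalizing m z with
  | nil =>
    rw [listDiv_nil, add_zero] at hz
    have := H.base m z hz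
    simpa using this
  | cons P l ih =>
    have hl' : ∀ P' ∈ l, toQ P' := fun P' hP' => hl P' (List.mem_cons_of_mem _ hP')
    obtain ⟨mv, v, hv, hv0, hvo⟩ := H.exists_exact_pole (P :: l) hl
    obtain ⟨m₁, hm₁⟩ := H.exact₀
    obtain ⟨u, hu, hu0, huo⟩ := hm₁ (mv + m₁) (Nat.le_add_left _ _)
    obtain ⟨u', hu', hu'0, hu'o⟩ := hm₁ (m + m₁) (Nat.le_add_left _ _)
    -- everything at the level `M = m + mv + m₁`
    set M : ℕ := m + mv + m₁ with hM
    set D : Divisor K F := M • D₀ + listDiv l with hD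
    have eM : M • D₀ + listDiv (P :: l) = D + Finsupp.single P 1 := by
      rw [hD, listDiv_cons]
      abel
    have hz' : z * u ∈ C.V (D + Finsupp.single P 1) := by
      have e : D + Finsupp.single P 1 = (m • D₀ + listDiv (P :: l)) + (mv + m₁) • D₀ := by
        rw [← eM, hM, add_smul, add_smul, add_smul]
        abel
      rw [e]
      exact C.mul_mem_V hz hu
    have hv' : v * u' ∈ C.V (D + Finsupp.single P 1) := by
      have e : D + Finsupp.single P 1 = (mv • D₀ + listDiv (P :: l)) + (m + m₁) • D₀ := by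
        rw [← eM, hM, add_smul, add_smul, add_smul]
        abel
      rw [e]
      exact C.mul_mem_V hv hu'
    have hvu0 : π (v * u') ≠ 0 := by
      rw [map_mul]
      exact mul_ne_zero hv0 hu'0
    have hvuo : Q.ord (π (v * u')) = -(M * ρ) - (l.length + 1) := by
      rw [map_mul, Q.ord_mul hv0 hu'0, hvo, hu'o, List.length_cons, hM]
      push_cast
      ring
    have hvD : v * u' ∉ C.V D := by
      intro hmem
      have h1 := le_of_mem_ordGE (ih hl' M (v * u') hmem) hvu0
      rw [hvuo] at h1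
      omega
    have := C.finite_V (D + Finsupp.single P 1)
    obtain ⟨c, hc⟩ := exists_sub_smul_mem
      (C.V_mono (Fermat.Agent.RR.le_add_single D P)) (GPush.finrank_V_add_single_le C D P) hv' hvD hz'
    -- `π (z u) = π (z u - c v u') + c π (v u')`
    have h1 : π (z * u - c • (v * u')) ∈ ordGE Q (-(M * ρ) - (l.length + 1)) :=
      ordGE_mono (by omega) (ih hl' M _ hc)
    have h2 : c • π (v * u') ∈ ordGE Q (-(M * ρ) - (l.length + 1)) :=
      Submodule.smul_mem _ c (mem_ordGE_of_eq hvuo)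
    have h3 : π (z * u) ∈ ordGE Q (-(M * ρ) - (l.length + 1)) := by
      have e : π (z * u) = π (z * u - c • (v * u')) + c • π (v * u') := by
        rw [map_sub, map_smul]
        abel
      rw [e]
      exact Submodule.add_mem _ h1 h2
    rw [map_mul] at h3
    have h4 := mem_ordGE_of_mul h3 hu0 huo
    have e : -(↑M * ρ) - (↑l.length + 1) - -(↑(mv + m₁) * ρ)
        = -(↑m * ρ) - ↑(P :: l).length := by
      rw [hM, List.length_cons]
      push_cast
      ring
    rw [e] at h4
    exact h4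

/-- (B) zeros and poles along places reducing to `Q`. -/
theorem zero_pole_le (H : GPushHyp C D₀ π Q ρ toQ) (lp lm : List (Place K F))
    (hlp : ∀ P ∈ lp, toQ P) (hlm : ∀ P ∈ lm, toQ P) (m : ℕ) (z : ∀ c, Fk c)
    (hz : z ∈ C.V (m • D₀ + listDiv lm - listDiv lp)) :
    π z ∈ ordGE Q (-(m * ρ) - lm.length + lp.length) := by
  obtain ⟨m', y, hy, hy0, hyo⟩ := H.exists_exact_pole lp hlp
  have hzy : z * y ∈ C.V ((m + m') • D₀ + listDiv lm) := by
    have e : (m + m') • D₀ + listDiv lm
        = (m • D₀ + listDiv lm - listDiv lp) + (m' • D₀ + listDiv lp) := by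
      rw [add_smul]
      abel
    rw [e]
    exact C.mul_mem_V hz hy
  have h1 := H.pole_le lm hlm (m + m') (z * y) hzy
  rw [map_mul] at h1
  have h2 := mem_ordGE_of_mul h1 hy0 hyo
  have e : -(↑(m + m') * ρ) - ↑lm.length - (-(↑m' * ρ) - ↑lp.length)
      = -(↑m * ρ) - ↑lm.length + ↑lp.length := by
    push_cast
    ring
  rw [e] at h2
  exact h2

/-- (C) a function vanishing along a sum of places not reducing to `Q`, of exact order at
`Q`. -/
theorem exists_away (H : GPushHyp C D₀ π Q ρ toQ) (l : List (Place K F))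
    (hl : ∀ P ∈ l, ¬ toQ P) :
    ∃ (m : ℕ) (h : ∀ c, Fk c), h ∈ C.V (m • D₀ - listDiv l) ∧ π h ≠ 0 ∧
      Q.ord (π h) = -(m * ρ) := by
  induction l with
  | nil =>
    refine ⟨0, 1, ?_, ?_, ?_⟩
    · rw [zero_smul, listDiv_nil, sub_zero]
      exact GPush.one_mem_V_zero C
    · rw [map_one]
      exact one_ne_zero
    · rw [map_one, Place.ord_one]
      simp
  | cons P l ih =>
    obtain ⟨m, y, hy, hy0, hyo⟩ := ih fun P' hP' => hl P' (List.mem_cons_of_mem _ hP')
    obtain ⟨m', w, hw, hw0, hwo⟩ := H.away P (hl P List.mem_cons_self)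
    refine ⟨m + m', y * w, ?_, ?_, ?_⟩
    · have e : (m + m') • D₀ - listDiv (P :: l)
          = (m • D₀ - listDiv l) + (m' • D₀ - Finsupp.single P 1) := by
        rw [listDiv_cons, add_smul]
        abel
      rw [e]
      exact C.mul_mem_V hy hw
    · rw [map_mul]
      exact mul_ne_zero hy0 hw0
    · rw [map_mul, Q.ord_mul hy0 hw0, hyo, hwo]
      push_cast
      ring

open Classical in
/-- **S4, the PUSH inequality**: for `g ∈ ⋂ O_c` whose reduction on the component `π` is not
zero, the order of the reduction at `Q` is at least the sum of the orders of `g` at the places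
reducing to `Q`. -/
theorem sum_ord_le (H : GPushHyp C D₀ π Q ρ toQ) (hF : IsRRField K F) {g : F}
    (hg : ∀ c, g ∈ (C.S c).Ov) (hπ : π (C.redAll g) ≠ 0) :
    ∑ P ∈ (divOf hF g).support with toQ P, P.ord g ≤ Q.ord (π (C.redAll g)) := by
  have hg0 : g ≠ 0 := by
    rintro rfl
    apply hπ
    rw [C.redAll_zero, map_zero]
  obtain ⟨lp, lm, lp', lm', h1, h2, h3, h4, h5, h6⟩ := exists_lists toQ (divOf hF g)
  have h6' := h6 (divOf hF g).support (le_refl _)
  have hsum : ∑ P ∈ (divOf hF g).support with toQ P, P.ord g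
      = (lp.length : ℤ) - lm.length := by
    rw [h6']
    refine Finset.sum_congr rfl fun P _ => ?_
    rw [divOf_apply]
  rw [hsum]
  obtain ⟨m, h, hh, hh0, hho⟩ := H.exists_away lm' h4
  obtain ⟨f, hf, rfl⟩ := (C.mem_V_iff _).mp hh
  have hf0 : f ≠ 0 := by
    rintro rfl
    apply hh0
    rw [C.redAll_zero]
    exact map_zero π
  -- `f g ∈ L(m D₀ + lm - lp)`
  have hfg : C.IsInt (m • D₀ + listDiv lm - listDiv lp) (f * g) := by
    refine ⟨?_, fun c => mul_mem (hf.2 c) (hg c)⟩
    rw [mem_riemannRochSpace_iff]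
    intro v
    right
    have hfv := (mem_riemannRochSpace_iff.mp hf.1 v).resolve_left hf0
    have hgv : v.ord g = (listDiv lp - listDiv lm + listDiv lp' - listDiv lm' : Divisor K F) v := by
      rw [← h5, divOf_apply]
    have hnn : 0 ≤ (listDiv lp' : Divisor K F) v := listDiv_nonneg lp' v
    rw [v.ord_mul hf0 hg0, hgv]
    simp only [Finsupp.coe_add, Finsupp.coe_sub, Pi.add_apply, Pi.sub_apply] at hfv ⊢
    omega
  have hz := C.redAll_mem_V hfg
  have hmul : C.redAll (f * g) = C.redAll f * C.redAll g := C.redAll_mul hf.2 hg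
  rw [hmul] at hz
  have hB := H.zero_pole_le lp lm h1 h2 m _ hz
  rw [map_mul, mul_comm (π (C.redAll f))] at hB
  have hC := mem_ordGE_of_mul hB hh0 hho
  have hD := le_of_mem_ordGE hC hπ
  omega

open Classical in
/-- **S5, the PUSH equality** for units of all the valuation rings. -/
theorem sum_ord_eq (H : GPushHyp C D₀ π Q ρ toQ) (hF : IsRRField K F) {g : F}
    (hg : ∀ c, g ∈ (C.S c).Ov) (hi : ∀ c, g⁻¹ ∈ (C.S c).Ov) (hg0 : g ≠ 0) :
    ∑ P ∈ (divOf hF g).support with toQ P, P.ord g = Q.ord (π (C.redAll g)) := by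
  have hmul : C.redAll g * C.redAll g⁻¹ = 1 := by
    rw [← C.redAll_mul hg hi, mul_inv_cancel₀ hg0, C.redAll_one]
  have hπmul : π (C.redAll g) * π (C.redAll g⁻¹) = 1 := by
    rw [← map_mul, hmul, map_one]
  have hπ : π (C.redAll g) ≠ 0 := left_ne_zero_of_mul_eq_one hπmul
  have hπ' : π (C.redAll g⁻¹) ≠ 0 := right_ne_zero_of_mul_eq_one hπmul
  apply le_antisymm (H.sum_ord_le hF hg hπ)
  have h1 := H.sum_ord_le hF hi hπ'
  have h2 : Q.ord (π (C.redAll g⁻¹)) = -Q.ord (π (C.redAll g)) := by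
    have := congrArg Q.ord hπmul
    rw [Q.ord_mul hπ hπ', Place.ord_one] at this
    omega
  have h3 : ∑ P ∈ (divOf hF g⁻¹).support with toQ P, P.ord g⁻¹
      = -∑ P ∈ (divOf hF g).support with toQ P, P.ord g := by
    have hs : (divOf hF g⁻¹).support = (divOf hF g).support := by
      rw [divOf_inv, Finsupp.support_neg]
    rw [hs, ← Finset.sum_neg_distrib]
    refine Finset.sum_congr rfl fun P _ => ?_
    rw [P.ord_inv]
  rw [h2, h3] at h1
  omega

end GPushHyp

end Fermat.Agent.BadRedG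
end
end MergeWrap_Lib_BadRed_Graph_Deuring_Push

section MergeWrap_Lib_BadRed_Graph_Deuring_PushUnit -- from Lib/BadRed/Graph/Deuring/PushUnit.lean

set_option autoImplicit false
set_option linter.unusedSectionVars false
set_option linter.style.haveILetI false

/-!
# Cluster G, graph Deuring, step S6: the PUSH equality for the units of ONE valuation ring
(helper18)

Port of `Nodal/Deuring2/PushUnit.lean` + the abstract part of `PushTwo.lean` to a family of
components.  `c` is the component, `π = Pi.evalAlgHom k Fk c`, `Q` a place of `Fk c`.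

* `GPushHyp.mapDomain_le`, `GPushHyp.mapDomain_eq` : S4, S5 in the `mapDomain` form;
* `GPushHyp.le_mapDomain_D₀` : `ρ ≤ (r_* D₀)(x)`;
* `GPushHyp.mapDomain_exact` (S4');
* `GPushHyp.divOf_apply_of_exact` (X), `GPushHyp.mapDomain_D₀_eq` (F3);
* `GPushHyp.exists_aux` : for `c' ≠ c` and `a` in the maximal ideal of `A` a function `E` which is
  a unit of every `O_{c''}`, `c'' ≠ c'`, with `E / a` a unit of `O_{c'}`, satisfying push;
* `GPushHyp.push_unit` (**S6**) : `(r_* div g)(x) = ord_Q (red_c g)` for every unit `g` of `O_c`.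
  NEW with respect to cluster T: the other components are treated one after the other
  (induction on the set of components at which `g` is not yet a unit).
-/

noncomputable section

open AlgebraicCurve Fermat.Agent.RR Fermat.Agent.Deuring

namespace Fermat.Agent.BadRedG

open Fermat.Agent.BadRed Fermat.Agent.BadRed.Push

variable {K F k : Type*} [Field K] [Field F] [Algebra K F] [Field k]
  {κ : Type*} {Fk : κ → Type*} [∀ c, Field (Fk c)] [∀ c, Algebra k (Fk c)] {ι : Type*}
  [Finite κ] [Nonempty κ]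

namespace GPushHyp

variable {C : GraphCore K F k κ Fk ι} {D₀ : Divisor K F} {Fk' : Type*} [Field Fk']
  [Algebra k Fk'] {π : (∀ c, Fk c) →ₐ[k] Fk'} {Q : Place k Fk'} {ρ : ℤ}
  {β : Type*} {r : Place K F → β} {x : β}

/-- S4 in the `mapDomain` form. -/
theorem mapDomain_le (H : GPushHyp C D₀ π Q ρ (fun P => r P = x)) (hF : IsRRField K F) {g : F}
    (hg : ∀ c, g ∈ (C.S c).Ov) (hπ : π (C.redAll g) ≠ 0) :
    Finsupp.mapDomain r (divOf hF g) x ≤ Q.ord (π (C.redAll g)) := by
  classical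
  rw [← sum_eq_mapDomain]
  exact H.sum_ord_le hF hg hπ

/-- S5 in the `mapDomain` form. -/
theorem mapDomain_eq (H : GPushHyp C D₀ π Q ρ (fun P => r P = x)) (hF : IsRRField K F) {g : F}
    (hg : ∀ c, g ∈ (C.S c).Ov) (hi : ∀ c, g⁻¹ ∈ (C.S c).Ov) (hg0 : g ≠ 0) :
    Finsupp.mapDomain r (divOf hF g) x = Q.ord (π (C.redAll g)) := by
  classical
  rw [← sum_eq_mapDomain]
  exact H.sum_ord_eq hF hg hi hg0

/-- the multiplicity of `x` in `r_* D₀` is at least `ρ`. -/
theorem le_mapDomain_D₀ (H : GPushHyp C D₀ π Q ρ (fun P => r P = x)) (hF : IsRRField K F) :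
    ρ ≤ Finsupp.mapDomain r D₀ x := by
  obtain ⟨m₁, hm₁⟩ := H.exact₀
  obtain ⟨u, hu, hu0, huo⟩ := hm₁ (m₁ + 1) (Nat.le_succ _)
  obtain ⟨f, hf, rfl⟩ := (C.mem_V_iff _).mp hu
  have hf0 : f ≠ 0 := by
    rintro rfl
    apply hu0
    rw [C.redAll_zero]
    exact map_zero π
  have h1 := H.mapDomain_le hF hf.2 hu0
  have h2 := mapDomain_mono r (neg_le_divOf hF hf.1 hf0) x
  rw [mapDomain_neg_apply, mapDomain_nsmul_apply] at h2
  have h3 : Q.ord (π (C.redAll f)) = -(((m₁ + 1 : ℕ) : ℤ) * ρ) := huo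
  rw [h3] at h1
  have h4 : ((m₁ + 1 : ℕ) : ℤ) * ρ ≤ ((m₁ + 1 : ℕ) : ℤ) * Finsupp.mapDomain r D₀ x := by
    omega
  have h5 : (0 : ℤ) < ((m₁ + 1 : ℕ) : ℤ) := by positivity
  exact le_of_mul_le_mul_left h4 h5

/-- (S4') the push equality for a function of `L(M D₀) ∩ ⋂ O_c` whose reduction has a pole of
exact order `M ρ` at `Q`. -/
theorem mapDomain_exact (H : GPushHyp C D₀ π Q ρ (fun P => r P = x)) (hF : IsRRField K F)
    (hpush₀ : Finsupp.mapDomain r D₀ x ≤ ρ) {M : ℕ} {e : F} (he : C.IsInt (M • D₀) e)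
    (he0 : π (C.redAll e) ≠ 0) (heo : Q.ord (π (C.redAll e)) = -(M * ρ)) :
    Finsupp.mapDomain r (divOf hF e) x = -(M * ρ) := by
  have hf0 : e ≠ 0 := by
    rintro rfl
    apply he0
    rw [C.redAll_zero, map_zero]
  apply le_antisymm
  · rw [← heo]
    exact H.mapDomain_le hF he.2 he0
  · have h2 := mapDomain_mono r (neg_le_divOf hF he.1 hf0) x
    rw [mapDomain_neg_apply, mapDomain_nsmul_apply] at h2
    have h3 : (M : ℤ) * Finsupp.mapDomain r D₀ x ≤ M * ρ :=
      mul_le_mul_of_nonneg_left hpush₀ (Int.natCast_nonneg M)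
    omega

/-- (X) a function of `𝔏(m D₀)` whose reduction has a pole of exact order `m ρ` at `Q` has a
pole of exact order `m D₀(P)` at every place `P` reducing to `Q`. -/
theorem divOf_apply_of_exact {toQ : Place K F → Prop} (H : GPushHyp C D₀ π Q ρ toQ)
    (hF : IsRRField K F) {m : ℕ}
    {f : F} (hf : C.IsInt (m • D₀) f) (hf0 : π (C.redAll f) ≠ 0)
    (hfo : Q.ord (π (C.redAll f)) = -(m * ρ)) {P : Place K F} (hP : toQ P) :
    divOf hF f P = -(m * D₀ P) := by
  classical
  have hfne : f ≠ 0 := by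
    rintro rfl
    apply hf0
    rw [C.redAll_zero, map_zero]
  rw [divOf_apply]
  have hmem := mem_riemannRochSpace_iff.mp hf.1
  have hge : -(m * D₀ P) ≤ P.ord f := by
    have := (hmem P).resolve_left hfne
    rwa [Finsupp.smul_apply, nsmul_eq_mul] at this
  by_contra hne
  have hgt : -(m * D₀ P) + 1 ≤ P.ord f := by
    have : -(m * D₀ P) ≠ P.ord f := fun h => hne h.symm
    omega
  -- `f ∈ L(m D₀ - P)`
  have hf' : C.IsInt (m • D₀ - Finsupp.single P 1) f := by
    refine ⟨?_, hf.2⟩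
    rw [mem_riemannRochSpace_iff]
    intro v
    right
    by_cases hv : v = P
    · subst hv
      rw [Finsupp.sub_apply, Finsupp.smul_apply, nsmul_eq_mul, Finsupp.single_eq_same]
      omega
    · rw [Finsupp.sub_apply, Finsupp.single_eq_of_ne hv, sub_zero]
      exact (hmem v).resolve_left hfne
  obtain ⟨m', w, hw, hw0, hwo⟩ := H.pole P hP
  have h1 : C.redAll f * w ∈ C.V ((m + m') • D₀) := by
    have h := C.mul_mem_V (C.redAll_mem_V hf') hw
    have e : (m • D₀ - Finsupp.single P 1) + (m' • D₀ + Finsupp.single P 1) = (m + m') • D₀ := by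
      rw [add_smul]
      abel
    rw [e] at h
    exact h
  have h2 := H.base (m + m') _ h1
  rw [map_mul] at h2
  have h3 := le_of_mem_ordGE h2 (mul_ne_zero hf0 hw0)
  rw [Q.ord_mul hf0 hw0, hfo, hwo] at h3
  push_cast at h3
  linarith

/-- (F3) `(r_* D₀)(x) = ρ`. -/
theorem mapDomain_D₀_eq (H : GPushHyp C D₀ π Q ρ (fun P => r P = x)) (hF : IsRRField K F)
    {m : ℕ} (hm : 0 < m)
    {u : F} (hu : C.IsInt (m • D₀) u) (hi : ∀ c, u⁻¹ ∈ (C.S c).Ov)
    (hu0 : π (C.redAll u) ≠ 0) (huo : Q.ord (π (C.redAll u)) = -(m * ρ)) :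
    Finsupp.mapDomain r D₀ x = ρ := by
  classical
  have hune : u ≠ 0 := by
    rintro rfl
    apply hu0
    rw [C.redAll_zero, map_zero]
  have h5 := H.mapDomain_eq hF hu.2 hi hune
  rw [huo] at h5
  -- the divisor `div u + m D₀` vanishes at the places reducing to `Q`
  have h6 : Finsupp.mapDomain r (divOf hF u + m • D₀) x = 0 := by
    rw [mapDomain_apply_eq_sum]
    refine Finset.sum_eq_zero fun P hP => ?_
    have hPx : r P = x := (Finset.mem_filter.mp hP).2
    rw [Finsupp.add_apply, H.divOf_apply_of_exact hF hu hu0 huo hPx, Finsupp.smul_apply,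
      nsmul_eq_mul]
    ring
  rw [Finsupp.mapDomain_add, Finsupp.add_apply, mapDomain_nsmul_apply, h5] at h6
  have h7 : (m : ℤ) * Finsupp.mapDomain r D₀ x = m * ρ := by omega
  have hm' : (m : ℤ) ≠ 0 := by exact_mod_cast hm.ne'
  exact mul_left_cancel₀ hm' h7

end GPushHyp

/-! ### the push equality for the units of one valuation ring -/

section Unit

variable {C : GraphCore K F k κ Fk ι} {D₀ : Divisor K F} {c : κ} {Q : Place k (Fk c)} {ρ : ℤ}
  {β : Type*} {r : Place K F → β} {x : β}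

/-- the residue of an element of the maximal ideal of `A`. -/
theorem gp_res_eq_zero (S : ∀ c : κ, ValSetup K F k (Fk c)) (c : κ) {a : K} (ha : a ∈ (S c).A)
    (hai : a⁻¹ ∉ (S c).A) : (S c).res ⟨a, ha⟩ = 0 := by
  obtain ⟨h1, h2⟩ := (S c).res_inv_eq_zero hai
  have e : (⟨a, ha⟩ : (S c).A) = ⟨a⁻¹⁻¹, h1⟩ := Subtype.ext (inv_inv a).symm
  rw [e]
  exact h2

/-- **the auxiliary function**: for `c' ≠ c` and `a ≠ 0` in the maximal ideal of `A` there is a
function `E` which is a unit of every `O_{c''}`, `c'' ≠ c'`, such that `E / a` is a unit of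
`O_{c'}`, and which satisfies the push equality at `Q`. -/
theorem GPushHyp.exists_aux (H : GPushHyp C D₀ (Pi.evalAlgHom k Fk c) Q ρ (fun P => r P = x))
    (hF : IsRRField K F) (hD₀ : 0 ≤ D₀) (hpush₀ : Finsupp.mapDomain r D₀ x ≤ ρ) {c' : κ}
    (hexact : ∃ (m : ℕ) (e₀ : F), C.IsInt (m • D₀) e₀ ∧ (C.S c).red e₀ ≠ 0 ∧
      Q.ord ((C.S c).red e₀) = -(m * ρ) ∧ (C.S c').red e₀ = 0 ∧
      ∀ c'', c'' ≠ c' → (C.S c'').red e₀ ≠ 0)
    {a : K} (ha0 : a ≠ 0) (haA : a ∈ (C.S c').A) (hai : a⁻¹ ∉ (C.S c').A) :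
    ∃ E : F, E ≠ 0 ∧ (∀ c'', c'' ≠ c' → E ∈ (C.S c'').Ov ∧ E⁻¹ ∈ (C.S c'').Ov) ∧
      E * (algebraMap K F a)⁻¹ ∈ (C.S c').Ov ∧ (E * (algebraMap K F a)⁻¹)⁻¹ ∈ (C.S c').Ov ∧
      Finsupp.mapDomain r (divOf hF E) x = Q.ord ((C.S c).red E) := by
  obtain ⟨m, e₀, he₀, he₀0, he₀o, he₀', he₀''⟩ := hexact
  have hcc' : c ≠ c' := by
    rintro rfl
    exact he₀0 he₀'
  have he₀ne : e₀ ≠ 0 := (C.S c).ne_zero_of_red_ne_zero he₀0
  have he₀i : e₀⁻¹ ∉ (C.S c').Ov := ((C.S c').red_eq_zero_iff (he₀.2 c') he₀ne).mp he₀'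
  have ha0' : algebraMap K F a ≠ 0 := (map_ne_zero (algebraMap K F)).mpr ha0
  -- the absolute value of `e₀` at `c'`
  obtain ⟨a₀, ha₀, hs1, hs2⟩ := (C.S c').scale e₀ he₀ne
  have ha₀' : algebraMap K F a₀ ≠ 0 := (map_ne_zero (algebraMap K F)).mpr ha₀
  have ha₀A : a₀ ∈ (C.S c').A := by
    rw [← (C.S c').mem_Ov_iff]
    have e : algebraMap K F a₀ = e₀ * (e₀ * (algebraMap K F a₀)⁻¹)⁻¹ := by
      field_simp
    rw [e]
    exact mul_mem (he₀.2 c') hs2
  have ha₀i : a₀⁻¹ ∉ (C.S c').A := by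
    intro h
    apply he₀i
    have e : e₀⁻¹ = (e₀ * (algebraMap K F a₀)⁻¹)⁻¹ * algebraMap K F a₀⁻¹ := by
      rw [map_inv₀]
      field_simp
    rw [e]
    exact mul_mem hs2 ((C.S c').algebraMap_mem h)
  obtain ⟨j, hj⟩ := C.arch c' a₀ ha₀A ha₀i a⁻¹
  set n : ℕ := j + 1 with hn
  -- `b = a₀ ^ n / a` lies in the maximal ideal of `A`
  set b : K := a₀ ^ n * a⁻¹ with hb
  have hbA : b ∈ (C.S c').A := by
    have e : b = a₀ * (a₀ ^ j * a⁻¹) := by
      rw [hb, hn, pow_succ]
      ring
    rw [e]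
    exact mul_mem ha₀A hj
  have hbi : b⁻¹ ∉ (C.S c').A := by
    intro h
    apply ha₀i
    have e : a₀⁻¹ = b⁻¹ * (a₀ ^ j * a⁻¹) := by
      rw [hb, hn, pow_succ]
      field_simp
    rw [e]
    exact mul_mem h hj
  have hbres : (C.S c').res ⟨b, hbA⟩ = 0 := gp_res_eq_zero C.S c' hbA hbi
  have haA'' : ∀ c'', a ∈ (C.S c'').A := fun c'' => C.mem_A haA c''
  have hares : ∀ c'', (C.S c'').res ⟨a, haA'' c''⟩ = 0 := fun c'' =>
    gp_res_eq_zero C.S c'' (haA'' c'') (fun h => hai (C.mem_A h c'))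
  -- the auxiliary function
  set E : F := e₀ ^ n + algebraMap K F a with hE
  have hEO : ∀ c'', E ∈ (C.S c'').Ov := fun c'' =>
    add_mem (pow_mem (he₀.2 c'') n) ((C.S c'').algebraMap_mem (haA'' c''))
  have hred : ∀ c'', (C.S c'').red E = (C.S c'').red e₀ ^ n := by
    intro c''
    rw [hE, (C.S c'').red_add (pow_mem (he₀.2 c'') n) ((C.S c'').algebraMap_mem (haA'' c'')),
      (C.S c'').red_pow (he₀.2 c''), (C.S c'').red_algebraMap (haA'' c''), hares c'', map_zero,
      add_zero]
  have hredc0 : (C.S c).red E ≠ 0 := by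
    rw [hred]
    exact pow_ne_zero n he₀0
  have hEne : E ≠ 0 := (C.S c).ne_zero_of_red_ne_zero hredc0
  have hordc : Q.ord ((C.S c).red E) = -(((n * m : ℕ) : ℤ) * ρ) := by
    have hz := Q.ord_zpow ((C.S c).red e₀) (n : ℤ)
    rw [zpow_natCast] at hz
    rw [hred, hz, he₀o]
    push_cast
    ring
  -- `E / a = 1 + b (e₀ / a₀) ^ n` is a unit of `O_{c'}`
  set t : F := e₀ * (algebraMap K F a₀)⁻¹ with ht
  have hec : E * (algebraMap K F a)⁻¹ = b • t ^ n + 1 := by
    rw [hE, ht, hb, Algebra.smul_def, map_mul, map_pow, map_inv₀, mul_pow, inv_pow]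
    field_simp
  have hec' : E * (algebraMap K F a)⁻¹ ∈ (C.S c').Ov := by
    rw [hec]
    exact add_mem ((C.S c').smul_mem hbA (pow_mem hs1 n)) (one_mem _)
  have hecred : (C.S c').red (E * (algebraMap K F a)⁻¹) = 1 := by
    rw [hec, (C.S c').red_add ((C.S c').smul_mem hbA (pow_mem hs1 n)) (one_mem _),
      (C.S c').red_smul hbA (pow_mem hs1 n), hbres, zero_smul, zero_add, (C.S c').red_one]
  have heci : (E * (algebraMap K F a)⁻¹)⁻¹ ∈ (C.S c').Ov :=
    (C.S c').inv_mem_of_red_ne_zero (by rw [hecred]; exact one_ne_zero)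
  -- the push equality for `E`
  have hEInt : C.IsInt ((n * m) • D₀) E := by
    refine ⟨?_, hEO⟩
    rw [hE]
    apply Submodule.add_mem
    · rw [mul_smul]
      exact pow_mem_riemannRochSpace he₀.1 n
    · rw [Algebra.algebraMap_eq_smul_one]
      exact Submodule.smul_mem _ _
        (one_mem_riemannRochSpace_of_nonneg (nsmul_nonneg hD₀ _))
  have h2 := H.mapDomain_exact hF hpush₀ hEInt (by exact hredc0) (by exact hordc)
  refine ⟨E, hEne, fun c'' hc'' => ⟨hEO c'', ?_⟩, hec', heci, ?_⟩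
  · apply (C.S c'').inv_mem_of_red_ne_zero
    rw [hred]
    exact pow_ne_zero n (he₀'' c'' hc'')
  · rw [h2, hordc]

/-- **S6, the PUSH equality for the units of `O_c`**, inductive form: `g` is a unit of `O_c` and
of every `O_{c'}`, `c'` outside the finite set `T`. -/
theorem GPushHyp.push_unit_aux (H : GPushHyp C D₀ (Pi.evalAlgHom k Fk c) Q ρ (fun P => r P = x))
    (hF : IsRRField K F) (hD₀ : 0 ≤ D₀) (hpush₀ : Finsupp.mapDomain r D₀ x ≤ ρ)
    (hexact : ∀ c', c' ≠ c → ∃ (m : ℕ) (e₀ : F), C.IsInt (m • D₀) e₀ ∧ (C.S c).red e₀ ≠ 0 ∧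
      Q.ord ((C.S c).red e₀) = -(m * ρ) ∧ (C.S c').red e₀ = 0 ∧
      ∀ c'', c'' ≠ c' → (C.S c'').red e₀ ≠ 0) (T : Finset κ) (hT : c ∉ T) :
    ∀ g : F, g ≠ 0 → (∀ c', c' ∉ T → g ∈ (C.S c').Ov ∧ g⁻¹ ∈ (C.S c').Ov) →
      Finsupp.mapDomain r (divOf hF g) x = Q.ord ((C.S c).red g) := by
  classical
  induction T using Finset.induction_on with
  | empty =>
    intro g hg0 hg
    exact H.mapDomain_eq hF (fun c' => (hg c' (Finset.notMem_empty _)).1)
      (fun c' => (hg c' (Finset.notMem_empty _)).2) hg0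
  | insert c' T hc'T ih =>
    have hcc' : c' ≠ c := fun h => hT (h ▸ Finset.mem_insert_self c' T)
    have hcT : c ∉ T := fun h => hT (Finset.mem_insert_of_mem h)
    have ih' := ih hcT
    -- the case of an element whose absolute value at `c'` is at most `1`
    have key : ∀ g : F, g ≠ 0 →
        (∀ c'', c'' ∉ insert c' T → g ∈ (C.S c'').Ov ∧ g⁻¹ ∈ (C.S c'').Ov) →
        ∀ a : K, a ≠ 0 → a ∈ (C.S c').A → g * (algebraMap K F a)⁻¹ ∈ (C.S c').Ov →
          (g * (algebraMap K F a)⁻¹)⁻¹ ∈ (C.S c').Ov →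
          Finsupp.mapDomain r (divOf hF g) x = Q.ord ((C.S c).red g) := by
      intro g hg0 hg a ha0 haA hs1 hs2
      have ha0' : algebraMap K F a ≠ 0 := (map_ne_zero (algebraMap K F)).mpr ha0
      by_cases hai : a⁻¹ ∈ (C.S c').A
      · -- `g` is a unit of `O_{c'}`
        apply ih' g hg0
        intro c'' hc''
        by_cases h : c'' = c'
        · subst h
          constructor
          · have e : g = g * (algebraMap K F a)⁻¹ * algebraMap K F a := by
              field_simp
            rw [e]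
            exact mul_mem hs1 ((C.S c'').algebraMap_mem haA)
          · have e : g⁻¹ = (g * (algebraMap K F a)⁻¹)⁻¹ * algebraMap K F a⁻¹ := by
              rw [map_inv₀]
              field_simp
            rw [e]
            exact mul_mem hs2 ((C.S c'').algebraMap_mem hai)
        · exact hg c'' (by
            rw [Finset.mem_insert, not_or]
            exact ⟨h, hc''⟩)
      · -- `a` lies in the maximal ideal
        obtain ⟨E, hE0, hEu, hEa, hEai, hEpush⟩ :=
          H.exists_aux hF hD₀ hpush₀ (hexact c' hcc') ha0 haA hai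
        have hEc := hEu c hcc'.symm
        set u : F := g * E⁻¹ with hu
        have hu0 : u ≠ 0 := mul_ne_zero hg0 (inv_ne_zero hE0)
        have hgc := hg c hT
        have huT : ∀ c'', c'' ∉ T → u ∈ (C.S c'').Ov ∧ u⁻¹ ∈ (C.S c'').Ov := by
          intro c'' hc''
          by_cases h : c'' = c'
          · subst h
            constructor
            · have e1 : u = g * (algebraMap K F a)⁻¹ * (E * (algebraMap K F a)⁻¹)⁻¹ := by
                rw [hu]
                field_simp
              rw [e1]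
              exact mul_mem hs1 hEai
            · have e1 : u⁻¹ = (g * (algebraMap K F a)⁻¹)⁻¹ * (E * (algebraMap K F a)⁻¹) := by
                rw [hu]
                field_simp
              rw [e1]
              exact mul_mem hs2 hEa
          · have hg'' := hg c'' (by
              rw [Finset.mem_insert, not_or]
              exact ⟨h, hc''⟩)
            have hE'' := hEu c'' h
            constructor
            · exact mul_mem hg''.1 hE''.2
            · have e1 : u⁻¹ = g⁻¹ * E := by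
                rw [hu, mul_inv, inv_inv]
              rw [e1]
              exact mul_mem hg''.2 hE''.1
        have h1 := ih' u hu0 huT
        have huc := huT c hcT
        have hge : g = u * E := by
          rw [hu]
          field_simp
        have hdiv : divOf hF g = divOf hF u + divOf hF E := by
          conv_lhs => rw [hge]
          exact divOf_mul hF hu0 hE0
        have hredu : (C.S c).red g = (C.S c).red u * (C.S c).red E := by
          conv_lhs => rw [hge]
          exact (C.S c).red_mul huc.1 hEc.1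
        have hredu0 : (C.S c).red u ≠ 0 := (C.S c).red_ne_zero huc.1 huc.2 hu0
        have hredE0 : (C.S c).red E ≠ 0 := (C.S c).red_ne_zero hEc.1 hEc.2 hE0
        rw [hdiv, Finsupp.mapDomain_add, Finsupp.add_apply, h1, hEpush, hredu,
          Q.ord_mul hredu0 hredE0]
    intro g hg0 hg
    obtain ⟨a, ha0, hs1, hs2⟩ := (C.S c').scale g hg0
    by_cases haA : a ∈ (C.S c').A
    · exact key g hg0 hg a ha0 haA hs1 hs2
    · -- pass to `g⁻¹` and `a⁻¹`
      have haiA : a⁻¹ ∈ (C.S c').A := ((C.S c').A.mem_or_inv_mem a).resolve_left haA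
      have ha0' : algebraMap K F a ≠ 0 := (map_ne_zero (algebraMap K F)).mpr ha0
      have h1 : g⁻¹ * (algebraMap K F a⁻¹)⁻¹ ∈ (C.S c').Ov := by
        have e : g⁻¹ * (algebraMap K F a⁻¹)⁻¹ = (g * (algebraMap K F a)⁻¹)⁻¹ := by
          rw [map_inv₀]
          field_simp
        rw [e]
        exact hs2
      have h2 : (g⁻¹ * (algebraMap K F a⁻¹)⁻¹)⁻¹ ∈ (C.S c').Ov := by
        have e : (g⁻¹ * (algebraMap K F a⁻¹)⁻¹)⁻¹ = g * (algebraMap K F a)⁻¹ := by
          rw [map_inv₀]
          field_simp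
        rw [e]
        exact hs1
      have hgc := hg c hT
      have h3 := key g⁻¹ (inv_ne_zero hg0)
        (fun c'' hc'' => ⟨(hg c'' hc'').2, by rw [inv_inv]; exact (hg c'' hc'').1⟩)
        a⁻¹ (inv_ne_zero ha0) haiA h1 h2
      rw [divOf_inv, mapDomain_neg_apply, (C.S c).red_inv hgc.1 hgc.2 hg0, Place.ord_inv] at h3
      omega

/-- **S6, the PUSH equality for the units of `O_c`**. -/
theorem GPushHyp.push_unit (H : GPushHyp C D₀ (Pi.evalAlgHom k Fk c) Q ρ (fun P => r P = x))
    (hF : IsRRField K F) (hD₀ : 0 ≤ D₀) (hpush₀ : Finsupp.mapDomain r D₀ x ≤ ρ)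
    (hexact : ∀ c', c' ≠ c → ∃ (m : ℕ) (e₀ : F), C.IsInt (m • D₀) e₀ ∧ (C.S c).red e₀ ≠ 0 ∧
      Q.ord ((C.S c).red e₀) = -(m * ρ) ∧ (C.S c').red e₀ = 0 ∧
      ∀ c'', c'' ≠ c' → (C.S c'').red e₀ ≠ 0)
    {g : F} (hg : g ∈ (C.S c).Ov) (hgi : g⁻¹ ∈ (C.S c).Ov) (hg0 : g ≠ 0) :
    Finsupp.mapDomain r (divOf hF g) x = Q.ord ((C.S c).red g) := by
  classical
  cases nonempty_fintype κ
  refine H.push_unit_aux hF hD₀ hpush₀ hexact (Finset.univ.erase c)
    (Finset.notMem_erase c _) g hg0 fun c' hc' => ?_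
  have : c' = c := by
    by_contra h
    exact hc' (Finset.mem_erase.mpr ⟨h, Finset.mem_univ _⟩)
  rw [this]
  exact ⟨hg, hgi⟩

end Unit

end Fermat.Agent.BadRedG
end
end MergeWrap_Lib_BadRed_Graph_Deuring_PushUnit

section MergeWrap_Lib_BadRed_Graph_Deuring_PushAll -- from Lib/BadRed/Graph/Deuring/PushAll.lean

set_option autoImplicit false
set_option linter.unusedSectionVars false
set_option linter.style.haveILetI false

/-!
# Cluster G, graph Deuring, steps S5 / S6: the PUSH equalities of a graph type (helper18)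

Port of `Nodal/Deuring2/PushTwo.lean` (concrete part), `PushOne.lean` and `PushType.lean` to a
family of components.  For a seed `G` with (LIFT) and a type `T : GraphType G`:

* `GraphSeed.gp_exists_tuple` : tuples of `graphRR (m R)` with the value `v` at all the branches,
  nowhere zero, with exact order `- m R_c(Q)` at a smooth point `Q` of the component `c`;
* `GraphSeed.gp_exists_unit` : units of all the valuation rings in `𝔏(m D₀)` with exact order at
  `Q`;
* `GraphSeed.gp_exists_zero` : functions of `𝔏(m D₀)` with exact order at `Q` which vanish on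
  exactly one other component;
* `GraphType.pushHyp` : the hypotheses `GPushHyp` of the abstract push theorems;
* `GraphType.pushAll_of : T.PushAll`, `GraphType.mapDomain_D₀_of`, `GraphType.push_of : T.Push`
  (from `hl : G.HasLift`), and the unconditional forms `GraphType.pushAll`,
  `GraphType.mapDomain_D₀`, `GraphType.push`.
-/

noncomputable section

open AlgebraicCurve Fermat.Agent.RR Fermat.Agent.Deuring

namespace Fermat.Agent.BadRedG

open Fermat.Agent.BadRed Fermat.Agent.BadRed.Push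

variable {K F k : Type*} [Field K] [Field F] [Algebra K F] [Field k]
  {κ : Type*} {Fk : κ → Type*} [∀ c, Field (Fk c)] [∀ c, Algebra k (Fk c)] {ι : Type*}
  [Fintype κ] [Fintype ι]

variable {G : GraphSeed K F k κ Fk ι}

/-- tuples of `∏ L(m R_c)`, nowhere zero, with the value `v` at all the branches of the nodes and
the exact order `- m R_c(Q)` at the smooth point `Q` of the component `c`. -/
theorem GraphSeed.gp_exists_tuple [Infinite k] (hl : G.HasLift) {m : ℕ} (hm : G.m₁ hl ≤ m)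
    {c : κ} {Q : Place k (Fk c)} (hQ : G.toGraphCore.IsSmoothPt c Q) (v : k) :
    ∃ y : ∀ c, Fk c, (∀ c', y c' ∈ riemannRochSpace (m • G.R c')) ∧ (∀ c', y c' ≠ 0) ∧
      (∀ (c' : κ) (Q' : Place k (Fk c')), G.toGraphCore.IsBr ⟨c', Q'⟩ → ValAt Q' (y c') v) ∧
      Q.ord (y c) = -((m : ℤ) * G.R c Q) := by
  classical
  have hQ' : ¬ G.toGraphCore.IsBr ⟨c, Q⟩ := (G.toGraphCore.isSmoothPt_iff c Q).mp hQ
  obtain ⟨a, ha, ha0, hav, haT⟩ := G.toGraphCore.exists_interp c (m • G.R c)
    (fun Q' hQ' => G.smul_R_br m hQ') {Q}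
    (fun Q' hQ'' => by rw [Finset.mem_singleton.mp hQ'']; exact hQ')
    (G.hdeg hl hm c) (fun _ => v)
  have hoth : ∀ c', ∃ b ∈ riemannRochSpace (m • G.R c'), b ≠ 0 ∧
      ∀ Q', G.toGraphCore.IsBr ⟨c', Q'⟩ → ValAt Q' b v := by
    intro c'
    obtain ⟨b, hb, hb0, hbv, -⟩ := G.toGraphCore.exists_interp c' (m • G.R c')
      (fun Q' hQ' => G.smul_R_br m hQ') ∅ (fun Q' hQ' => absurd hQ' (Finset.notMem_empty _))
      (G.hdeg hl hm c') (fun _ => v)
    exact ⟨b, hb, hb0, hbv⟩
  choose b hbL hb0 hbv using hoth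
  refine ⟨Function.update b c a, fun c' => ?_, fun c' => ?_, fun c' Q' hQ'' => ?_, ?_⟩
  · by_cases hc : c' = c
    · subst hc; rw [Function.update_self]; exact ha
    · rw [Function.update_of_ne hc]; exact hbL c'
  · by_cases hc : c' = c
    · subst hc; rw [Function.update_self]; exact ha0
    · rw [Function.update_of_ne hc]; exact hb0 c'
  · by_cases hc : c' = c
    · subst hc; rw [Function.update_self]; exact hav Q' hQ''
    · rw [Function.update_of_ne hc]; exact hbv c' Q' hQ''
  · rw [Function.update_self, haT Q (Finset.mem_singleton_self Q), Finsupp.smul_apply,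
      nsmul_eq_mul]

/-- units of all the valuation rings, in `𝔏(m D₀)`, whose reduction on the component `c` has the
exact order `- m R_c(Q)` at the smooth point `Q`. -/
theorem GraphSeed.gp_exists_unit [Infinite k] (hl : G.HasLift) {m : ℕ} (hm : G.m₁ hl ≤ m)
    {c : κ} {Q : Place k (Fk c)} (hQ : G.toGraphCore.IsSmoothPt c Q) :
    ∃ u : F, G.toGraphCore.IsInt (m • G.D₀) u ∧ (∀ c', (G.S c').red u ≠ 0) ∧
      Q.ord ((G.S c).red u) = -((m : ℤ) * G.R c Q) := by
  obtain ⟨y, hyL, hy0, hyv, hyo⟩ := G.gp_exists_tuple hl hm hQ 1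
  obtain ⟨u, hu, huy⟩ := G.exists_lift hl hm (G.toGraphCore.mem_graphRR_of_const 1 hyL hyv)
  have hr : ∀ c', (G.S c').red u = y c' := fun c' => congrFun huy c'
  refine ⟨u, hu, fun c' => ?_, ?_⟩
  · rw [hr]; exact hy0 c'
  · rw [hr]; exact hyo

/-- functions of `𝔏(m D₀)` whose reduction on the component `c` has the exact order `- m R_c(Q)`
at the smooth point `Q`, and which vanish on the component `c' ≠ c` and on no other one. -/
theorem GraphSeed.gp_exists_zero [Infinite k] (hl : G.HasLift) {m : ℕ} (hm : G.m₁ hl ≤ m)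
    {c : κ} {Q : Place k (Fk c)} (hQ : G.toGraphCore.IsSmoothPt c Q) {c' : κ} (hc' : c' ≠ c) :
    ∃ e₀ : F, G.toGraphCore.IsInt (m • G.D₀) e₀ ∧ (G.S c).red e₀ ≠ 0 ∧
      Q.ord ((G.S c).red e₀) = -((m : ℤ) * G.R c Q) ∧ (G.S c').red e₀ = 0 ∧
      ∀ c'', c'' ≠ c' → (G.S c'').red e₀ ≠ 0 := by
  classical
  obtain ⟨y, hyL, hy0, hyv, hyo⟩ := G.gp_exists_tuple hl hm hQ 0
  have hmem : Function.update y c' 0 ∈
      graphRR G.src G.tgt G.s₁ G.s₂ (fun c => m • G.R c) := by
    refine G.toGraphCore.mem_graphRR_of_const 0 (fun c'' => ?_) (fun c'' Q' hQ' => ?_)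
    · by_cases hc : c'' = c'
      · subst hc; rw [Function.update_self]; exact Submodule.zero_mem _
      · rw [Function.update_of_ne hc]; exact hyL c''
    · by_cases hc : c'' = c'
      · subst hc; rw [Function.update_self]; exact valAt_zero _
      · rw [Function.update_of_ne hc]; exact hyv c'' Q' hQ'
  obtain ⟨e₀, he, hey⟩ := G.exists_lift hl hm hmem
  have hr : ∀ c'', (G.S c'').red e₀ = Function.update y c' 0 c'' := fun c'' => congrFun hey c''
  have hrc : (G.S c).red e₀ = y c := by rw [hr, Function.update_of_ne hc'.symm]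
  refine ⟨e₀, he, ?_, ?_, ?_, fun c'' hc'' => ?_⟩
  · rw [hrc]; exact hy0 c
  · rw [hrc]; exact hyo
  · rw [hr, Function.update_self]
  · rw [hr, Function.update_of_ne hc'']; exact hy0 c''

namespace GraphType

variable [Infinite k] [Nonempty κ] (T : GraphType G)

/-- the hypotheses of the push inequality at the smooth point `Q` of the component `c`. -/
theorem pushHyp (hl : G.HasLift) {c : κ} {Q : Place k (Fk c)}
    (hQ : G.toGraphCore.IsSmoothPt c Q) :
    GPushHyp G.toGraphCore G.D₀ (Pi.evalAlgHom k Fk c) Q (G.R c Q)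
      (fun P => T.r P = some ⟨c, Q⟩) where
  base := by
    intro m y hy
    have h1 := (G.V_le m hy).1 c
    rw [mem_ordGE]
    rcases mem_riemannRochSpace_iff.mp h1 Q with h | h
    · exact Or.inl h
    · right
      rw [Finsupp.smul_apply, nsmul_eq_mul] at h
      exact h
  exact₀ := by
    refine ⟨G.m₁ hl, fun m hm => ?_⟩
    obtain ⟨u, hu, hu1, huo⟩ := G.gp_exists_unit hl hm hQ
    exact ⟨G.toGraphCore.redAll u, G.toGraphCore.redAll_mem_V hu, hu1 c, huo⟩
  pole := by
    intro P hP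
    obtain ⟨m, f, hf, hf0, hfo⟩ := T.pole P c Q hP
    refine ⟨m, G.toGraphCore.redAll f, G.toGraphCore.redAll_mem_V hf, hf0, ?_⟩
    rw [Finsupp.smul_apply, nsmul_eq_mul] at hfo
    exact hfo
  away := by
    intro P hP
    obtain ⟨m, f, hf, hf0, hfo⟩ := T.unit P c Q hQ hP
    refine ⟨m, G.toGraphCore.redAll f, G.toGraphCore.redAll_mem_V hf, hf0, ?_⟩
    rw [Finsupp.smul_apply, nsmul_eq_mul] at hfo
    exact hfo

/-- (F3) `r_* D₀ = R_c` at the smooth points of the component `c`. -/
theorem mapDomain_D₀_of (hl : G.HasLift) {c : κ} {Q : Place k (Fk c)}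
    (hQ : G.toGraphCore.IsSmoothPt c Q) :
    Finsupp.mapDomain T.r G.D₀ (some ⟨c, Q⟩) = G.R c Q := by
  have hm : G.m₁ hl ≤ G.m₁ hl + 1 := Nat.le_succ _
  obtain ⟨u, hu, hu1, huo⟩ := G.gp_exists_unit hl hm hQ
  have huo' : Q.ord ((Pi.evalAlgHom k Fk c) (G.toGraphCore.redAll u))
      = -(((G.m₁ hl + 1 : ℕ) : ℤ) * G.R c Q) := huo
  exact (T.pushHyp hl hQ).mapDomain_D₀_eq (G.S c).hF (Nat.succ_pos _) hu
    (fun c' => (G.S c').inv_mem_of_red_ne_zero (hu1 c')) (hu1 c) huo'

end GraphType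

/-- **S5**: push at the smooth points, for the units of all the valuation rings. -/
theorem GraphType.pushAll_of [Infinite k] (T : GraphType G) (hl : G.HasLift) : T.PushAll := by
  intro c f hf hfi hf0 Q hQ
  haveI : Nonempty κ := ⟨c⟩
  exact (T.pushHyp hl hQ).mapDomain_eq (G.S c).hF hf hfi hf0

/-- **S6**: push at the smooth points of the component `c`, for the units of the valuation ring
of `c`. -/
theorem GraphType.push_of [Infinite k] (T : GraphType G) (hl : G.HasLift) : T.Push := by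
  intro c f hf hfi hf0 Q hQ₁ hQ₂
  haveI : Nonempty κ := ⟨c⟩
  have hQ : G.toGraphCore.IsSmoothPt c Q := ⟨hQ₁, hQ₂⟩
  refine (T.pushHyp hl hQ).push_unit (G.S c).hF G.D₀_nonneg (T.mapDomain_D₀_of hl hQ).le
    (fun c' hc' => ?_) hf hfi hf0
  obtain ⟨e₀, he, h1, h2, h3, h4⟩ := G.gp_exists_zero hl (le_refl _) hQ hc'
  exact ⟨G.m₁ hl, e₀, he, h1, h2, h3, h4⟩

/-! ### unconditional forms -/

/-- **S5**, unconditional. -/
theorem GraphType.pushAll [Infinite k] (T : GraphType G) : T.PushAll := by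
  intro c
  haveI : Nonempty κ := ⟨c⟩
  exact T.pushAll_of G.hasLift c

/-- (F3), unconditional. -/
theorem GraphType.mapDomain_D₀ [Infinite k] (T : GraphType G) {c : κ} {Q : Place k (Fk c)}
    (hQ : G.toGraphCore.IsSmoothPt c Q) :
    Finsupp.mapDomain T.r G.D₀ (some ⟨c, Q⟩) = G.R c Q := by
  haveI : Nonempty κ := ⟨c⟩
  exact T.mapDomain_D₀_of G.hasLift hQ

/-- **S6**, unconditional: the field `push` of the graph package. -/
theorem GraphType.push [Infinite k] (T : GraphType G) : T.Push := by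
  intro c
  haveI : Nonempty κ := ⟨c⟩
  exact T.push_of G.hasLift c

end Fermat.Agent.BadRedG
end
end MergeWrap_Lib_BadRed_Graph_Deuring_PushAll

section MergeWrap_Lib_BadRed_Graph_NSAbs -- from Lib/BadRed/Graph/NSAbs.lean

set_option autoImplicit false
set_option linter.style.haveILetI false
set_option linter.unusedSectionVars false

/-!
# Cluster G (S36), G-KEY part NS: non-special points on a connected graph of curves

`κ` a finite set of components (function fields `Fk c / k`), `ι` a finite set of nodes, the node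
`i` glues the point `b₁ i` to the point `b₂ i` (points of `Σ c, Place k (Fk c)`), on DIFFERENT
components; the graph is connected.

`exists_graph_nonspecial_list` / `exists_graph_nonspecial_fin`: there are
`g = Σ g_c + #ι + 1 - #κ` smooth points `Rb i` of the special fibre, chosen ONE BY ONE (each new
point avoids `avoid (points already chosen)`), such that every tuple of functions `(a_c)`, regular
outside the `Rb i`, with at most simple poles, taking the same value on both branches of every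
node, is a constant tuple.

Proof.  Grow a set `S` of components from one component along the graph (`conn`).  The first
component `c₀` gets `g_{c₀}` non-special points.  A new component `c`, joined to `S` by the nodes
`B ≠ ∅`, gets `g_c + #B - 1` points `T` with `ℓ(T - B) = 0` (`exists_greedy_list`): the tuple is
a constant `x` on `S`, so `a_c - x` vanishes on `B`, and lies in `L(T - B) = 0`.

Pure function-field statement (no reduction package); the `src / tgt / s₁ / s₂` form at the end is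
the form of the fields of `GraphSetup` / `GraphCore`.
-/

noncomputable section

open AlgebraicCurve

namespace Fermat.Agent.BadRedG

open Fermat.Agent.RR Fermat.Agent.BadRed

/-- one component: if `ℓ(T - B) = 0`, a function with at most simple poles in `T`, regular
elsewhere, taking the value `x` at all the points of `B`, is the constant `x`. -/
theorem eq_algebraMap_of_valAt {k F : Type*} [Field k] [Field F] [Algebra k F]
    (h : IsRRField k F) {B T : Finset (Place k F)}
    (hell : ell (-sumPlaces B + sumPlaces T) = 0) (hBT : ∀ Q ∈ B, Q ∉ T)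
    (a : F) (x : k)
    (ha1 : ∀ Q, Q ∉ T → 0 ≤ Q.ord a) (ha2 : ∀ Q ∈ T, -1 ≤ Q.ord a)
    (hval : ∀ Q ∈ B, ValAt Q a x) : a = algebraMap k F x := by
  classical
  have hbot : riemannRochSpace (-sumPlaces B + sumPlaces T) = ⊥ := by
    haveI := finite_riemannRochSpace h (-sumPlaces B + sumPlaces T)
    exact Submodule.finrank_eq_zero.mp hell
  by_contra hne
  have hf0 : a - algebraMap k F x ≠ 0 := sub_ne_zero.mpr hne
  have hmem : a - algebraMap k F x ∈ riemannRochSpace (-sumPlaces B + sumPlaces T) := by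
    rw [mem_riemannRochSpace_iff]
    intro Q
    right
    rw [Finsupp.add_apply, Finsupp.neg_apply, neg_add, neg_neg]
    have hbound : ∀ m : ℤ, m ≤ 0 → m ≤ Q.ord a → m ≤ Q.ord (a - algebraMap k F x) := by
      intro m hm0 hma
      rcases eq_or_ne a 0 with rfl | ha
      · rw [zero_sub, nodal_ord_neg, Fermat.Agent.S24Res.ord_algebraMap]
        exact hm0
      rcases eq_or_ne x 0 with rfl | hc0
      · rw [map_zero, sub_zero]
        exact hma
      have hcne : -algebraMap k F x ≠ 0 :=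
        neg_ne_zero.mpr ((map_ne_zero (algebraMap k F)).mpr hc0)
      have hadd := Fermat.Agent.S24Res.ord_add_ge Q ha hcne (by rwa [← sub_eq_add_neg])
      rw [nodal_ord_neg, Fermat.Agent.S24Res.ord_algebraMap, ← sub_eq_add_neg] at hadd
      exact le_trans (le_min hma hm0) hadd
    by_cases hQN : Q ∈ B
    · rw [sumPlaces_apply_of_mem hQN, sumPlaces_apply_of_not_mem (hBT Q hQN)]
      rcases hval Q hQN with h | h
      · exact absurd h hne
      · omega
    · rw [sumPlaces_apply_of_not_mem hQN]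
      by_cases hQT : Q ∈ T
      · rw [sumPlaces_apply_of_mem hQT]
        have := hbound (-1) (by omega) (ha2 Q hQT)
        omega
      · rw [sumPlaces_apply_of_not_mem hQT]
        have := hbound 0 le_rfl (ha1 Q hQT)
        omega
  rw [hbot, Submodule.mem_bot] at hmem
  exact hf0 hmem

/-! ### Generic: from a greedy list to a family indexed by `Fin g` -/

open Classical in
/-- a greedy chain (reverse chronological order) of length `g` without repetition, as a family
`Rb : Fin g → β` in chronological order. -/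
theorem exists_fin_of_greedyChain {β : Type*} (avoid : Finset β → Finset β) (l : List β)
    (hnd : l.Nodup) (hchain : GreedyChain avoid l) (g : ℕ) (hlg : l.length = g) :
    ∃ Rb : Fin g → β, Function.Injective Rb ∧
      (∀ i, Rb i ∉ avoid ((Finset.univ.filter (fun j => j < i)).image Rb)) ∧
      (∀ i, Rb i ∈ l) ∧ ∀ x ∈ l, ∃ i, Rb i = x := by
  have hidx : ∀ i : Fin g, g - 1 - (i : ℕ) < l.length := fun i => by
    have := i.2
    omega
  set Rb : Fin g → β := fun i => l[g - 1 - (i : ℕ)]'(hidx i) with hRb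
  have hRb_mem : ∀ i, Rb i ∈ l := fun i => List.getElem_mem _
  have hmem_Rb : ∀ x ∈ l, ∃ i, Rb i = x := by
    intro x hx
    obtain ⟨q, hq, rfl⟩ := List.getElem_of_mem hx
    refine ⟨⟨g - 1 - q, by omega⟩, ?_⟩
    show l[g - 1 - (g - 1 - q)]'_ = l[q]
    congr 1
    omega
  refine ⟨Rb, ?_, ?_, hRb_mem, hmem_Rb⟩
  · intro i j hij
    have h1 := (List.Nodup.getElem_inj_iff hnd).mp hij
    have hi := i.2
    have hj := j.2
    apply Fin.ext
    omega
  · intro i
    have h1 := hchain.getElem_notMem (g - 1 - (i : ℕ)) (hidx i)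
    have h2 : (Finset.univ.filter (fun j => j < i)).image Rb =
        (l.drop (g - 1 - (i : ℕ) + 1)).toFinset := by
      ext x
      rw [Finset.mem_image, List.mem_toFinset]
      constructor
      · rintro ⟨j, hj, rfl⟩
        rw [Finset.mem_filter] at hj
        have hji : (j : ℕ) < (i : ℕ) := hj.2
        have hi := i.2
        rw [List.mem_iff_getElem]
        refine ⟨(i : ℕ) - 1 - (j : ℕ), ?_, ?_⟩
        · rw [List.length_drop]
          omega
        · rw [List.getElem_drop]
          show l[_] = l[_]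
          congr 1
          omega
      · intro hx
        rw [List.mem_iff_getElem] at hx
        obtain ⟨q, hq, rfl⟩ := hx
        rw [List.length_drop] at hq
        have hi := i.2
        refine ⟨⟨(i : ℕ) - 1 - q, by omega⟩, ?_, ?_⟩
        · rw [Finset.mem_filter]
          refine ⟨Finset.mem_univ _, ?_⟩
          show (i : ℕ) - 1 - q < (i : ℕ)
          omega
        · rw [List.getElem_drop]
          show l[_] = l[_]
          congr 1
          show g - 1 - ((i : ℕ) - 1 - q) = g - 1 - (i : ℕ) + 1 + q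
          omega
    rw [h2]
    convert h1

/-! ### The invariant of the construction -/

variable {k : Type*} [Field k] {κ : Type*} {Fk : κ → Type*} [∀ c, Field (Fk c)]
  [∀ c, Algebra k (Fk c)] {ι : Type*}

open Classical in
/-- the number of nodes joining two components of `S`. -/
def graphInnerCard [Fintype ι] (b₁ b₂ : ι → Σ c, Place k (Fk c)) (S : Finset κ) : ℕ :=
  (Finset.univ.filter (fun i => (b₁ i).1 ∈ S ∧ (b₂ i).1 ∈ S)).card

open Classical in
/-- the invariant: `l` is a greedy list of non-special points for the sub-graph on `S`. -/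
def GraphNSGood [Fintype ι] (b₁ b₂ : ι → Σ c, Place k (Fk c))
    (avoid : Finset (Σ c, Place k (Fk c)) → Finset (Σ c, Place k (Fk c)))
    (S : Finset κ) (l : List (Σ c, Place k (Fk c))) : Prop :=
  (∀ p ∈ l, p.1 ∈ S) ∧
  l.length + S.card = (∑ c ∈ S, genusFF k (Fk c)) + graphInnerCard b₁ b₂ S + 1 ∧
  l.Nodup ∧ GreedyChain avoid l ∧ (∀ i, b₁ i ∉ l) ∧ (∀ i, b₂ i ∉ l) ∧
  ∀ a : ∀ c, Fk c,
    (∀ c ∈ S, ∀ Q : Place k (Fk c), (⟨c, Q⟩ : Σ c, Place k (Fk c)) ∉ l → 0 ≤ Q.ord (a c)) →
    (∀ c ∈ S, ∀ Q : Place k (Fk c), -1 ≤ Q.ord (a c)) →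
    (∀ i, (b₁ i).1 ∈ S → (b₂ i).1 ∈ S →
      ∃ x : k, ValAt (b₁ i).2 (a (b₁ i).1) x ∧ ValAt (b₂ i).2 (a (b₂ i).1) x) →
    ∃ x : k, ∀ c ∈ S, a c = algebraMap k (Fk c) x

/-- the branch points. -/
def graphBranches [Fintype ι] [DecidableEq (Σ c, Place k (Fk c))]
    (b₁ b₂ : ι → Σ c, Place k (Fk c)) : Finset (Σ c, Place k (Fk c)) :=
  Finset.univ.image b₁ ∪ Finset.univ.image b₂

theorem mem_graphBranches [Fintype ι] [DecidableEq (Σ c, Place k (Fk c))]
    (b₁ b₂ : ι → Σ c, Place k (Fk c)) (p : Σ c, Place k (Fk c)) :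
    p ∈ graphBranches b₁ b₂ ↔ (∃ i, b₁ i = p) ∨ ∃ i, b₂ i = p := by
  unfold graphBranches
  rw [Finset.mem_union, Finset.mem_image, Finset.mem_image]
  simp

/-- the base case: one component. -/
theorem exists_graphNSGood_singleton [Fintype ι] [IsAlgClosed k]
    (hRR : ∀ c, IsRRField k (Fk c))
    (b₁ b₂ : ι → Σ c, Place k (Fk c)) (hne : ∀ i, (b₁ i).1 ≠ (b₂ i).1)
    (avoid : Finset (Σ c, Place k (Fk c)) → Finset (Σ c, Place k (Fk c))) (c₀ : κ) :
    ∃ l, GraphNSGood b₁ b₂ avoid {c₀} l := by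
  classical
  haveI : Infinite k := IsAlgClosed.instInfinite
  haveI : Infinite (Place k (Fk c₀)) := infinite_place (hRR c₀)
  have hinj : Function.Injective (@Sigma.mk κ (fun c => Place k (Fk c)) c₀) :=
    sigma_mk_injective
  obtain ⟨l₀, hlen, hnd, hZ, hchain, hell⟩ := exists_greedy_list (hRR c₀)
    (@Sigma.mk κ (fun c => Place k (Fk c)) c₀) hinj
    avoid [] ((graphBranches b₁ b₂).preimage _ hinj.injOn) 0 (genusFF k (Fk c₀)) (by
      rw [map_zero, ell_zero (hRR c₀)]
      push_cast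
      omega)
  rw [zero_add, ell_zero (hRR c₀)] at hell
  have hmem : ∀ Q : Place k (Fk c₀),
      (⟨c₀, Q⟩ : Σ c, Place k (Fk c)) ∈ l₀.map (Sigma.mk c₀) ↔ Q ∈ l₀ := fun Q =>
    List.mem_map_of_injective hinj
  have hbr : ∀ p ∈ l₀.map (Sigma.mk c₀), p ∉ graphBranches b₁ b₂ := by
    intro p hp
    obtain ⟨Q, hQ, rfl⟩ := List.mem_map.mp hp
    have := hZ Q hQ
    rwa [Finset.mem_preimage] at this
  refine ⟨l₀.map (Sigma.mk c₀), ?_, ?_, hnd.map hinj, hchain, ?_, ?_, ?_⟩
  · intro p hp
    obtain ⟨Q, -, rfl⟩ := List.mem_map.mp hp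
    exact Finset.mem_singleton_self c₀
  · have h0 : graphInnerCard b₁ b₂ ({c₀} : Finset κ) = 0 := by
      unfold graphInnerCard
      rw [Finset.card_eq_zero, Finset.filter_eq_empty_iff]
      rintro i - ⟨h1, h2⟩
      rw [Finset.mem_singleton] at h1 h2
      exact hne i (h1.trans h2.symm)
    rw [h0, List.length_map, hlen, Finset.card_singleton, Finset.sum_singleton]
  · intro i hi
    exact hbr _ hi ((mem_graphBranches b₁ b₂ _).mpr (Or.inl ⟨i, rfl⟩))
  · intro i hi
    exact hbr _ hi ((mem_graphBranches b₁ b₂ _).mpr (Or.inr ⟨i, rfl⟩))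
  · intro a ha1 ha2 _
    obtain ⟨x, hx⟩ := eq_algebraMap_of_mem_of_ell_eq_one (hRR c₀) (sumPlaces_nonneg l₀.toFinset)
      hell (f := a c₀) (mem_riemannRochSpace_sumPlaces
        (fun Q hQ => ha1 c₀ (Finset.mem_singleton_self c₀) Q (by
          rw [hmem]
          rwa [List.mem_toFinset] at hQ))
        (fun Q _ => ha2 c₀ (Finset.mem_singleton_self c₀) Q))
    refine ⟨x, fun c hc => ?_⟩
    rw [Finset.mem_singleton] at hc
    subst hc
    exact hx

open Classical in
/-- the step: a new component `c`, joined to `S` by at least one node. -/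
theorem exists_graphNSGood_insert [Fintype ι] [IsAlgClosed k]
    (hRR : ∀ c, IsRRField k (Fk c))
    (b₁ b₂ : ι → Σ c, Place k (Fk c)) (hne : ∀ i, (b₁ i).1 ≠ (b₂ i).1)
    (hb₁ : Function.Injective b₁) (hb₂ : Function.Injective b₂) (hb₁₂ : ∀ i j, b₁ i ≠ b₂ j)
    (avoid : Finset (Σ c, Place k (Fk c)) → Finset (Σ c, Place k (Fk c)))
    (S : Finset κ) (l : List (Σ c, Place k (Fk c))) (hgood : GraphNSGood b₁ b₂ avoid S l)
    (c : κ) (hc : c ∉ S)
    (hadj : ∃ i, ((b₁ i).1 = c ∧ (b₂ i).1 ∈ S) ∨ ((b₂ i).1 = c ∧ (b₁ i).1 ∈ S)) :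
    ∃ l', GraphNSGood b₁ b₂ avoid (insert c S) l' := by
  classical
  obtain ⟨hlS, hcount, hnd, hchain, hn₁, hn₂, hconst⟩ := hgood
  haveI : Infinite k := IsAlgClosed.instInfinite
  haveI : Infinite (Place k (Fk c)) := infinite_place (hRR c)
  have hinj : Function.Injective (@Sigma.mk κ (fun c => Place k (Fk c)) c) :=
    sigma_mk_injective
  set E₁ : Finset ι := Finset.univ.filter (fun i => (b₁ i).1 = c ∧ (b₂ i).1 ∈ S) with hE₁
  set E₂ : Finset ι := Finset.univ.filter (fun i => (b₂ i).1 = c ∧ (b₁ i).1 ∈ S) with hE₂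
  set Bs : Finset (Σ c, Place k (Fk c)) := E₁.image b₁ ∪ E₂.image b₂ with hBs
  set B : Finset (Place k (Fk c)) := Bs.preimage _ hinj.injOn with hB
  have hBscard : Bs.card = E₁.card + E₂.card := by
    rw [hBs, Finset.card_union_of_disjoint, Finset.card_image_of_injective _ hb₁,
      Finset.card_image_of_injective _ hb₂]
    rw [Finset.disjoint_left]
    intro p hp1 hp2
    obtain ⟨i, -, rfl⟩ := Finset.mem_image.mp hp1
    obtain ⟨j, -, h⟩ := Finset.mem_image.mp hp2
    exact hb₁₂ i j h.symm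
  have hBsfst : ∀ p ∈ Bs, p.1 = c := by
    intro p hp
    rcases Finset.mem_union.mp hp with hp | hp
    · obtain ⟨i, hi, rfl⟩ := Finset.mem_image.mp hp
      exact (Finset.mem_filter.mp hi).2.1
    · obtain ⟨i, hi, rfl⟩ := Finset.mem_image.mp hp
      exact (Finset.mem_filter.mp hi).2.1
  have hBsbr : ∀ p ∈ Bs, p ∈ graphBranches b₁ b₂ := by
    intro p hp
    rw [mem_graphBranches]
    rcases Finset.mem_union.mp hp with hp | hp
    · obtain ⟨i, -, hi⟩ := Finset.mem_image.mp hp
      exact Or.inl ⟨i, hi⟩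
    · obtain ⟨i, -, hi⟩ := Finset.mem_image.mp hp
      exact Or.inr ⟨i, hi⟩
  have hBcard : B.card = E₁.card + E₂.card := by
    rw [← hBscard, hB, Finset.card_preimage]
    congr 1
    rw [Finset.filter_eq_self]
    intro p hp
    have h1 := hBsfst p hp
    rcases p with ⟨c', Q⟩
    simp only at h1
    subst h1
    exact ⟨Q, rfl⟩
  have hBpos : 0 < B.card := by
    rw [hBcard]
    obtain ⟨i, hi | hi⟩ := hadj
    · have h1 : i ∈ E₁ := Finset.mem_filter.mpr ⟨Finset.mem_univ _, hi⟩
      have := Finset.card_pos.mpr ⟨i, h1⟩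
      omega
    · have h1 : i ∈ E₂ := Finset.mem_filter.mpr ⟨Finset.mem_univ _, hi⟩
      have := Finset.card_pos.mpr ⟨i, h1⟩
      omega
  have hinner : graphInnerCard b₁ b₂ (insert c S) =
      graphInnerCard b₁ b₂ S + E₁.card + E₂.card := by
    unfold graphInnerCard
    have hdisj1 : Disjoint (Finset.univ.filter (fun i => (b₁ i).1 ∈ S ∧ (b₂ i).1 ∈ S)) E₁ := by
      rw [Finset.disjoint_left]
      intro i h1 h2
      have h1' := (Finset.mem_filter.mp h1).2
      have h2' := (Finset.mem_filter.mp h2).2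
      exact hc (h2'.1 ▸ h1'.1)
    have hdisj2 : Disjoint (Finset.univ.filter (fun i => (b₁ i).1 ∈ S ∧ (b₂ i).1 ∈ S) ∪ E₁)
        E₂ := by
      rw [Finset.disjoint_left]
      intro i h1 h2
      have h2' := (Finset.mem_filter.mp h2).2
      rcases Finset.mem_union.mp h1 with h1 | h1
      · have h1' := (Finset.mem_filter.mp h1).2
        exact hc (h2'.1 ▸ h1'.2)
      · have h1' := (Finset.mem_filter.mp h1).2
        exact hne i (h1'.1.trans h2'.1.symm)
    have heq : Finset.univ.filter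
        (fun i => (b₁ i).1 ∈ insert c S ∧ (b₂ i).1 ∈ insert c S) =
        (Finset.univ.filter (fun i => (b₁ i).1 ∈ S ∧ (b₂ i).1 ∈ S) ∪ E₁) ∪ E₂ := by
      ext i
      simp only [Finset.mem_filter, Finset.mem_univ, true_and, Finset.mem_union,
        Finset.mem_insert, hE₁, hE₂]
      constructor
      · rintro ⟨h1 | h1, h2 | h2⟩
        · exact absurd (h1.trans h2.symm) (hne i)
        · exact Or.inl (Or.inr ⟨h1, h2⟩)
        · exact Or.inr ⟨h2, h1⟩
        · exact Or.inl (Or.inl ⟨h1, h2⟩)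
      · rintro ((⟨h1, h2⟩ | ⟨h1, h2⟩) | ⟨h1, h2⟩)
        · exact ⟨Or.inr h1, Or.inr h2⟩
        · exact ⟨Or.inl h1, Or.inr h2⟩
        · exact ⟨Or.inr h2, Or.inl h1⟩
    rw [heq, Finset.card_union_of_disjoint hdisj2, Finset.card_union_of_disjoint hdisj1]
  have hdeg0 : Divisor.degree (-sumPlaces B) = -(B.card : ℤ) := by
    rw [map_neg, degree_sumPlaces (hRR c)]
  have hell0 : ell (-sumPlaces B) = 0 :=
    ell_eq_zero_of_degree_neg (hRR c) (by rw [hdeg0]; omega)
  obtain ⟨lc, hlen_c, hnd_c, hZ_c, hchain_c, hell_c⟩ := exists_greedy_list (hRR c)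
    (@Sigma.mk κ (fun c => Place k (Fk c)) c) hinj avoid l
    ((graphBranches b₁ b₂).preimage _ hinj.injOn) (-sumPlaces B)
    (genusFF k (Fk c) + B.card - 1) (by
      rw [hdeg0, hell0]
      have : ((genusFF k (Fk c) + B.card - 1 : ℕ) : ℤ) =
          (genusFF k (Fk c) : ℤ) + (B.card : ℤ) - 1 := by
        rw [Nat.cast_sub (by omega)]
        push_cast
        ring
      rw [this]
      push_cast
      omega)
  rw [hell0] at hell_c
  have hmem_map : ∀ Q : Place k (Fk c),
      (⟨c, Q⟩ : Σ c, Place k (Fk c)) ∈ lc.map (Sigma.mk c) ↔ Q ∈ lc := fun Q =>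
    List.mem_map_of_injective hinj
  have hfst_map : ∀ p ∈ lc.map (@Sigma.mk κ (fun c => Place k (Fk c)) c), p.1 = c := by
    intro p hp
    obtain ⟨Q, -, rfl⟩ := List.mem_map.mp hp
    rfl
  have hbr_map : ∀ p ∈ lc.map (@Sigma.mk κ (fun c => Place k (Fk c)) c),
      p ∉ graphBranches b₁ b₂ := by
    intro p hp
    obtain ⟨Q, hQ, rfl⟩ := List.mem_map.mp hp
    have := hZ_c Q hQ
    rwa [Finset.mem_preimage] at this
  refine ⟨lc.map (Sigma.mk c) ++ l, ?_, ?_, ?_, hchain_c.append hchain, ?_, ?_, ?_⟩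
  · intro p hp
    rcases List.mem_append.mp hp with hp | hp
    · rw [hfst_map p hp]
      exact Finset.mem_insert_self c S
    · exact Finset.mem_insert_of_mem (hlS p hp)
  · rw [List.length_append, List.length_map, hlen_c, Finset.card_insert_of_notMem hc,
      Finset.sum_insert hc, hinner, hBcard]
    rw [hBcard] at hBpos
    omega
  · refine List.Nodup.append (hnd_c.map hinj) hnd ?_
    intro p hp1 hp2
    exact hc (hfst_map p hp1 ▸ hlS p hp2)
  · intro i hi
    rcases List.mem_append.mp hi with hi | hi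
    · exact hbr_map _ hi ((mem_graphBranches b₁ b₂ _).mpr (Or.inl ⟨i, rfl⟩))
    · exact hn₁ i hi
  · intro i hi
    rcases List.mem_append.mp hi with hi | hi
    · exact hbr_map _ hi ((mem_graphBranches b₁ b₂ _).mpr (Or.inr ⟨i, rfl⟩))
    · exact hn₂ i hi
  · intro a ha1 ha2 hnode
    obtain ⟨x, hx⟩ := hconst a
      (fun c' hc' Q hQ => ha1 c' (Finset.mem_insert_of_mem hc') Q (by
        intro hmem
        rcases List.mem_append.mp hmem with h | h
        · have h1 : c' = c := hfst_map _ h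
          exact hc (h1 ▸ hc')
        · exact hQ h))
      (fun c' hc' Q => ha2 c' (Finset.mem_insert_of_mem hc') Q)
      (fun i h1 h2 => hnode i (Finset.mem_insert_of_mem h1) (Finset.mem_insert_of_mem h2))
    have key : ∀ (p : Σ c, Place k (Fk c)) (Q : Place k (Fk c)), p = ⟨c, Q⟩ →
        ValAt p.2 (a p.1) x → ValAt Q (a c) x := by
      rintro _ Q rfl h
      exact h
    have hnew : a c = algebraMap k (Fk c) x := by
      refine eq_algebraMap_of_valAt (hRR c) (B := B) (T := lc.toFinset) hell_c ?_ (a c) x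
        ?_ ?_ ?_
      · intro Q hQB hQT
        rw [List.mem_toFinset] at hQT
        have h1 := hZ_c Q hQT
        rw [Finset.mem_preimage] at h1
        rw [hB, Finset.mem_preimage] at hQB
        exact h1 (hBsbr _ hQB)
      · intro Q hQ
        apply ha1 c (Finset.mem_insert_self _ _) Q
        intro hmem
        rcases List.mem_append.mp hmem with h | h
        · exact hQ (List.mem_toFinset.mpr ((hmem_map Q).mp h))
        · exact hc (hlS _ h)
      · intro Q _
        exact ha2 c (Finset.mem_insert_self _ _) Q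
      · intro Q hQB
        rw [hB, Finset.mem_preimage] at hQB
        rcases Finset.mem_union.mp hQB with h | h
        · obtain ⟨i, hi, hie⟩ := Finset.mem_image.mp h
          have hi' := (Finset.mem_filter.mp hi).2
          obtain ⟨y, hy1, hy2⟩ := hnode i (hi'.1 ▸ Finset.mem_insert_self _ _)
            (Finset.mem_insert_of_mem hi'.2)
          rw [hx _ hi'.2, valAt_algebraMap_iff] at hy2
          subst hy2
          exact key _ Q hie hy1
        · obtain ⟨i, hi, hie⟩ := Finset.mem_image.mp h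
          have hi' := (Finset.mem_filter.mp hi).2
          obtain ⟨y, hy1, hy2⟩ := hnode i (Finset.mem_insert_of_mem hi'.2)
            (hi'.1 ▸ Finset.mem_insert_self _ _)
          rw [hx _ hi'.2, valAt_algebraMap_iff] at hy1
          subst hy1
          exact key _ Q hie hy2
    refine ⟨x, fun c' hc' => ?_⟩
    rcases Finset.mem_insert.mp hc' with h | hc'
    · rw [h]
      exact hnew
    · exact hx c' hc'

/-- all the components. -/
theorem exists_graphNSGood_univ [Fintype κ] [Nonempty κ] [Fintype ι] [IsAlgClosed k]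
    (hRR : ∀ c, IsRRField k (Fk c))
    (b₁ b₂ : ι → Σ c, Place k (Fk c)) (hne : ∀ i, (b₁ i).1 ≠ (b₂ i).1)
    (hb₁ : Function.Injective b₁) (hb₂ : Function.Injective b₂) (hb₁₂ : ∀ i j, b₁ i ≠ b₂ j)
    (conn : ∀ T : Set κ, (∀ i, (b₁ i).1 ∈ T ↔ (b₂ i).1 ∈ T) → T = ∅ ∨ T = Set.univ)
    (avoid : Finset (Σ c, Place k (Fk c)) → Finset (Σ c, Place k (Fk c))) :
    ∃ l, GraphNSGood b₁ b₂ avoid Finset.univ l := by
  classical
  have key : ∀ n : ℕ, ∀ S : Finset κ, S.Nonempty → Fintype.card κ - S.card = n →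
      (∃ l, GraphNSGood b₁ b₂ avoid S l) → ∃ l, GraphNSGood b₁ b₂ avoid Finset.univ l := by
    intro n
    induction n with
    | zero =>
      intro S _ hS hP
      have hSu : S = Finset.univ := by
        apply Finset.eq_univ_of_card
        have := Finset.card_le_univ S
        omega
      rwa [hSu] at hP
    | succ n ih =>
      rintro S hSne hS ⟨l, hl⟩
      have hSuniv : (S : Set κ) ≠ Set.univ := by
        intro h
        have hSu : S = Finset.univ := Finset.coe_eq_univ.mp h
        rw [hSu, Finset.card_univ] at hS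
        omega
      have hSempty : (S : Set κ) ≠ ∅ := by
        intro h
        exact hSne.ne_empty (Finset.coe_eq_empty.mp h)
      have hex : ∃ i, ¬ ((b₁ i).1 ∈ (S : Set κ) ↔ (b₂ i).1 ∈ (S : Set κ)) := by
        by_contra hcon
        push Not at hcon
        rcases conn (S : Set κ) hcon with h | h
        · exact hSempty h
        · exact hSuniv h
      obtain ⟨i, hi⟩ := hex
      rw [Finset.mem_coe, Finset.mem_coe] at hi
      by_cases h1 : (b₁ i).1 ∈ S
      · have h2 : (b₂ i).1 ∉ S := fun h2 => hi ⟨fun _ => h2, fun _ => h1⟩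
        obtain ⟨l', hl'⟩ := exists_graphNSGood_insert hRR b₁ b₂ hne hb₁ hb₂ hb₁₂ avoid S l hl
          (b₂ i).1 h2 ⟨i, Or.inr ⟨rfl, h1⟩⟩
        exact ih (insert (b₂ i).1 S) (Finset.insert_nonempty _ _)
          (by rw [Finset.card_insert_of_notMem h2]; omega) ⟨l', hl'⟩
      · have h2 : (b₂ i).1 ∈ S := by
          by_contra h2
          exact hi ⟨fun h => absurd h h1, fun h => absurd h h2⟩
        obtain ⟨l', hl'⟩ := exists_graphNSGood_insert hRR b₁ b₂ hne hb₁ hb₂ hb₁₂ avoid S l hl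
          (b₁ i).1 h1 ⟨i, Or.inl ⟨rfl, h2⟩⟩
        exact ih (insert (b₁ i).1 S) (Finset.insert_nonempty _ _)
          (by rw [Finset.card_insert_of_notMem h1]; omega) ⟨l', hl'⟩
  obtain ⟨c₀⟩ := ‹Nonempty κ›
  exact key _ {c₀} (Finset.singleton_nonempty c₀) rfl
    (exists_graphNSGood_singleton hRR b₁ b₂ hne avoid c₀)

/-- **graph non-special points, greedy list form** (branches as points of
`Σ c, Place k (Fk c)`): the list is in reverse chronological order. -/
theorem exists_graph_nonspecial_list [Fintype κ] [Nonempty κ] [Fintype ι] [IsAlgClosed k]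
    (hRR : ∀ c, IsRRField k (Fk c))
    (b₁ b₂ : ι → Σ c, Place k (Fk c)) (hne : ∀ i, (b₁ i).1 ≠ (b₂ i).1)
    (hb₁ : Function.Injective b₁) (hb₂ : Function.Injective b₂) (hb₁₂ : ∀ i j, b₁ i ≠ b₂ j)
    (conn : ∀ T : Set κ, (∀ i, (b₁ i).1 ∈ T ↔ (b₂ i).1 ∈ T) → T = ∅ ∨ T = Set.univ)
    (avoid : Finset (Σ c, Place k (Fk c)) → Finset (Σ c, Place k (Fk c))) :
    ∃ l : List (Σ c, Place k (Fk c)),
      l.length + Fintype.card κ = (∑ c, genusFF k (Fk c)) + Fintype.card ι + 1 ∧ l.Nodup ∧
      GreedyChain avoid l ∧ (∀ i, b₁ i ∉ l) ∧ (∀ i, b₂ i ∉ l) ∧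
      ∀ a : ∀ c, Fk c,
        (∀ c (Q : Place k (Fk c)), (⟨c, Q⟩ : Σ c, Place k (Fk c)) ∉ l → 0 ≤ Q.ord (a c)) →
        (∀ c (Q : Place k (Fk c)), -1 ≤ Q.ord (a c)) →
        (∀ i, ∃ x : k, ValAt (b₁ i).2 (a (b₁ i).1) x ∧ ValAt (b₂ i).2 (a (b₂ i).1) x) →
        ∃ x : k, ∀ c, a c = algebraMap k (Fk c) x := by
  classical
  obtain ⟨l, -, hcount, hnd, hchain, hn₁, hn₂, hconst⟩ :=
    exists_graphNSGood_univ hRR b₁ b₂ hne hb₁ hb₂ hb₁₂ conn avoid
  refine ⟨l, ?_, hnd, hchain, hn₁, hn₂, ?_⟩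
  · have h0 : graphInnerCard b₁ b₂ (Finset.univ : Finset κ) = Fintype.card ι := by
      unfold graphInnerCard
      rw [← Finset.card_univ]
      congr 1
      rw [Finset.filter_eq_self]
      intro i _
      exact ⟨Finset.mem_univ _, Finset.mem_univ _⟩
    rw [h0, Finset.card_univ] at hcount
    exact hcount
  · intro a ha1 ha2 hnode
    obtain ⟨x, hx⟩ := hconst a (fun c _ Q hQ => ha1 c Q hQ) (fun c _ Q => ha2 c Q)
      (fun i _ _ => hnode i)
    exact ⟨x, fun c => hx c (Finset.mem_univ c)⟩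

open Classical in
/-- **graph non-special points, greedy form, indexed chronologically**, in the form of the
fields of `GraphSetup` / `GraphCore`: `Rb i` avoids `avoid {Rb j | j < i}`. -/
theorem exists_graph_nonspecial_fin [Fintype κ] [Nonempty κ] [Fintype ι] [IsAlgClosed k]
    (hRR : ∀ c, IsRRField k (Fk c))
    (src tgt : ι → κ) (src_ne_tgt : ∀ i, src i ≠ tgt i)
    (s₁ : ∀ i, Place k (Fk (src i))) (s₂ : ∀ i, Place k (Fk (tgt i)))
    (s₁_inj : ∀ i j, (⟨src i, s₁ i⟩ : Σ c, Place k (Fk c)) = ⟨src j, s₁ j⟩ → i = j)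
    (s₂_inj : ∀ i j, (⟨tgt i, s₂ i⟩ : Σ c, Place k (Fk c)) = ⟨tgt j, s₂ j⟩ → i = j)
    (s₁_ne_s₂ : ∀ i j, (⟨src i, s₁ i⟩ : Σ c, Place k (Fk c)) ≠ ⟨tgt j, s₂ j⟩)
    (conn : ∀ T : Set κ, (∀ i, src i ∈ T ↔ tgt i ∈ T) → T = ∅ ∨ T = Set.univ)
    (avoid : Finset (Σ c, Place k (Fk c)) → Finset (Σ c, Place k (Fk c)))
    (g : ℕ) (hg : g + Fintype.card κ = (∑ c, genusFF k (Fk c)) + Fintype.card ι + 1) :
    ∃ Rb : Fin g → Σ c, Place k (Fk c),
      Function.Injective Rb ∧
      (∀ i, Rb i ∉ avoid ((Finset.univ.filter (fun j => j < i)).image Rb)) ∧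
      (∀ i j, Rb i ≠ ⟨src j, s₁ j⟩) ∧ (∀ i j, Rb i ≠ ⟨tgt j, s₂ j⟩) ∧
      ∀ a : ∀ c, Fk c,
        (∀ c (Q : Place k (Fk c)), (∀ i, Rb i ≠ ⟨c, Q⟩) → 0 ≤ Q.ord (a c)) →
        (∀ c (Q : Place k (Fk c)), -1 ≤ Q.ord (a c)) →
        (∀ i, ∃ x : k, ValAt (s₁ i) (a (src i)) x ∧ ValAt (s₂ i) (a (tgt i)) x) →
        ∃ x : k, ∀ c, a c = algebraMap k (Fk c) x := by
  classical
  obtain ⟨l, hlen, hnd, hchain, hn₁, hn₂, hns⟩ := exists_graph_nonspecial_list hRR
    (fun i => (⟨src i, s₁ i⟩ : Σ c, Place k (Fk c)))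
    (fun i => (⟨tgt i, s₂ i⟩ : Σ c, Place k (Fk c))) src_ne_tgt
    (fun i j h => s₁_inj i j h) (fun i j h => s₂_inj i j h) s₁_ne_s₂ conn avoid
  obtain ⟨Rb, hinj, hav, hmem, -⟩ := exists_fin_of_greedyChain avoid l hnd hchain g (by omega)
  refine ⟨Rb, hinj, ?_, fun i j h => hn₁ j (h ▸ hmem i), fun i j h => hn₂ j (h ▸ hmem i), ?_⟩
  · intro i
    convert hav i
  · intro a ha1 ha2 hnode
    refine hns a ?_ ha2 hnode
    intro c Q hQ
    apply ha1 c Q
    intro i hi
    exact hQ (hi ▸ hmem i)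

end Fermat.Agent.BadRedG
end
end MergeWrap_Lib_BadRed_Graph_NSAbs

section MergeWrap_Lib_BadRed_Graph_NSLift -- from Lib/BadRed/Graph/NSLift.lean

set_option autoImplicit false
set_option linter.style.haveILetI false
set_option linter.unusedSectionVars false

/-!
# Cluster G (S36), G-KEY: construction of `GraphNS` from the lifting property (LIFT) (helper7)

Port of `Nodal/NSBuildLift.lean` (cluster T) to a finite family of components.

Input: a graph reduction package `N`, divisors `D₀` on the generic fibre and `R c` of positive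
degree on every component, away from the nodes, and

* (LIFT) `N.HasLift D₀ R`: for `m ≥ m₀` every tuple of `graphRR (m R)` is the tuple of the
  reductions of a function of `L(m D₀) ∩ ⋂ O_c` (graph Deuring construction, step S1);
* non-special points `Rb` on the special fibre, away from `N.liftAvoid D₀ R` and from the nodes
  (`exists_graph_nonspecial_fin`, helper40, from the genus relation).

Output: `Nonempty (GraphNS N g)`.
-/

noncomputable section

open AlgebraicCurve Fermat.Agent.RR Fermat.Agent.Deuring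

namespace Fermat.Agent.BadRedG

open Fermat.Agent.BadRed

variable {K F k : Type*} [Field K] [Field F] [Algebra K F] [Field k]
  {κ : Type*} {Fk : κ → Type*} [∀ c, Field (Fk c)] [∀ c, Algebra k (Fk c)] {ι : Type*}

variable (N : GraphSetup K F k κ Fk ι)

/-- a unit of the valuation ring of `c` has a zero in the residue disc of a smooth point of the
component `c` where its reduction vanishes. -/
theorem GraphSetup.exists_zero_of_tupOrd_pos {f : F} (X : Σ c, Place k (Fk c))
    (h : (N.S X.1).red f ≠ 0) (hX : N.IsSmooth X) (hQ : 0 < tupOrd X (N.redAll f)) :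
    ∃ R : Place K F, N.r R = some X ∧ 0 < R.ord f := by
  obtain ⟨c, Q⟩ := X
  have hpush := N.push c f ((N.S c).mem_of_red_ne_zero h) ((N.S c).inv_mem_of_red_ne_zero h)
    ((N.S c).ne_zero_of_red_ne_zero h) Q hX.1 hX.2
  obtain ⟨R, hR, hpos⟩ := Fermat.Agent.S18Key.exists_of_mapDomain_pos N.r _ _
    (by rw [hpush]; exact hQ)
  rw [divOf_apply] at hpos
  exact ⟨R, hR, hpos⟩

theorem sigmaMk_inj (c : κ) :
    Function.Injective (fun Q : Place k (Fk c) => (⟨c, Q⟩ : Σ c, Place k (Fk c))) :=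
  fun _ _ h => eq_of_heq (Sigma.mk.inj_iff.mp h).2

/-- the fibre over `c` of a finite set of points of the special fibre. -/
def sigmaFibre (T : Finset (Σ c, Place k (Fk c))) (c : κ) : Finset (Place k (Fk c)) :=
  T.preimage (fun Q : Place k (Fk c) => (⟨c, Q⟩ : Σ c, Place k (Fk c))) (sigmaMk_inj c).injOn

theorem mem_sigmaFibre {T : Finset (Σ c, Place k (Fk c))} {c : κ} {Q : Place k (Fk c)} :
    Q ∈ sigmaFibre T c ↔ (⟨c, Q⟩ : Σ c, Place k (Fk c)) ∈ T := by
  unfold sigmaFibre
  rw [Finset.mem_preimage]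

theorem card_sigmaFibre_le (T : Finset (Σ c, Place k (Fk c))) (c : κ) :
    (sigmaFibre T c).card ≤ T.card := by
  classical
  have h : (sigmaFibre T c).image
      (fun Q : Place k (Fk c) => (⟨c, Q⟩ : Σ c, Place k (Fk c))) ⊆ T := by
    intro X hX
    obtain ⟨Q, hQ, rfl⟩ := Finset.mem_image.mp hX
    exact mem_sigmaFibre.mp hQ
  calc (sigmaFibre T c).card = ((sigmaFibre T c).image
          (fun Q : Place k (Fk c) => (⟨c, Q⟩ : Σ c, Place k (Fk c)))).card :=
        (Finset.card_image_of_injective _ (sigmaMk_inj c)).symm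
    _ ≤ T.card := Finset.card_le_card h

open Classical in
/-- the branches of the nodes, as a finite set of points of the special fibre. -/
def GraphSetup.branches [Fintype ι] : Finset (Σ c, Place k (Fk c)) :=
  (Finset.univ.image fun i => (⟨N.src i, N.s₁ i⟩ : Σ c, Place k (Fk c))) ∪
    (Finset.univ.image fun i => (⟨N.tgt i, N.s₂ i⟩ : Σ c, Place k (Fk c)))

theorem GraphSetup.mem_branches [Fintype ι] {X : Σ c, Place k (Fk c)} :
    X ∈ N.branches ↔ (∃ i, X = ⟨N.src i, N.s₁ i⟩) ∨ (∃ i, X = ⟨N.tgt i, N.s₂ i⟩) := by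
  classical
  unfold GraphSetup.branches
  rw [Finset.mem_union, Finset.mem_image, Finset.mem_image]
  constructor
  · rintro (⟨i, -, h⟩ | ⟨i, -, h⟩)
    · exact Or.inl ⟨i, h.symm⟩
    · exact Or.inr ⟨i, h.symm⟩
  · rintro (⟨i, h⟩ | ⟨i, h⟩)
    · exact Or.inl ⟨i, Finset.mem_univ _, h.symm⟩
    · exact Or.inr ⟨i, Finset.mem_univ _, h.symm⟩

theorem GraphSetup.notMem_branches_iff [Fintype ι] {X : Σ c, Place k (Fk c)} :
    X ∉ N.branches ↔ N.IsSmooth X := by
  rw [N.mem_branches, not_or, not_exists, not_exists]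
  rfl

theorem GraphSetup.card_branches_le [Fintype ι] : N.branches.card ≤ 2 * Fintype.card ι := by
  classical
  unfold GraphSetup.branches
  refine (Finset.card_union_le _ _).trans ?_
  have h1 := Finset.card_image_le (s := (Finset.univ : Finset ι))
    (f := fun i => (⟨N.src i, N.s₁ i⟩ : Σ c, Place k (Fk c)))
  have h2 := Finset.card_image_le (s := (Finset.univ : Finset ι))
    (f := fun i => (⟨N.tgt i, N.s₂ i⟩ : Σ c, Place k (Fk c)))
  rw [Finset.card_univ] at h1 h2
  omega

/-- the interpolated nodal tuple at `Rb i`: all the functions vanish at the branches of the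
nodes, the tuple has a simple zero at `Rb i` and order `0` at the other `Rb j`. -/
theorem GraphSetup.exists_tuple_at [Infinite k] [Fintype ι] {g : ℕ}
    (Rb : Fin g → Σ c, Place k (Fk c)) (hinj : Function.Injective Rb)
    (R : ∀ c, Divisor k (Fk c))
    (hn₁ : ∀ i, R (N.src i) (N.s₁ i) = 0) (hn₂ : ∀ i, R (N.tgt i) (N.s₂ i) = 0)
    (hRb : ∀ i, R (Rb i).1 (Rb i).2 = 0)
    (hsm : ∀ i, N.IsSmooth (Rb i))
    (hdeg : ∀ c, 2 * (genusFF k (Fk c) : ℤ) + 2 * Fintype.card ι < Divisor.degree (R c))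
    (i : Fin g) :
    ∃ y : ∀ c, Fk c, (∀ c, y c ≠ 0) ∧ y ∈ graphRR N.src N.tgt N.s₁ N.s₂ R ∧
      tupOrd (Rb i) y = 1 ∧ ∀ j, j ≠ i → tupOrd (Rb j) y = 0 := by
  classical
  set Z : ∀ c, Finset (Place k (Fk c)) := fun c => sigmaFibre N.branches c with hZ
  set U : ∀ c, Finset (Place k (Fk c)) :=
    fun c => sigmaFibre ((Finset.univ.erase i).image Rb) c with hU
  have hcard : ∀ c, ((Z c).card : ℤ) ≤ 2 * Fintype.card ι := fun c => by
    exact_mod_cast (card_sigmaFibre_le _ c).trans N.card_branches_le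
  have hmemU : ∀ c P, P ∈ U c ↔ ∃ j, j ≠ i ∧ Rb j = ⟨c, P⟩ := fun c P => by
    rw [hU, mem_sigmaFibre, Finset.mem_image]
    constructor
    · rintro ⟨j, hj, h⟩
      exact ⟨j, (Finset.mem_erase.mp hj).1, h⟩
    · rintro ⟨j, hj, h⟩
      exact ⟨j, Finset.mem_erase.mpr ⟨hj, Finset.mem_univ _⟩, h⟩
  have hZR : ∀ c, ∀ P ∈ Z c, R c P = 0 := fun c P hP => by
    rcases N.mem_branches.mp (mem_sigmaFibre.mp hP) with ⟨j, hj⟩ | ⟨j, hj⟩
    · exact (congrArg (fun X : Σ c, Place k (Fk c) => R X.1 X.2) hj).trans (hn₁ j)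
    · exact (congrArg (fun X : Σ c, Place k (Fk c) => R X.1 X.2) hj).trans (hn₂ j)
  have hUR : ∀ c, ∀ P ∈ U c, R c P = 0 ∧ P ∉ Z c := fun c P hP => by
    obtain ⟨j, -, hj⟩ := (hmemU c P).mp hP
    refine ⟨?_, fun hZ' => ?_⟩
    · exact (congrArg (fun X : Σ c, Place k (Fk c) => R X.1 X.2) hj).symm.trans (hRb j)
    · have := N.notMem_branches_iff.mpr (hsm j)
      rw [hj] at this
      exact this (mem_sigmaFibre.mp hZ')
  -- the unit functions on all the components
  have hunit : ∀ c, ∃ b ∈ riemannRochSpace (R c), b ≠ 0 ∧ (∀ P ∈ Z c, 0 < P.ord b) ∧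
      ∀ P ∈ U c, P.ord b = 0 := fun c =>
    Interp1.exists_unit_fn (N.S c).hFk (R c) (Z c) (U c) (hZR c) (hUR c) (by
      have := hcard c
      have := hdeg c
      omega)
  choose b hbR hb0 hbZ hbU using hunit
  -- the parameter on the component of `Rb i`
  rcases hRi : Rb i with ⟨c₀, Q⟩
  obtain ⟨a, haR, ha0, haZ, haQ, haU⟩ := Interp1.exists_param (N.S c₀).hFk (R c₀) (Z c₀) (U c₀) Q
    (hZR c₀)
    (fun P hP => ⟨(hUR c₀ P hP).1, (hUR c₀ P hP).2, fun hPQ => by
      obtain ⟨j, hji, hj⟩ := (hmemU c₀ P).mp hP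
      rw [hPQ, ← hRi] at hj
      exact hji (hinj hj)⟩)
    ⟨(congrArg (fun X : Σ c, Place k (Fk c) => R X.1 X.2) hRi).symm.trans (hRb i), fun hZ' => by
      have := N.notMem_branches_iff.mpr (hsm i)
      rw [hRi] at this
      exact this (mem_sigmaFibre.mp hZ')⟩
    (by
      have := hcard c₀
      have := hdeg c₀
      omega)
  -- the tuple
  set y : ∀ c, Fk c := Function.update b c₀ a with hy
  have hyc₀ : y c₀ = a := Function.update_self _ _ _
  have hyc : ∀ c, c ≠ c₀ → y c = b c := fun c hc => Function.update_of_ne hc _ _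
  have hyR : ∀ c, y c ∈ riemannRochSpace (R c) := by
    intro c
    by_cases hc : c = c₀
    · subst hc; rw [hyc₀]; exact haR
    · rw [hyc c hc]; exact hbR c
  have hy0 : ∀ c, y c ≠ 0 := by
    intro c
    by_cases hc : c = c₀
    · subst hc; rw [hyc₀]; exact ha0
    · rw [hyc c hc]; exact hb0 c
  have hyZ : ∀ c, ∀ P ∈ Z c, 0 < P.ord (y c) := by
    intro c
    by_cases hc : c = c₀
    · subst hc; rw [hyc₀]; exact haZ
    · rw [hyc c hc]; exact hbZ c
  have hyU : ∀ c, ∀ P ∈ U c, P.ord (y c) = 0 := by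
    intro c
    by_cases hc : c = c₀
    · subst hc; rw [hyc₀]; exact haU
    · rw [hyc c hc]; exact hbU c
  refine ⟨y, hy0, ⟨hyR, fun j => ⟨0, ?_, ?_⟩⟩, ?_, ?_⟩
  · exact (valAt_zero_right_iff _ _).mpr (Or.inr (hyZ _ _
      (mem_sigmaFibre.mpr (N.mem_branches.mpr (Or.inl ⟨j, rfl⟩)))))
  · exact (valAt_zero_right_iff _ _).mpr (Or.inr (hyZ _ _
      (mem_sigmaFibre.mpr (N.mem_branches.mpr (Or.inr ⟨j, rfl⟩)))))
  · show Q.ord (y c₀) = 1
    rw [hyc₀]; exact haQ
  · intro j hj
    rcases hRj : Rb j with ⟨c, P⟩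
    show P.ord (y c) = 0
    exact hyU c P ((hmemU c P).mpr ⟨j, hj, hRj⟩)

open Classical in
/-- the points of the special fibre to avoid: the supports of the `R c` and the reductions of
the points of the support of `D₀`. -/
def GraphSetup.liftAvoid [Fintype κ] (D₀ : Divisor K F) (R : ∀ c, Divisor k (Fk c)) :
    Finset (Σ c, Place k (Fk c)) :=
  (Finset.univ.biUnion fun c => (R c).support.image (Sigma.mk c)) ∪
    (D₀.support.image N.r).eraseNone

theorem GraphSetup.notMem_liftAvoid [Fintype κ] {D₀ : Divisor K F} {R : ∀ c, Divisor k (Fk c)}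
    {X : Σ c, Place k (Fk c)} (h : X ∉ N.liftAvoid D₀ R) :
    R X.1 X.2 = 0 ∧ ∀ P, N.r P = some X → D₀ P = 0 := by
  classical
  unfold GraphSetup.liftAvoid at h
  rw [Finset.mem_union, not_or] at h
  obtain ⟨h1, h3⟩ := h
  refine ⟨?_, fun P hP => ?_⟩
  · by_contra hne
    apply h1
    rw [Finset.mem_biUnion]
    exact ⟨X.1, Finset.mem_univ _, Finset.mem_image.mpr ⟨X.2, Finsupp.mem_support_iff.mpr hne, rfl⟩⟩
  · by_contra hne
    apply h3
    rw [Finset.mem_eraseNone]
    exact Finset.mem_image.mpr ⟨P, Finsupp.mem_support_iff.mpr hne, hP⟩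

/-- **construction of `GraphNS` from (LIFT) and non-special points.** -/
theorem GraphSetup.nonempty_graphNS_of_lift_of_pts [Infinite k] [Fintype κ] [Nonempty κ]
    [Fintype ι] (D₀ : Divisor K F) (R : ∀ c, Divisor k (Fk c))
    (hR : ∀ c, 0 < Divisor.degree (R c))
    (hn₁ : ∀ i, R (N.src i) (N.s₁ i) = 0) (hn₂ : ∀ i, R (N.tgt i) (N.s₂ i) = 0)
    (hlift : N.HasLift D₀ R) {g : ℕ}
    (Rb : Fin g → Σ c, Place k (Fk c)) (hinj : Function.Injective Rb)
    (havoid : ∀ i, Rb i ∉ N.liftAvoid D₀ R)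
    (hnode₁ : ∀ i j, Rb i ≠ ⟨N.src j, N.s₁ j⟩) (hnode₂ : ∀ i j, Rb i ≠ ⟨N.tgt j, N.s₂ j⟩)
    (hns : ∀ a : ∀ c, Fk c,
      (∀ c (Q : Place k (Fk c)), (∀ i, Rb i ≠ ⟨c, Q⟩) → 0 ≤ Q.ord (a c)) →
      (∀ c (Q : Place k (Fk c)), -1 ≤ Q.ord (a c)) →
      (∀ i, ∃ x : k, ValAt (N.s₁ i) (a (N.src i)) x ∧ ValAt (N.s₂ i) (a (N.tgt i)) x) →
      ∃ x : k, ∀ c, a c = algebraMap k (Fk c) x) :
    Nonempty (GraphNS N g) := by
  classical
  have hav := fun i => N.notMem_liftAvoid (havoid i)
  have hsm : ∀ i, N.IsSmooth (Rb i) := fun i => ⟨hnode₁ i, hnode₂ i⟩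
  obtain ⟨m₀, hm₀⟩ := hlift
  -- the multiple
  set m : ℕ := max m₀ (2 * (∑ c, genusFF k (Fk c)) + 2 * Fintype.card ι + 1) with hm
  have hm1 : m₀ ≤ m := le_max_left _ _
  have hm2 : 2 * (∑ c, genusFF k (Fk c)) + 2 * Fintype.card ι + 1 ≤ m := le_max_right _ _
  have hgc : ∀ c, genusFF k (Fk c) ≤ ∑ c, genusFF k (Fk c) := fun c =>
    Finset.single_le_sum (f := fun c => genusFF k (Fk c)) (fun _ _ => Nat.zero_le _)
      (Finset.mem_univ c)
  have hdeg : ∀ c, 2 * (genusFF k (Fk c) : ℤ) + 2 * Fintype.card ι <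
      Divisor.degree (m • R c) := by
    intro c
    rw [map_nsmul, nsmul_eq_mul]
    have h3 : (m : ℤ) ≤ m * Divisor.degree (R c) := by
      have := Int.natCast_nonneg m
      have := hR c
      nlinarith
    have h4 : (2 * (genusFF k (Fk c)) + 2 * Fintype.card ι + 1 : ℤ) ≤ m := by
      have := hgc c
      have : 2 * (genusFF k (Fk c)) + 2 * Fintype.card ι + 1 ≤ m := by omega
      exact_mod_cast this
    omega
  -- the parameters
  have hpar : ∀ i, ∃ t : F, t ∈ riemannRochSpace (m • D₀) ∧ (∀ c, t ∈ (N.S c).Ov) ∧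
      (∀ c, (N.S c).red t ≠ 0) ∧ tupOrd (Rb i) (N.redAll t) = 1 ∧
        ∀ j, j ≠ i → tupOrd (Rb j) (N.redAll t) = 0 := by
    intro i
    obtain ⟨y, hy0, hy, hself, hother⟩ := N.exists_tuple_at Rb hinj (fun c => m • R c)
      (fun j => by rw [Finsupp.smul_apply, hn₁ j, smul_zero])
      (fun j => by rw [Finsupp.smul_apply, hn₂ j, smul_zero])
      (fun j => by rw [Finsupp.smul_apply, (hav j).1, smul_zero])
      hsm hdeg i
    obtain ⟨t, ht, htO, hred⟩ := hm₀ m hm1 y hy
    have hredAll : N.redAll t = y := funext hred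
    refine ⟨t, ht, htO, fun c => by rw [hred c]; exact hy0 c, ?_, ?_⟩
    · rw [hredAll]; exact hself
    · intro j hj
      rw [hredAll]; exact hother j hj
  choose t ht htO hred hself hother using hpar
  -- the lifts
  have hlifts : ∀ i, ∃ R' : Place K F, N.r R' = some (Rb i) ∧ 0 < R'.ord (t i) := fun i =>
    N.exists_zero_of_tupOrd_pos (Rb i) (hred i _) (hsm i) (by rw [hself i]; norm_num)
  choose R' hrR hRpos using hlifts
  -- the base point
  obtain ⟨c₁⟩ := (inferInstance : Nonempty κ)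
  haveI : Infinite (Place k (Fk c₁)) := infinite_place (N.S c₁).hFk
  obtain ⟨Q₀, hQ₀⟩ := Infinite.exists_notMem_finset
    (sigmaFibre N.branches c₁ ∪ sigmaFibre (Finset.univ.image Rb) c₁)
  rw [Finset.mem_union, not_or, mem_sigmaFibre, mem_sigmaFibre] at hQ₀
  have hQ₀sm : N.IsSmooth ⟨c₁, Q₀⟩ := N.notMem_branches_iff.mp hQ₀.1
  have hQ₀R : ∀ i, Rb i ≠ ⟨c₁, Q₀⟩ := fun i h =>
    hQ₀.2 (Finset.mem_image.mpr ⟨i, Finset.mem_univ _, h⟩)
  obtain ⟨P0, hP0⟩ := N.r_surj c₁ Q₀ hQ₀sm.1 hQ₀sm.2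
  refine ⟨{
    Rb := Rb
    Rb_inj := hinj
    R := R'
    r_R := hrR
    t := t
    t_mem := htO
    t_red := hred
    ord_t_self := hself
    ord_t_other := fun i j hij => hother i j (Ne.symm hij)
    t_reg := fun i j P hP => by
      have h0 : t i ≠ 0 := (N.S c₁).ne_zero_of_red_ne_zero (hred i c₁)
      have h1 := ((mem_riemannRochSpace_iff.mp (ht i)) P).resolve_left h0
      rw [Finsupp.smul_apply, (hav j).2 P hP, smul_zero, neg_zero] at h1
      exact h1
    t_R := hRpos
    nonspecial := fun y hnod h1 h3 => by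
      refine hns y (fun c Q hQ => h1 ⟨c, Q⟩ hQ) ?_ (fun i => (hnod i).2.2)
      intro c Q
      by_cases hQ : ∃ i, Rb i = ⟨c, Q⟩
      · obtain ⟨i, hi⟩ := hQ
        have := h3 i
        rw [hi] at this
        exact this
      · push Not at hQ
        have := h1 ⟨c, Q⟩ hQ
        exact le_trans (by norm_num : (-1 : ℤ) ≤ 0) this
    P0 := P0
    P0_ord := ⟨_, hP0⟩
    r_P0 := fun i h => hQ₀R i (by
      rw [hP0] at h
      exact (Option.some.inj h).symm) }⟩

/-- **construction of `GraphNS` from (LIFT) and the genus relation.** -/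
theorem GraphSetup.nonempty_graphNS_of_lift [IsAlgClosed k] [Fintype κ] [Nonempty κ]
    [Fintype ι] (hg : N.GenusRel) (D₀ : Divisor K F) (R : ∀ c, Divisor k (Fk c))
    (hR : ∀ c, 0 < Divisor.degree (R c))
    (hn₁ : ∀ i, R (N.src i) (N.s₁ i) = 0) (hn₂ : ∀ i, R (N.tgt i) (N.s₂ i) = 0)
    (hlift : N.HasLift D₀ R) : Nonempty (GraphNS N (genusFF K F)) := by
  classical
  haveI : Infinite k := IsAlgClosed.instInfinite
  obtain ⟨Rb, hinj, havoid, hnode₁, hnode₂, hns⟩ :=
    exists_graph_nonspecial_fin (fun c => (N.S c).hFk) N.src N.tgt N.src_ne_tgt N.s₁ N.s₂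
      N.s₁_inj N.s₂_inj N.s₁_ne_s₂ N.conn (fun _ => N.liftAvoid D₀ R) (genusFF K F) hg
  exact N.nonempty_graphNS_of_lift_of_pts D₀ R hR hn₁ hn₂ hlift Rb hinj havoid hnode₁ hnode₂ hns

/-- **the graph KEY LEMMA from (LIFT)**, given Jacobi inversion (`GraphJacobiStatement`) and the
main step (`GraphMainStatement`). -/
theorem GraphSetup.keyConcl_of_lift_of_steps [IsAlgClosed k] [Fintype κ] [Nonempty κ]
    [Fintype ι] (hg : N.GenusRel) (D₀ : Divisor K F) (R : ∀ c, Divisor k (Fk c))
    (hR : ∀ c, 0 < Divisor.degree (R c))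
    (hn₁ : ∀ i, R (N.src i) (N.s₁ i) = 0) (hn₂ : ∀ i, R (N.tgt i) (N.s₂ i) = 0)
    (hlift : N.HasLift D₀ R)
    (hJ : ∀ NS : GraphNS N (genusFF K F), GraphJacobiStatement N _ NS)
    (hM : ∀ NS : GraphNS N (genusFF K F), GraphMainStatement N _ NS) : GraphKeyConcl N :=
  graphKeyOfNS_of_steps N hJ hM (N.nonempty_graphNS_of_lift hg D₀ R hR hn₁ hn₂ hlift)

end Fermat.Agent.BadRedG
end
end MergeWrap_Lib_BadRed_Graph_NSLift

section MergeWrap_Lib_BadRed_Graph_Deuring_RSurj -- from Lib/BadRed/Graph/Deuring/RSurj.lean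

set_option autoImplicit false
set_option linter.unusedSectionVars false

/-!
# Cluster G (S36), G-DEU: every smooth point of the special fibre lifts (helper7)

Port of `NodalType.r_surj₁` (cluster T, `Nodal/Deuring2/Assembly.lean`) to a finite family of
components: `GraphType.rSurj T hl hp : T.RSurj`, from (LIFT) and `Push` applied to a function of
`⋂ O_c` whose reduction on the component `c` has order `≠ 0` at `Q`.
-/

noncomputable section

open AlgebraicCurve Fermat.Agent.RR Fermat.Agent.Deuring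

namespace Fermat.Agent.BadRedG

open Fermat.Agent.BadRed

variable {K F k : Type*} [Field K] [Field F] [Algebra K F] [Field k]
  {κ : Type*} {Fk : κ → Type*} [∀ c, Field (Fk c)] [∀ c, Algebra k (Fk c)] {ι : Type*}

open Classical in
/-- the branches of the nodes of a core, as a finite set of points of the special fibre. -/
def GraphCore.brFinset [Fintype ι] (C : GraphCore K F k κ Fk ι) : Finset (Σ c, Place k (Fk c)) :=
  (Finset.univ.image fun i => (⟨C.src i, C.s₁ i⟩ : Σ c, Place k (Fk c))) ∪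
    (Finset.univ.image fun i => (⟨C.tgt i, C.s₂ i⟩ : Σ c, Place k (Fk c)))

theorem GraphCore.mem_brFinset [Fintype ι] (C : GraphCore K F k κ Fk ι)
    {X : Σ c, Place k (Fk c)} :
    X ∈ C.brFinset ↔ (∃ i, X = ⟨C.src i, C.s₁ i⟩) ∨ (∃ i, X = ⟨C.tgt i, C.s₂ i⟩) := by
  classical
  unfold GraphCore.brFinset
  rw [Finset.mem_union, Finset.mem_image, Finset.mem_image]
  constructor
  · rintro (⟨i, -, h⟩ | ⟨i, -, h⟩)
    · exact Or.inl ⟨i, h.symm⟩
    · exact Or.inr ⟨i, h.symm⟩
  · rintro (⟨i, h⟩ | ⟨i, h⟩)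
    · exact Or.inl ⟨i, Finset.mem_univ _, h.symm⟩
    · exact Or.inr ⟨i, Finset.mem_univ _, h.symm⟩

theorem GraphCore.card_brFinset_le [Fintype ι] (C : GraphCore K F k κ Fk ι) :
    C.brFinset.card ≤ 2 * Fintype.card ι := by
  classical
  unfold GraphCore.brFinset
  refine (Finset.card_union_le _ _).trans ?_
  have h1 := Finset.card_image_le (s := (Finset.univ : Finset ι))
    (f := fun i => (⟨C.src i, C.s₁ i⟩ : Σ c, Place k (Fk c)))
  have h2 := Finset.card_image_le (s := (Finset.univ : Finset ι))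
    (f := fun i => (⟨C.tgt i, C.s₂ i⟩ : Σ c, Place k (Fk c)))
  rw [Finset.card_univ] at h1 h2
  omega

/-- interpolation on the component `c`: a function of `L(R)` with prescribed values at the
branches of the nodes on `c` and exact orders `- R Q` on a finite set `T` of smooth points. -/
theorem GraphCore.exists_interp_br [Fintype ι] [Infinite k] (C : GraphCore K F k κ Fk ι)
    {c : κ} (hRR : IsRRField k (Fk c)) (R : Divisor k (Fk c))
    (hR : ∀ Q, (⟨c, Q⟩ : Σ c, Place k (Fk c)) ∈ C.brFinset → R Q = 0)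
    (T : Finset (Place k (Fk c)))
    (hT : ∀ Q ∈ T, (⟨c, Q⟩ : Σ c, Place k (Fk c)) ∉ C.brFinset)
    (hdeg : 2 * (genusFF k (Fk c) : ℤ) + 2 * Fintype.card ι ≤ Divisor.degree R) (v : k) :
    ∃ a ∈ riemannRochSpace R, a ≠ 0 ∧
      (∀ Q, (⟨c, Q⟩ : Σ c, Place k (Fk c)) ∈ C.brFinset → ValAt Q a v) ∧
        ∀ Q ∈ T, Q.ord a = -R Q := by
  classical
  set Z : Finset (Place k (Fk c)) := sigmaFibre C.brFinset c with hZ
  have hcard : (Fintype.card ↥Z : ℤ) ≤ 2 * Fintype.card ι := by
    rw [Fintype.card_coe]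
    exact_mod_cast (card_sigmaFibre_le _ c).trans C.card_brFinset_le
  obtain ⟨a, ha, ha0, hav, haT⟩ := exists_interpolation_exact hRR
    (fun i : ↥Z => (i : Place k (Fk c))) Subtype.val_injective R
    (fun i => hR _ (mem_sigmaFibre.mp i.2)) T
    (fun Q hQ i hi => hT Q hQ (mem_sigmaFibre.mp (hi ▸ i.2)))
    (by omega) (fun _ => v)
  exact ⟨a, ha, ha0, fun Q hQ => hav ⟨Q, mem_sigmaFibre.mpr hQ⟩, haT⟩

variable [Fintype κ] [Fintype ι] {G : GraphSeed K F k κ Fk ι}

/-- **S7**: every smooth point of the special fibre lifts. -/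
theorem GraphType.rSurj [Infinite k] (T : GraphType G) (hl : G.HasLift) (hp : T.Push) :
    T.RSurj := by
  classical
  intro c Q hQ₁ hQ₂
  obtain ⟨m₀, hm₀⟩ := hl
  set m : ℕ := max m₀ (2 * (∑ c, genusFF k (Fk c)) + 2 * Fintype.card ι + 2) with hm
  have hm1 : m₀ ≤ m := le_max_left _ _
  have hm2 : 2 * (∑ c, genusFF k (Fk c)) + 2 * Fintype.card ι + 2 ≤ m := le_max_right _ _
  have hgc : ∀ c, genusFF k (Fk c) ≤ ∑ c, genusFF k (Fk c) := fun c =>
    Finset.single_le_sum (f := fun c => genusFF k (Fk c)) (fun _ _ => Nat.zero_le _)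
      (Finset.mem_univ c)
  have hdegm : ∀ c', (2 * (genusFF k (Fk c')) + 2 * Fintype.card ι + 2 : ℤ) ≤
      Divisor.degree (m • G.R c') := by
    intro c'
    rw [map_nsmul, nsmul_eq_mul]
    have h3 : (m : ℤ) ≤ m * Divisor.degree (G.R c') := by
      have := Int.natCast_nonneg m
      have := G.R_pos c'
      nlinarith
    have h4 : (2 * (genusFF k (Fk c')) + 2 * Fintype.card ι + 2 : ℤ) ≤ m := by
      have := hgc c'
      have : 2 * (genusFF k (Fk c')) + 2 * Fintype.card ι + 2 ≤ m := by omega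
      exact_mod_cast this
    omega
  have hbr : ∀ c' (Q' : Place k (Fk c')),
      (⟨c', Q'⟩ : Σ c, Place k (Fk c)) ∈ G.toGraphCore.brFinset → (m • G.R c') Q' = 0 := by
    intro c' Q' hQ'
    rw [Finsupp.smul_apply]
    rcases G.toGraphCore.mem_brFinset.mp hQ' with ⟨i, hi⟩ | ⟨i, hi⟩
    · rw [(congrArg (fun X : Σ c, Place k (Fk c) => G.R X.1 X.2) hi).trans (G.R_node₁ i),
        smul_zero]
    · rw [(congrArg (fun X : Σ c, Place k (Fk c) => G.R X.1 X.2) hi).trans (G.R_node₂ i),
        smul_zero]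
  have hQsm : (⟨c, Q⟩ : Σ c, Place k (Fk c)) ∉ G.toGraphCore.brFinset := by
    intro h
    rcases G.toGraphCore.mem_brFinset.mp h with ⟨i, hi⟩ | ⟨i, hi⟩
    · exact hQ₁ i hi
    · exact hQ₂ i hi
  -- the function on the component `c`
  obtain ⟨a, ha, ha0, hav, haT⟩ := G.toGraphCore.exists_interp_br (G.S c).hFk
    (m • G.R c - Finsupp.single Q 1)
    (fun Q' hQ' => by
      have hne : Q ≠ Q' := fun h => hQsm (by rw [h]; exact hQ')
      rw [Finsupp.sub_apply, hbr c Q' hQ', Finsupp.single_eq_of_ne' hne, sub_zero])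
    {Q} (fun Q' hQ' => by rw [Finset.mem_singleton.mp hQ']; exact hQsm)
    (by
      have := hdegm c
      rw [map_sub, degree_single_one (G.S c).hFk]
      omega) 1
  have haL : a ∈ riemannRochSpace (m • G.R c) := by
    refine riemannRochSpace_mono ?_ ha
    rw [sub_le_self_iff]
    intro v
    rw [Finsupp.zero_apply]
    by_cases hv : Q = v
    · subst hv
      rw [Finsupp.single_eq_same]
      exact zero_le_one
    · rw [Finsupp.single_eq_of_ne' hv]
  -- the functions on the other components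
  have hoth : ∀ c', ∃ b ∈ riemannRochSpace (m • G.R c'), b ≠ 0 ∧
      ∀ Q', (⟨c', Q'⟩ : Σ c, Place k (Fk c)) ∈ G.toGraphCore.brFinset → ValAt Q' b 1 := by
    intro c'
    obtain ⟨b, hb, hb0, hbv, -⟩ := G.toGraphCore.exists_interp_br (G.S c').hFk (m • G.R c')
      (hbr c') ∅ (fun Q' hQ' => absurd hQ' (Finset.notMem_empty _))
      (by have := hdegm c'; omega) 1
    exact ⟨b, hb, hb0, hbv⟩
  choose b hbL hb0 hbv using hoth
  -- the tuple
  set y : ∀ c, Fk c := Function.update b c a with hy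
  have hyc : y c = a := Function.update_self _ _ _
  have hyc' : ∀ c', c' ≠ c → y c' = b c' := fun c' hc' => Function.update_of_ne hc' _ _
  have hyL : ∀ c', y c' ∈ riemannRochSpace (m • G.R c') := by
    intro c'
    by_cases hc : c' = c
    · subst hc; rw [hyc]; exact haL
    · rw [hyc' c' hc]; exact hbL c'
  have hyv : ∀ c' Q', (⟨c', Q'⟩ : Σ c, Place k (Fk c)) ∈ G.toGraphCore.brFinset →
      ValAt Q' (y c') 1 := by
    intro c' Q' hQ'
    by_cases hc : c' = c
    · subst hc; rw [hyc]; exact hav Q' hQ'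
    · rw [hyc' c' hc]; exact hbv c' Q' hQ'
  have hy_mem : y ∈ graphRR G.src G.tgt G.s₁ G.s₂ (fun c => m • G.R c) :=
    ⟨hyL, fun i => ⟨1, hyv _ _ (G.toGraphCore.mem_brFinset.mpr (Or.inl ⟨i, rfl⟩)),
      hyv _ _ (G.toGraphCore.mem_brFinset.mpr (Or.inr ⟨i, rfl⟩))⟩⟩
  obtain ⟨u, hu, huy⟩ := hm₀ m hm1 y hy_mem
  have hua : (G.S c).red u = a := (congrFun huy c).trans hyc
  have hred : (G.S c).red u ≠ 0 := by rw [hua]; exact ha0
  have hpu := hp c u (hu.2 c) ((G.S c).inv_mem_of_red_ne_zero hred)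
    ((G.S c).ne_zero_of_red_ne_zero hred) Q hQ₁ hQ₂
  have hord : Q.ord a = 1 - (m • G.R c) Q := by
    rw [haT Q (Finset.mem_singleton_self Q), Finsupp.sub_apply, Finsupp.single_eq_same]
    ring
  have hne : Q.ord ((G.S c).red u) ≠ 0 := by
    rw [hua, hord, Finsupp.smul_apply, nsmul_eq_mul]
    have h0 := Finsupp.le_def.mp (G.R_nonneg c) Q
    rw [Finsupp.zero_apply] at h0
    have hm2' : (2 : ℤ) ≤ m := by
      have : 2 ≤ m := by omega
      exact_mod_cast this
    rcases eq_or_lt_of_le h0 with h | h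
    · rw [← h, mul_zero]
      norm_num
    · have : (m : ℤ) ≤ m * G.R c Q := by nlinarith
      omega
  by_contra hcon
  push Not at hcon
  apply hne
  rw [← hpu]
  apply Finsupp.mapDomain_notin_range
  rintro ⟨P, hP⟩
  exact hcon P hP

end Fermat.Agent.BadRedG
end
end MergeWrap_Lib_BadRed_Graph_Deuring_RSurj

section MergeWrap_Lib_BadRed_Graph_Deuring_Node -- from Lib/BadRed/Graph/Deuring/Node.lean

set_option autoImplicit false

/-!
# Cluster G, graph Deuring construction, step S8: the NODE CONDITION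
(port of `Nodal/Deuring2/Node.lean`)

`GraphType.node : T.Node` : a function `f ∈ ⋂_c O_c` without poles in the annuli (`T.r P = none`)
reduces to a tuple of functions which are regular at the nodes and take the same value on both
branches.

Proof: kill the poles of `f` (ordinary places) by a product `z` of the functions of
`T.node_unit` (value `1` at the node `i`); then `f z ∈ 𝔏(M D₀)` reduces to a nodal tuple by the
seed, and `red_c f = red_c (f z) / red_c z`.
-/

noncomputable section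

open AlgebraicCurve Fermat.Agent.RR Fermat.Agent.Deuring

namespace Fermat.Agent.BadRedG

open Fermat.Agent.BadRed

variable {K F k : Type*} [Field K] [Field F] [Algebra K F] [Field k]
  {κ : Type*} {Fk : κ → Type*} [∀ c, Field (Fk c)] [∀ c, Algebra k (Fk c)] {ι : Type*}
  [Fintype κ] [Fintype ι] {G : GraphSeed K F k κ Fk ι}

/-- a function of `𝔏(M D₀ - E)` with the value `1` at the node `i`, for `E` a sum of ordinary
places. -/
theorem GraphType.exists_node_unit_list (T : GraphType G) (i : ι) (l : List (Place K F))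
    (hl : ∀ P ∈ l, T.r P ≠ none) :
    ∃ (M : ℕ) (z : F), G.toGraphCore.IsInt (M • G.D₀ - Push.listDiv l) z ∧
      ValAt (G.s₁ i) ((G.S (G.src i)).red z) 1 ∧ ValAt (G.s₂ i) ((G.S (G.tgt i)).red z) 1 := by
  induction l with
  | nil =>
    refine ⟨0, 1, ⟨?_, fun c => one_mem _⟩, ?_, ?_⟩
    · rw [zero_smul, Push.listDiv_nil, sub_zero]
      exact one_mem_riemannRochSpace_of_nonneg (le_refl (0 : Divisor K F))
    · rw [(G.S (G.src i)).red_one]
      exact nd_valAt_one _
    · rw [(G.S (G.tgt i)).red_one]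
      exact nd_valAt_one _
  | cons P l ih =>
    obtain ⟨M, z, hz, hz1, hz2⟩ := ih fun P' hP' => hl P' (List.mem_cons_of_mem _ hP')
    obtain ⟨X, hX⟩ := Option.ne_none_iff_exists'.mp (hl P List.mem_cons_self)
    obtain ⟨m, h, hh, hh1, hh2⟩ := T.node_unit P X hX i
    refine ⟨m + M, h * z, ?_, ?_, ?_⟩
    · have e : (m + M) • G.D₀ - Push.listDiv (P :: l)
          = (m • G.D₀ - Finsupp.single P 1) + (M • G.D₀ - Push.listDiv l) := by
        rw [Push.listDiv_cons, add_smul]
        abel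
      rw [e]
      exact ⟨mul_mem_riemannRochSpace_add hh.1 hz.1, fun c => mul_mem (hh.2 c) (hz.2 c)⟩
    · rw [(G.S (G.src i)).red_mul (hh.2 _) (hz.2 _)]
      have := hh1.mul hz1
      rwa [one_mul] at this
    · rw [(G.S (G.tgt i)).red_mul (hh.2 _) (hz.2 _)]
      have := hh2.mul hz2
      rwa [one_mul] at this

/-- the poles of a function without poles in the annuli are bounded by a sum of ordinary
places. -/
theorem GraphType.exists_pole_list [Nonempty κ] (T : GraphType G) {f : F}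
    (hf : ∀ P, T.r P = none → 0 ≤ P.ord f) :
    ∃ l : List (Place K F), (∀ P ∈ l, T.r P ≠ none) ∧ f ∈ riemannRochSpace (Push.listDiv l) := by
  classical
  obtain ⟨c₀⟩ := ‹Nonempty κ›
  obtain ⟨lp, lm, lp', lm', h1, h2, h3, h4, h5, -⟩ :=
    Push.exists_lists (fun P => T.r P ≠ none) (divOf (G.S c₀).hF f)
  refine ⟨lm, h2, ?_⟩
  rw [mem_riemannRochSpace_iff]
  intro v
  rcases eq_or_ne f 0 with hf0 | hf0
  · exact Or.inl hf0
  right
  have hv : v.ord f = Push.listDiv lp v - Push.listDiv lm v + Push.listDiv lp' v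
      - Push.listDiv lm' v := by
    rw [← divOf_apply (G.S c₀).hF f v, h5]
    simp only [Finsupp.sub_apply, Finsupp.add_apply]
  by_cases hr : T.r v = none
  · have hm : Push.listDiv lm v = 0 :=
      nd_listDiv_apply_of_not_mem lm v (fun h => h2 v h hr)
    rw [hm, neg_zero]
    exact hf v hr
  · have hm' : Push.listDiv lm' v = 0 :=
      nd_listDiv_apply_of_not_mem lm' v (fun h => h4 v h hr)
    have hp := Finsupp.le_def.mp (Push.listDiv_nonneg lp) v
    have hp' := Finsupp.le_def.mp (Push.listDiv_nonneg lp') v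
    rw [Finsupp.zero_apply] at hp hp'
    rw [hv, hm']
    omega

/-- **S8, the NODE CONDITION.** -/
theorem GraphType.node [Nonempty κ] (T : GraphType G) : T.Node := by
  intro f hint hf i
  obtain ⟨l, hl, hfl⟩ := T.exists_pole_list hf
  obtain ⟨M, z, hz, hz1, hz2⟩ := T.exists_node_unit_list i l hl
  have hfz : f * z ∈ riemannRochSpace (M • G.D₀) := by
    have := mul_mem_riemannRochSpace_add hfl hz.1
    rwa [add_sub_cancel] at this
  have hseed := G.seed M (f * z) hfz (fun c => mul_mem (hint c) (hz.2 c))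
  obtain ⟨c, hc1, hc2⟩ := hseed.2 i
  beta_reduce at hc1 hc2
  rw [(G.S (G.src i)).red_mul (hint _) (hz.2 _)] at hc1
  rw [(G.S (G.tgt i)).red_mul (hint _) (hz.2 _)] at hc2
  have hv1 := nd_valAt_of_mul hc1 hz1
  have hv2 := nd_valAt_of_mul hc2 hz2
  exact ⟨hv1.ord_nonneg, hv2.ord_nonneg, c, hv1, hv2⟩

end Fermat.Agent.BadRedG
end
end MergeWrap_Lib_BadRed_Graph_Deuring_Node

section MergeWrap_Lib_BadRed_Graph_KeyTwo -- from Lib/BadRed/Graph/KeyTwo.lean

set_option autoImplicit false
set_option linter.unusedSectionVars false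

/-!
# Cluster G (S36), G-KEY core: the sides of a graph setup, all-sided lemmas (helper7)

Port of `Nodal/KeyTwo.lean` (cluster T) to a family of components.  The one-sided calculus
(`Fermat.Agent.BadRed.NSide`, `Nodal/Side.lean`, `Nodal/KeyCore.lean`) is generic in the special
fibre and is used as it is, with `X = Σ c, Place k (Fk c)`, `emb Q = ⟨c, Q⟩`.

* `GK.gside N c` : the `NSide` of the component `c`;
* `GK.exists_scaleAll` : max-norm scaling (`x / a ∈ ⋂ O_c`, a unit of one of them);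
* `GK.red_const_of_regAll` : a function of `⋂ O_c`, regular off the discs of the `Rb j`, whose
  reductions have at most simple poles at the `Rb j`, has CONSTANT reductions `(a)_c`;
* `GK.kl_finalAll` : … and it cannot vanish at `P0` unless all the reductions vanish;
* `GK.kl_normaliseAll`, `GK.kl_exists_selfAll`, `GK.kl_ord_otherAll` : normalisation, local data.
-/

noncomputable section

open AlgebraicCurve Fermat.Agent.RR Fermat.Agent.Deuring

namespace Fermat.Agent.BadRedG

open Fermat.Agent.BadRed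

namespace GK

open Fermat.Agent.S18Key (ord_neg' ord_nonneg_add ord_nonneg_sub ord_nonneg_mul ord_const_nonneg
  ord_one_nonneg ord_add_ge_of_ge ord_add_eq_of_lt mapDomain_apply_eq_sum sum_le_mapDomain
  mapDomain_nonneg le_mapDomain add_le_mapDomain kl_ord_const_mul kl_ord_mul_const
  kl_ord_div_const kl_ord_sum_ge kl_ord_prod kl_ord_pow kl_ord_sub_ge_of_ge
  kl_ne_zero_of_ord_ne_zero kl_const_eq_zero_of_ord_pos)

open Fermat.Agent.BadRed.NK

variable {K F k : Type*} [Field K] [Field F] [Algebra K F] [Field k]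
  {κ : Type*} {Fk : κ → Type*} [∀ c, Field (Fk c)] [∀ c, Algebra k (Fk c)] {ι : Type*}

/-- the side of the component `c` of a graph setup. -/
def gside (N : GraphSetup K F k κ Fk ι) (c : κ) :
    NSide K F k (Fk c) (Σ c, Place k (Fk c)) where
  A := (N.S c).A
  Ov := (N.S c).Ov
  res := (N.S c).res
  ρ := (N.S c).ρ
  r := N.r
  emb := fun Q => ⟨c, Q⟩
  sm := fun Q => N.IsSmooth ⟨c, Q⟩
  hF := (N.S c).hF
  mem_Ov_iff := (N.S c).mem_Ov_iff
  ρ_algebraMap := (N.S c).ρ_algebraMap
  ρ_eq_zero_iff := (N.S c).ρ_eq_zero_iff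
  scale := (N.S c).scale
  push := fun f hf hfi hf0 Q hQ => by
    have := N.push c f hf hfi hf0 Q hQ.1 hQ.2
    rwa [ValSetup.red, dif_pos hf] at this

variable (N : GraphSetup K F k κ Fk ι)

theorem gside_red (c : κ) (f : F) : (gside N c).red f = (N.S c).red f := rfl

theorem gside_Ov (c : κ) : (gside N c).Ov = (N.S c).Ov := rfl

theorem gside_A (c : κ) : (gside N c).A = (N.S c).A := rfl

theorem mem_A_iff (c c' : κ) (a : K) : a ∈ (N.S c).A ↔ a ∈ (N.S c').A := by rw [N.A_eq c c']

/-- units of all the valuation rings. -/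
def IsUAll (x : F) : Prop := ∀ c, (gside N c).IsU x

theorem isSmooth_of_r {P : Place K F} {X : Σ c, Place k (Fk c)} (h : N.r P = some X) :
    N.IsSmooth X :=
  ⟨fun i hi => N.r_ne_node₁ P i (by rw [h, hi]), fun i hi => N.r_ne_node₂ P i (by rw [h, hi])⟩

/-- the order at `X` of the reduction of `f` (on the component of `X`). -/
def gOrdRed (X : Σ c, Place k (Fk c)) (f : F) : ℤ := tupOrd X (N.redAll f)

theorem gOrdRed_mk (c : κ) (Q : Place k (Fk c)) (f : F) :
    gOrdRed N ⟨c, Q⟩ f = Q.ord ((N.S c).red f) := rfl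

/-- the reductions of a function without poles on the disc of a smooth point `X` is regular at
`X`. -/
theorem gOrdRed_nonneg {f : F} (X : Σ c, Place k (Fk c)) (hX : N.IsSmooth X)
    (h : ∀ P, N.r P = some X → 0 ≤ P.ord f) : 0 ≤ gOrdRed N X f := by
  obtain ⟨c, Q⟩ := X
  show 0 ≤ Q.ord ((N.S c).red f)
  by_cases h0 : (N.S c).red f = 0
  · rw [h0, Place.ord_zero]
  · have hU : (gside N c).IsU f :=
      isU_of_red_ne_zero (S := gside N c) (ValSetup.mem_of_red_ne_zero _ h0) h0
    exact push_nonneg (S := gside N c) hU Q hX h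

/-- **max-norm scaling** on a finite set of components. -/
theorem exists_scaleFinset [DecidableEq κ] {x : F} (hx : x ≠ 0) (T : Finset κ)
    (hT : T.Nonempty) : ∃ a : K, a ≠ 0 ∧
    (∀ c ∈ T, x / algebraMap K F a ∈ (N.S c).Ov) ∧
      ∃ c ∈ T, (N.S c).red (x / algebraMap K F a) ≠ 0 := by
  induction hT using Finset.Nonempty.cons_induction with
  | singleton c =>
    obtain ⟨a, ha, hU⟩ := exists_scale (S := gside N c) hx
    refine ⟨a, ha, fun c' hc' => ?_, c, Finset.mem_singleton_self c, hU.red_ne_zero⟩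
    rw [Finset.mem_singleton.mp hc']
    exact hU.mem
  | cons c₁ T hc₁ hT ih =>
    obtain ⟨a₂, ha₂, hm₂, c₂, hc₂, hne₂⟩ := ih
    obtain ⟨a₁, ha₁, hU₁⟩ := exists_scale (S := gside N c₁) hx
    have ha₁F : algebraMap K F a₁ ≠ 0 := by simpa using ha₁
    have ha₂F : algebraMap K F a₂ ≠ 0 := by simpa using ha₂
    rcases (N.S c₁).A.mem_or_inv_mem (a₁ / a₂) with h | h
    · -- `a₂` has the bigger norm
      refine ⟨a₂, ha₂, fun c hc => ?_, c₂, Finset.mem_cons.mpr (Or.inr hc₂), hne₂⟩
      rcases Finset.mem_cons.mp hc with rfl | hc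
      · have e : x / algebraMap K F a₂ = x / algebraMap K F a₁ * algebraMap K F (a₁ / a₂) := by
          rw [map_div₀]; field_simp
        rw [e]
        exact mul_mem hU₁.mem (((N.S c).mem_Ov_iff _).mpr h)
      · exact hm₂ c hc
    · rw [inv_div] at h
      refine ⟨a₁, ha₁, fun c hc => ?_, c₁, Finset.mem_cons_self c₁ T, hU₁.red_ne_zero⟩
      rcases Finset.mem_cons.mp hc with rfl | hc
      · exact hU₁.mem
      · have e : x / algebraMap K F a₁ = x / algebraMap K F a₂ * algebraMap K F (a₂ / a₁) := by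
          rw [map_div₀]; field_simp
        rw [e]
        exact mul_mem (hm₂ c hc) (((N.S c).mem_Ov_iff _).mpr ((mem_A_iff N c₁ c _).mp h))

/-- **max-norm scaling**. -/
theorem exists_scaleAll [Finite κ] [Nonempty κ] {x : F} (hx : x ≠ 0) : ∃ a : K, a ≠ 0 ∧
    (∀ c, x / algebraMap K F a ∈ (N.S c).Ov) ∧ ∃ c, (N.S c).red (x / algebraMap K F a) ≠ 0 := by
  classical
  haveI := Fintype.ofFinite κ
  obtain ⟨a, ha, hm, c, -, hc⟩ := exists_scaleFinset N hx Finset.univ Finset.univ_nonempty
  exact ⟨a, ha, fun c => hm c (Finset.mem_univ c), c, hc⟩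

variable {N}

/-- a graph setup with a non-special package has a component. -/
theorem nonempty_of_ns {g : ℕ} (NS : GraphNS N g) : Nonempty κ := by
  obtain ⟨X, -⟩ := NS.P0_ord
  exact ⟨X.1⟩

/-- a function of `⋂ O_c`, regular off the discs of the `Rb j`, `j ∈ I`, whose reductions have
at most simple poles at the `Rb j`: the reductions are the same constant. -/
theorem red_const_of_regAll {g : ℕ} (NS : GraphNS N g) (I : Finset (Fin g)) {W : F}
    (hW : ∀ c, W ∈ (N.S c).Ov)
    (hreg : ∀ v, (∀ j ∈ I, N.r v ≠ some (NS.Rb j)) → 0 ≤ v.ord W)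
    (hpole : ∀ j ∈ I, -1 ≤ gOrdRed N (NS.Rb j) W) :
    ∃ a : k, ∀ c, (N.S c).red W = algebraMap k (Fk c) a := by
  classical
  have hnode : N.IsNodalFn (N.redAll W) :=
    N.node W hW (fun P hP => hreg P (fun j _ => by rw [hP]; simp))
  have hsm : ∀ X, N.IsSmooth X → (∀ j ∈ I, NS.Rb j ≠ X) → 0 ≤ gOrdRed N X W := fun X hX hne =>
    gOrdRed_nonneg N X hX (fun P hP => hreg P (fun j hj h' => hne j hj (by
      rw [hP] at h'; exact (Option.some.inj h').symm)))
  refine NS.nonspecial (N.redAll W) hnode ?_ ?_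
  · intro Q hQ
    by_cases hs : N.IsSmooth Q
    · exact hsm Q hs (fun j _ => hQ j)
    · unfold GraphSetup.IsSmooth at hs
      rw [not_and_or] at hs
      rcases hs with hs | hs
      · push Not at hs
        obtain ⟨i, rfl⟩ := hs
        exact (hnode i).1
      · push Not at hs
        obtain ⟨i, rfl⟩ := hs
        exact (hnode i).2.1
  · intro i
    by_cases hi : i ∈ I
    · exact hpole i hi
    · have := hsm (NS.Rb i) (isSmooth_of_r N (NS.r_R i)) (fun j hj h' => hi (NS.Rb_inj h' ▸ hj))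
      exact le_trans (by norm_num : (-1 : ℤ) ≤ 0) this

/-- final contradiction: a function of `⋂ O_c` with a nonzero reduction, regular off the discs
`I`, whose reductions have at most simple poles at the `Rb j`, `j ∈ I`, cannot vanish at `P0`. -/
theorem kl_finalAll {g : ℕ} (NS : GraphNS N g) (I : Finset (Fin g)) {W : F}
    (hW : ∀ c, W ∈ (N.S c).Ov) (hne : ∃ c, (N.S c).red W ≠ 0)
    (hreg : ∀ v, (∀ j ∈ I, N.r v ≠ some (NS.Rb j)) → 0 ≤ v.ord W)
    (hpole : ∀ j ∈ I, -1 ≤ gOrdRed N (NS.Rb j) W)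
    (hz : 0 < NS.P0.ord W) : False := by
  obtain ⟨a, ha⟩ := red_const_of_regAll NS I hW hreg hpole
  obtain ⟨X, hX⟩ := NS.P0_ord
  have hXsm := isSmooth_of_r N hX
  have hXne : ∀ j, NS.Rb j ≠ X := fun j h => NS.r_P0 j (by rw [hX, h])
  have hregX : ∀ P, N.r P = some X → 0 ≤ P.ord W := fun P hP =>
    hreg P (fun j _ h' => hXne j (by rw [hP] at h'; exact (Option.some.inj h').symm))
  have ha0 : a = 0 := by
    by_contra hc
    obtain ⟨c, Q⟩ := X
    have hU : (gside N c).IsU W := isU_of_red_ne_zero (S := gside N c) (hW c) (by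
      rw [gside_red, ha c]; simpa using hc)
    have := push_ge (S := gside N c) hU Q hXsm hregX NS.P0 hX
    rw [gside_red, ha c, Fermat.Agent.S24Res.ord_algebraMap] at this
    omega
  subst ha0
  obtain ⟨c, hc⟩ := hne
  exact hc (by rw [ha c, map_zero])

/-! ### normalisation -/

/-- normalisation: a function whose divisor is ordinary with trivial reduction is, up to a
constant, a unit of all the valuation rings taking the value `1` at `P0`. -/
theorem kl_normaliseAll [Finite κ] {g : ℕ} (NS : GraphNS N g) (I : Finset (Fin g)) {u₀ : F}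
    (hu₀ : u₀ ≠ 0)
    (hoff : ∀ v, (∀ j ∈ I, N.r v ≠ some (NS.Rb j)) → v.ord u₀ = 0)
    (hdisc : ∀ j ∈ I, ∀ hF : IsRRField K F,
      Finsupp.mapDomain N.r (divOf hF u₀) (some (NS.Rb j)) = 0) :
    ∃ a : K, a ≠ 0 ∧ IsUAll N (u₀ / algebraMap K F a) ∧
      (u₀ / algebraMap K F a = 1 ∨ 0 < NS.P0.ord (u₀ / algebraMap K F a - 1)) := by
  haveI := nonempty_of_ns NS
  obtain ⟨a₁, ha₁, hm, hne⟩ := exists_scaleAll N hu₀
  have hord : ∀ P : Place K F, P.ord (u₀ / algebraMap K F a₁) = P.ord u₀ := fun P =>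
    kl_ord_div_const P ha₁ u₀
  have hdiv : ∀ hF : IsRRField K F, divOf hF (u₀ / algebraMap K F a₁) = divOf hF u₀ := by
    intro hF
    ext P; rw [divOf_apply, divOf_apply, hord]
  -- the reductions are constant
  have hpole : ∀ j ∈ I, -1 ≤ gOrdRed N (NS.Rb j) (u₀ / algebraMap K F a₁) := by
    intro j hj
    have hsm := isSmooth_of_r N (NS.r_R j)
    have hd := hdisc j hj
    have key : gOrdRed N (NS.Rb j) (u₀ / algebraMap K F a₁) = 0 := by
      revert hd hsm
      generalize NS.Rb j = X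
      intro hsm hd
      obtain ⟨c, Q⟩ := X
      show Q.ord ((N.S c).red _) = 0
      by_cases h0 : (N.S c).red (u₀ / algebraMap K F a₁) = 0
      · rw [h0, Place.ord_zero]
      · have hU : (gside N c).IsU (u₀ / algebraMap K F a₁) :=
          isU_of_red_ne_zero (S := gside N c) (hm c) h0
        have h1 := push_eq (S := gside N c) hU Q hsm
        have h2 := hd (gside N c).hF
        rw [← hdiv] at h2
        exact h1.symm.trans h2
    rw [key]; norm_num
  obtain ⟨ab, hab⟩ := red_const_of_regAll NS I hm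
    (fun v hv => by rw [hord, hoff v hv]) hpole
  have hab0 : ab ≠ 0 := by
    rintro rfl
    obtain ⟨c, hc⟩ := hne
    exact hc (by rw [hab c, map_zero])
  have hU : ∀ c, (gside N c).IsU (u₀ / algebraMap K F a₁) := fun c =>
    isU_of_red_ne_zero (S := gside N c) (hm c) (by rw [gside_red, hab c]; simpa using hab0)
  -- the value at `P0`
  obtain ⟨X, hX⟩ := NS.P0_ord
  have hXsm := isSmooth_of_r N hX
  have hXne : ∀ j, NS.Rb j ≠ X := fun j h => NS.r_P0 j (by rw [hX, h])
  have h0X : ∀ P, N.r P = some X → P.ord (u₀ / algebraMap K F a₁) = 0 := fun P hP => by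
    rw [hord]
    exact hoff P (fun j _ h' => hXne j (by rw [hP] at h'; exact (Option.some.inj h').symm))
  obtain ⟨c₀, Q⟩ := X
  obtain ⟨a₀, ha₀0, ha₀A, ha₀i, hval⟩ :=
    kl_normalise₁ (gside N c₀) NS.P0 Q hXsm hX (hU c₀) h0X
  have e : u₀ / algebraMap K F (a₁ * a₀) = u₀ / algebraMap K F a₁ / algebraMap K F a₀ := by
    rw [map_mul, div_div]
  refine ⟨a₁ * a₀, mul_ne_zero ha₁ ha₀0, ?_, ?_⟩
  · rw [e]
    intro c
    exact (hU c).div (isU_const (S := gside N c) ha₀0 ((mem_A_iff N c₀ c _).mp ha₀A)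
      ((mem_A_iff N c₀ c _).mp ha₀i))
  · rw [e]; exact hval

/-! ### local data -/

theorem kl_t_isUAll {g : ℕ} (NS : GraphNS N g) (i : Fin g) : IsUAll N (NS.t i) :=
  fun c => isU_of_red_ne_zero (S := gside N c) (NS.t_mem i c) (NS.t_red i c)

/-- `t i - a` is a unit of all the valuation rings, for `a` in the maximal ideal of `A`. -/
theorem kl_s_isUAll {g : ℕ} (NS : GraphNS N g) (i : Fin g) (c₀ : κ) {a : K}
    (haA : a ∈ (N.S c₀).A) (hai : a⁻¹ ∉ (N.S c₀).A) (c : κ) :
    (gside N c).IsU (NS.t i - algebraMap K F a) ∧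
      (gside N c).red (NS.t i - algebraMap K F a) = (gside N c).red (NS.t i) := by
  have haA' : a ∈ (N.S c).A := (mem_A_iff N c₀ c _).mp haA
  have hai' : a⁻¹ ∉ (N.S c).A := fun h => hai ((mem_A_iff N c₀ c _).mpr h)
  have hO : algebraMap K F a ∈ (N.S c).Ov := ((N.S c).mem_Ov_iff a).mpr haA'
  have hr : (gside N c).red (NS.t i - algebraMap K F a) = (gside N c).red (NS.t i) := by
    rw [red_sub (S := gside N c) (NS.t_mem i c) hO,
      kl_red_const_eq_zero (S := gside N c) haA' hai', sub_zero]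
  exact ⟨isU_of_red_ne_zero (S := gside N c) (sub_mem (NS.t_mem i c) hO)
      (by rw [hr]; exact NS.t_red i c), hr⟩

/-- orders of `t i`, `t i - a` on the disc of `Rb j`, `j ≠ i`. -/
theorem kl_ord_otherAll {g : ℕ} (NS : GraphNS N g) (i j : Fin g) (hij : i ≠ j) (c₀ : κ) {a : K}
    (haA : a ∈ (N.S c₀).A) (hai : a⁻¹ ∉ (N.S c₀).A) (v : Place K F)
    (hv : N.r v = some (NS.Rb j)) :
    v.ord (NS.t i) = 0 ∧ v.ord (NS.t i - algebraMap K F a) = 0 := by
  have hsm := isSmooth_of_r N hv
  have hord := NS.ord_t_other i j hij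
  have hreg := NS.t_reg i j
  revert hv hsm hord hreg
  generalize NS.Rb j = X
  intro hv hsm hord hreg
  obtain ⟨c, Q⟩ := X
  exact kl_ord_other (S := gside N c) (NS.t_mem i c) Q hsm (NS.t_red i c) hord hreg
    ((mem_A_iff N c₀ c _).mp haA) (fun h => hai ((mem_A_iff N c₀ c _).mpr h)) v hv

/-- local data at an index `i`, for a point `Pi ≠ R i` of the residue disc of `Rb i`. -/
theorem kl_exists_selfAll {g : ℕ} (NS : GraphNS N g) (i : Fin g) (c₀ : κ) (Pi : Place K F)
    (hr : N.r Pi = some (NS.Rb i)) (hne : Pi ≠ NS.R i) :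
    ∃ a : K, a ≠ 0 ∧ a ∈ (N.S c₀).A ∧ a⁻¹ ∉ (N.S c₀).A ∧
      (∀ v, N.r v = some (NS.Rb i) → v.ord (NS.t i) = Finsupp.single (NS.R i) (1 : ℤ) v) ∧
      (∀ v, N.r v = some (NS.Rb i) →
        v.ord (NS.t i - algebraMap K F a) = Finsupp.single Pi (1 : ℤ) v) := by
  have hsm := isSmooth_of_r N hr
  have hord := NS.ord_t_self i
  have hreg := NS.t_reg i i
  have hR := NS.r_R i
  revert hr hsm hord hreg hR
  generalize NS.Rb i = X
  intro hr hsm hord hreg hR
  obtain ⟨c, Q⟩ := X
  obtain ⟨a, ha⟩ := kl_exists_self (S := gside N c) (NS.t_mem i c) Q hsm hord hreg (NS.R i) hR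
    (NS.t_R i) Pi hr hne
  exact ⟨a, ha.a_ne, (mem_A_iff N c c₀ _).mp ha.a_mem,
    fun h => ha.a_inv ((mem_A_iff N c c₀ _).mpr h), ha.ord_t_self, ha.ord_s_self⟩

end GK

end Fermat.Agent.BadRedG
end
end MergeWrap_Lib_BadRed_Graph_KeyTwo

section MergeWrap_Lib_BadRed_Graph_KeyMain -- from Lib/BadRed/Graph/KeyMain.lean

set_option autoImplicit false
set_option linter.unusedSectionVars false

/-!
# Cluster G (S36), G-KEY core: the main step of the graph KEY LEMMA (helper7)

`graphMain : GraphMainStatement N g NS`: if `u₀` has divisor `m * ∑ (P i - R i)` with `P i` in the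
residue disc of `Rb i` and `m` a unit of `A`, then `P i = R i` for all `i`.
Port of `Nodal/KeyMain.lean` (cluster T) to a finite family of components.
-/

noncomputable section

open AlgebraicCurve Fermat.Agent.RR Fermat.Agent.Deuring

namespace Fermat.Agent.BadRedG

open Fermat.Agent.BadRed

namespace GK

open Fermat.Agent.S18Key (ord_neg' ord_nonneg_add ord_nonneg_sub ord_nonneg_mul ord_const_nonneg
  ord_one_nonneg ord_add_ge_of_ge ord_add_eq_of_lt mapDomain_apply_eq_sum sum_le_mapDomain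
  mapDomain_nonneg le_mapDomain add_le_mapDomain kl_ord_const_mul kl_ord_mul_const
  kl_ord_div_const kl_ord_sum_ge kl_ord_prod kl_ord_pow kl_ord_sub_ge_of_ge
  kl_ne_zero_of_ord_ne_zero kl_const_eq_zero_of_ord_pos)

open Fermat.Agent.BadRed.NK

variable {K F k : Type*} [Field K] [Field F] [Algebra K F] [Field k]
  {κ : Type*} {Fk : κ → Type*} [∀ c, Field (Fk c)] [∀ c, Algebra k (Fk c)] {ι : Type*}
  {N : GraphSetup K F k κ Fk ι} {g : ℕ}

/-- the choice of the scaling constant `τ`. -/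
theorem exists_tauAll [Finite κ] [Nonempty κ] (N : GraphSetup K F k κ Fk ι) (c₀ : κ) (Xf : F)
    {a : K} (ha0 : a ≠ 0) :
    ∃ τ : K, τ ≠ 0 ∧ (∀ c, Xf / algebraMap K F τ ∈ (N.S c).Ov) ∧
      a / τ ∈ (N.S c₀).A ∧ ((a / τ)⁻¹ ∈ (N.S c₀).A ∨
        ∃ c, (N.S c).red (Xf / algebraMap K F τ) ≠ 0) := by
  have haF0 : algebraMap K F a ≠ 0 := by simpa using ha0
  have h1 : a / a ∈ (N.S c₀).A := by rw [div_self ha0]; exact one_mem _
  have h1i : (a / a)⁻¹ ∈ (N.S c₀).A := by rw [div_self ha0, inv_one]; exact one_mem _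
  by_cases hX0 : Xf = 0
  · refine ⟨a, ha0, fun c => ?_, h1, Or.inl h1i⟩
    rw [hX0, zero_div]; exact zero_mem _
  · obtain ⟨b, hb0, hb, hbne⟩ := exists_scaleAll N hX0
    have hbF0 : algebraMap K F b ≠ 0 := by simpa using hb0
    rcases (N.S c₀).A.mem_or_inv_mem (a / b) with h | h
    · exact ⟨b, hb0, hb, h, Or.inr hbne⟩
    · rw [inv_div] at h
      have e : Xf / algebraMap K F a = Xf / algebraMap K F b * algebraMap K F (b / a) := by
        rw [map_div₀]; field_simp
      refine ⟨a, ha0, fun c => ?_, h1, Or.inl h1i⟩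
      rw [e]
      exact mul_mem (hb c) (((N.S c).mem_Ov_iff _).mpr ((mem_A_iff N c₀ c _).mp h))

/-- the core contradiction. -/
theorem kl_coreAll [Finite κ] (NS : GraphNS N g) (I : Finset (Fin g)) (istar : Fin g)
    (hstar : istar ∈ I) (c₀ : κ)
    {u : F} (huP0 : 0 < NS.P0.ord (u - 1))
    (hu_off : ∀ v, (∀ j ∈ I, N.r v ≠ some (NS.Rb j)) → v.ord u = 0)
    {a : K} (ha0 : a ≠ 0) (haA : a ∈ (N.S c₀).A) (hai : a⁻¹ ∉ (N.S c₀).A)
    {Y : F} (hY : ∀ c, Y ∈ (N.S c).Ov)
    (hY2 : ∀ j ∈ I, -1 ≤ gOrdRed N (NS.Rb j) Y)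
    (hY3 : gOrdRed N (NS.Rb istar) Y = -1)
    (huV : ∀ j ∈ I, ∀ v, N.r v = some (NS.Rb j) →
      v.ord (u * (1 + algebraMap K F a * Y)) = 0) :
    False := by
  haveI := nonempty_of_ns NS
  have haA' : ∀ c, a ∈ (N.S c).A := fun c => (mem_A_iff N c₀ c _).mp haA
  have hai' : ∀ c, a⁻¹ ∉ (N.S c).A := fun c h => hai ((mem_A_iff N c₀ c _).mpr h)
  have hXreg : ∀ j ∈ I, ∀ v, N.r v = some (NS.Rb j) →
      0 ≤ v.ord (u * (1 + algebraMap K F a * Y) - 1) := fun j hj v hv =>
    ord_nonneg_sub v (huV j hj v hv).ge (ord_one_nonneg v)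
  obtain ⟨τ, hτ0, hX, hcA, hK3⟩ :=
    exists_tauAll N c₀ (u * (1 + algebraMap K F a * Y) - 1) ha0
  have hcA' : ∀ c, a / τ ∈ (N.S c).A := fun c => (mem_A_iff N c₀ c _).mp hcA
  have hW : ∀ c, _ := fun c =>
    kl_W_red (S := gside N c) (haA' c) (hai' c) hτ0 (hY c) (hX c) (hcA' c)
  have hordW : ∀ v : Place K F, v.ord ((u - 1) / algebraMap K F τ) = v.ord (u - 1) := fun v =>
    kl_ord_div_const v hτ0 _
  refine kl_finalAll NS I (fun c => (hW c).1) ?_ ?_ ?_ (by rw [hordW]; exact huP0)
  · -- some reduction does not vanish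
    by_cases hci : (a / τ)⁻¹ ∈ (N.S c₀).A
    · have hsm := isSmooth_of_r N (NS.r_R istar)
      have hreg := hXreg istar hstar
      revert hsm hreg hY3
      generalize NS.Rb istar = X
      intro hY3 hsm hreg
      obtain ⟨c, Q⟩ := X
      exact ⟨c, kl_W_ne_zero (S := gside N c) (haA' c) (hai' c) hτ0 (hY c) (hX c) (hcA' c) Q hsm
        hreg hY3 ha0 ((mem_A_iff N c₀ c _).mp hci)⟩
    · rcases hK3 with h | ⟨c, h⟩
      · exact absurd h hci
      · refine ⟨c, ?_⟩
        have := kl_W_red_of_not_unit (S := gside N c) (haA' c) (hai' c) hτ0 (hY c) (hX c)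
          (hcA' c) (fun h' => hci ((mem_A_iff N c₀ c _).mpr h'))
        rw [gside_red] at this
        rw [this]; exact h
  · intro v hv
    rw [hordW]
    exact ord_nonneg_sub v (hu_off v hv).ge (ord_one_nonneg v)
  · intro j hj
    have hsm := isSmooth_of_r N (NS.r_R j)
    have hreg := hXreg j hj
    have hYj := hY2 j hj
    revert hsm hreg hYj
    generalize NS.Rb j = X
    intro hsm hreg hYj
    obtain ⟨c, Q⟩ := X
    exact kl_W_ord_ge (S := gside N c) (haA' c) (hai' c) hτ0 (hY c) (hX c) (hcA' c) Q hsm hreg hYj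

/-- **the main step**. -/
theorem kl_mainAll [Finite κ] (NS : GraphNS N g) (m : ℕ) (hm0 : (m : K) ≠ 0) (c₀ : κ)
    (hmA : ((m : K))⁻¹ ∈ (N.S c₀).A)
    (P : Fin g → Place K F) (hP : ∀ i, N.r (P i) = some (NS.Rb i))
    (u₀ : F) (hu₀ : u₀ ≠ 0)
    (hdiv : ∀ v : Place K F, v.ord u₀ =
      m * ∑ i, (Finsupp.single (P i) (1 : ℤ) v - Finsupp.single (NS.R i) (1 : ℤ) v)) :
    ∀ i, P i = NS.R i := by
  classical
  by_contra hcon
  obtain ⟨i₀, hi₀⟩ := not_forall.mp hcon
  set I : Finset (Fin g) := Finset.univ.filter fun i => P i ≠ NS.R i with hI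
  have hmemI : ∀ i, i ∈ I ↔ P i ≠ NS.R i := fun i => by simp [hI]
  have hIne : I.Nonempty := ⟨i₀, (hmemI i₀).mpr hi₀⟩
  -- the divisor of u₀
  have hterm : ∀ (v : Place K F) (i : Fin g), (i ∉ I ∨ N.r v ≠ some (NS.Rb i)) →
      Finsupp.single (P i) (1 : ℤ) v - Finsupp.single (NS.R i) (1 : ℤ) v = 0 := by
    intro v i h
    rcases h with h | h
    · have : P i = NS.R i := by
        by_contra h'
        exact h ((hmemI i).mpr h')
      rw [this, sub_self]
    · have h1 : v ≠ P i := fun e => h (by rw [e]; exact hP i)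
      have h2 : v ≠ NS.R i := fun e => h (by rw [e]; exact NS.r_R i)
      rw [Finsupp.single_eq_of_ne h1, Finsupp.single_eq_of_ne h2, sub_self]
  have hH1 : ∀ v, (∀ j ∈ I, N.r v ≠ some (NS.Rb j)) → v.ord u₀ = 0 := by
    intro v hv
    rw [hdiv, Finset.sum_eq_zero, mul_zero]
    intro i _
    apply hterm
    by_cases hi : i ∈ I
    · exact Or.inr (hv i hi)
    · exact Or.inl hi
  have hH2 : ∀ j ∈ I, ∀ v, N.r v = some (NS.Rb j) → v.ord u₀ =
      m * (Finsupp.single (P j) (1 : ℤ) v - Finsupp.single (NS.R j) (1 : ℤ) v) := by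
    intro j _ v hv
    rw [hdiv, Finset.sum_eq_single j]
    · intro i _ hij
      apply hterm
      right
      rw [hv]
      exact fun e => hij (NS.Rb_inj (Option.some.inj e)).symm
    · intro h
      exact absurd (Finset.mem_univ j) h
  -- the push-forward of the divisor of `u₀` vanishes
  have hdisc : ∀ j ∈ I, ∀ hF : IsRRField K F,
      Finsupp.mapDomain N.r (divOf hF u₀) (some (NS.Rb j)) = 0 := by
    intro j _ hF
    have hD : divOf hF u₀ =
        (m : ℤ) • ∑ i, (Finsupp.single (P i) (1 : ℤ) - Finsupp.single (NS.R i) (1 : ℤ)) := by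
      ext v
      rw [divOf_apply, hdiv, Finsupp.smul_apply, Finsupp.finsetSum_apply, smul_eq_mul]
      simp only [Finsupp.sub_apply]
    have h0 : ∀ i, Finsupp.mapDomain N.r
        (Finsupp.single (P i) (1 : ℤ) - Finsupp.single (NS.R i) (1 : ℤ)) = 0 := by
      intro i
      rw [sub_eq_add_neg, ← Finsupp.single_neg, Finsupp.mapDomain_add, Finsupp.mapDomain_single,
        Finsupp.mapDomain_single, hP i, NS.r_R i, Finsupp.single_neg, add_neg_cancel]
    rw [hD, Finsupp.mapDomain_smul, Finsupp.mapDomain_finsetSum]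
    simp [h0]
  -- normalise
  obtain ⟨c, hc0, hU, hval⟩ := kl_normaliseAll NS I hu₀ hH1 hdisc
  have hordu : ∀ v : Place K F, v.ord (u₀ / algebraMap K F c) = v.ord u₀ := fun v =>
    kl_ord_div_const v hc0 u₀
  have hmZ : (m : ℤ) ≠ 0 := by
    intro h
    apply hm0
    have : m = 0 := by exact_mod_cast h
    rw [this]
    simp
  have hu1 : u₀ / algebraMap K F c ≠ 1 := by
    intro h1
    have := hH2 i₀ ((hmemI i₀).mpr hi₀) (P i₀) (hP i₀)
    rw [← hordu, h1, Place.ord_one, Finsupp.single_eq_same, Finsupp.single_eq_of_ne hi₀,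
      sub_zero, mul_one] at this
    exact hmZ this.symm
  have huP0 : 0 < NS.P0.ord (u₀ / algebraMap K F c - 1) := hval.resolve_left hu1
  -- local data
  have hloc : ∀ i, ∃ a : K, i ∈ I → (a ≠ 0 ∧ a ∈ (N.S c₀).A ∧ a⁻¹ ∉ (N.S c₀).A ∧
      (∀ v, N.r v = some (NS.Rb i) → v.ord (NS.t i) = Finsupp.single (NS.R i) (1 : ℤ) v) ∧
      (∀ v, N.r v = some (NS.Rb i) →
        v.ord (NS.t i - algebraMap K F a) = Finsupp.single (P i) (1 : ℤ) v)) := by
    intro i
    by_cases hi : i ∈ I
    · obtain ⟨a, ha⟩ := kl_exists_selfAll NS i c₀ (P i) (hP i) ((hmemI i).mp hi)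
      exact ⟨a, fun _ => ha⟩
    · exact ⟨0, fun h => absurd h hi⟩
  choose aI hL using hloc
  -- choose `istar` with maximal valuation
  obtain ⟨istar, hstar, hmax⟩ :=
    Finset.exists_max_image I (fun i => (N.S c₀).A.valuation (aI i)) hIne
  have ha0 : aI istar ≠ 0 := (hL istar hstar).1
  have haA : aI istar ∈ (N.S c₀).A := (hL istar hstar).2.1
  have hai : (aI istar)⁻¹ ∉ (N.S c₀).A := (hL istar hstar).2.2.1
  have haA' : ∀ c, aI istar ∈ (N.S c).A := fun c => (mem_A_iff N c₀ c _).mp haA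
  have hai' : ∀ c, (aI istar)⁻¹ ∉ (N.S c).A := fun c h => hai ((mem_A_iff N c₀ c _).mpr h)
  have hmA' : ∀ c, ((m : K))⁻¹ ∈ (N.S c).A := fun c => (mem_A_iff N c₀ c _).mp hmA
  have haF0 : algebraMap K F (aI istar) ≠ 0 := by simpa using ha0
  have hcA : ∀ i ∈ I, aI i / aI istar ∈ (N.S c₀).A := by
    intro i hi
    rw [← ValuationSubring.valuation_le_one_iff, map_div₀]
    have hpos : 0 < (N.S c₀).A.valuation (aI istar) :=
      zero_lt_iff.mpr ((Valuation.ne_zero_iff _).mpr ha0)
    exact (div_le_one₀ hpos).mpr (hmax i hi)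
  have hcA' : ∀ c, ∀ i ∈ I, aI i / aI istar ∈ (N.S c).A := fun c i hi =>
    (mem_A_iff N c₀ c _).mp (hcA i hi)
  -- units
  have hsU := fun i (hi : i ∈ I) (c : κ) => kl_s_isUAll NS i c₀ (hL i hi).2.1 (hL i hi).2.2.1 c
  have hsU' : ∀ c, ∀ i ∈ I, (gside N c).IsU (NS.t i - algebraMap K F (aI i)) := fun c i hi =>
    (hsU i hi c).1
  have hc₀U : ∀ i ∈ I, (gside N c₀).IsU (NS.t i - algebraMap K F (aI i)) := hsU' c₀
  have hs0 : ∀ i ∈ I, NS.t i - algebraMap K F (aI i) ≠ 0 := fun i hi => (hc₀U i hi).ne_zero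
  -- expansions over `R = ⋂ O_c`
  set R : Subring F := ⨅ c, (N.S c).Ov.toSubring with hR
  have hmemR : ∀ x : F, x ∈ R ↔ ∀ c, x ∈ (N.S c).Ov := fun x => by
    rw [hR, Subring.mem_iInf]; rfl
  have haR : algebraMap K F (aI istar) ∈ R :=
    (hmemR _).mpr fun c => ((N.S c).mem_Ov_iff _).mpr (haA' c)
  have hσR : ∀ i ∈ I,
      algebraMap K F (aI i / aI istar) * (NS.t i - algebraMap K F (aI i))⁻¹ ∈ R := fun i hi =>
    (hmemR _).mpr fun c => klσ_mem (S := gside N c) (hsU' c) (hcA' c) i hi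
  have hq : ∀ i ∈ I, NS.t i * (NS.t i - algebraMap K F (aI i))⁻¹ =
      1 + algebraMap K F (aI istar) *
        (algebraMap K F (aI i / aI istar) * (NS.t i - algebraMap K F (aI i))⁻¹) := by
    intro i hi
    have := hs0 i hi
    rw [map_div₀]
    field_simp
    ring
  have hq0 : ∀ i ∈ I, NS.t i * (NS.t i - algebraMap K F (aI i))⁻¹ ≠ 0 := fun i hi =>
    mul_ne_zero (kl_t_isUAll NS i c₀).ne_zero (inv_ne_zero (hs0 i hi))
  have hexp : KLExpR R (algebraMap K F (aI istar))
      ((∏ i ∈ I, NS.t i * (NS.t i - algebraMap K F (aI i))⁻¹) ^ m)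
      ((m : F) * ∑ i ∈ I,
        algebraMap K F (aI i / aI istar) * (NS.t i - algebraMap K F (aI i))⁻¹) := by
    apply KLExpR.pow haR (sum_mem hσR)
    apply KLExpR.prod I _ _ haR hσR
    intro i hi
    rw [hq i hi]
    exact KLExpR.base _ _ _
  obtain ⟨y, hy, hVy⟩ := hexp
  have hy' : ∀ c, y ∈ (N.S c).Ov := (hmemR y).mp hy
  have hVY : (∏ i ∈ I, NS.t i * (NS.t i - algebraMap K F (aI i))⁻¹) ^ m =
      1 + algebraMap K F (aI istar) * klY I NS.t aI (aI istar) m y := by
    rw [hVy]; unfold klY; ring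
  have hYmem : ∀ c, klY I NS.t aI (aI istar) m y ∈ (N.S c).Ov := fun c =>
    klY_mem (S := gside N c) (hsU' c) (hcA' c) (haA' c) (hy' c)
  -- pole orders of `Y`
  have hY2 : ∀ j ∈ I, -1 ≤ gOrdRed N (NS.Rb j) (klY I NS.t aI (aI istar) m y) := by
    intro j _
    have hord : ∀ i, tupOrd (NS.Rb j) (N.redAll (NS.t i)) ≤ 1 := by
      intro i
      by_cases hij : i = j
      · subst hij; rw [NS.ord_t_self]
      · rw [NS.ord_t_other i j hij]; norm_num
    revert hord
    unfold gOrdRed
    generalize NS.Rb j = X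
    intro hord
    obtain ⟨c, Q⟩ := X
    exact ord_red_klY_ge (S := gside N c) Q (hsU' c) (fun i hi => (hsU i hi c).2) (hcA' c)
      (haA' c) (hai' c) (hy' c) (fun i _ => hord i)
  have hY3 : gOrdRed N (NS.Rb istar) (klY I NS.t aI (aI istar) m y) = -1 := by
    have h1 := NS.ord_t_self istar
    have h0 : ∀ i, i ≠ istar → tupOrd (NS.Rb istar) (N.redAll (NS.t i)) ≤ 0 := fun i hi => by
      rw [NS.ord_t_other i istar hi]
    revert h1 h0
    unfold gOrdRed
    generalize NS.Rb istar = X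
    intro h1 h0
    obtain ⟨c, Q⟩ := X
    exact ord_red_klY_eq (S := gside N c) Q (hsU' c) (fun i hi => (hsU i hi c).2) (hcA' c)
      (haA' c) (hai' c) (hy' c) hm0 (hmA' c) hstar rfl ha0 h1 (fun i _ hi => h0 i hi)
  -- orders of `u * V` on the discs
  have huV : ∀ j ∈ I, ∀ v, N.r v = some (NS.Rb j) →
      v.ord (u₀ / algebraMap K F c *
        (1 + algebraMap K F (aI istar) * klY I NS.t aI (aI istar) m y)) = 0 := by
    intro j hj v hv
    rw [← hVY, v.ord_mul (hU c₀).ne_zero (pow_ne_zero _ (Finset.prod_ne_zero_iff.mpr hq0)), hordu,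
      hH2 j hj v hv, kl_ord_pow, kl_ord_prod v I _ hq0, Finset.sum_eq_single_of_mem j hj]
    · rw [v.ord_mul (kl_t_isUAll NS j c₀).ne_zero (inv_ne_zero (hs0 j hj)), v.ord_inv,
        (hL j hj).2.2.2.1 v hv, (hL j hj).2.2.2.2 v hv]
      ring
    · intro i hi hij
      obtain ⟨h1, h2⟩ := kl_ord_otherAll NS i j hij c₀ (hL i hi).2.1 (hL i hi).2.2.1 v hv
      rw [v.ord_mul (kl_t_isUAll NS i c₀).ne_zero (inv_ne_zero (hs0 i hi)), v.ord_inv, h1, h2]
      norm_num
  exact kl_coreAll NS I istar hstar c₀ huP0 (fun v hv => by rw [hordu]; exact hH1 v hv)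
    ha0 haA hai hYmem hY2 hY3 huV

/-- **the main step of the graph KEY LEMMA.** -/
theorem graphMain [Finite κ] (N : GraphSetup K F k κ Fk ι) (g : ℕ) (NS : GraphNS N g) :
    GraphMainStatement N g NS :=
  fun m hm0 c₀ hmA P hP u₀ hu₀ hdiv => kl_mainAll NS m hm0 c₀ hmA P hP u₀ hu₀ hdiv

end GK

end Fermat.Agent.BadRedG
end
end MergeWrap_Lib_BadRed_Graph_KeyMain

section MergeWrap_Lib_BadRed_Graph_KeyJacobi -- from Lib/BadRed/Graph/KeyJacobi.lean

set_option autoImplicit false
set_option linter.style.haveILetI false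

/-!
# Cluster G (S36), G-KEY: graph Jacobi inversion, and the graph KEY LEMMA with `GraphNS` as a
hypothesis (helper40; port of `Nodal/KeyJacobi.lean`)

* `GJ.exists_jacobi_tuple` : **Jacobi inversion**, general form: an ordinary divisor `D` of
  degree `0` whose reduction (at the smooth points) is the divisor of a NODAL tuple `a`,
  `a c ≠ 0` for all `c`, is linearly equivalent to `∑ P i - ∑ R i` with `P i` in the residue disc
  of `Rb i`.
* `GJ.graphJacobi : GraphJacobiStatement N g NS` : the case `a = 1` (`RedTrivial`).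
* `GJ.graphKeyOfNS : GraphKeyOfNS N` : the graph KEY LEMMA (with the main step `GK.graphMain`).
* `GJ.graphKey_tuple` : the KEY LEMMA for divisors whose reduction is the divisor of a nodal
  tuple.

Proof of the inversion: Riemann's inequality gives `φ ≠ 0` in `L(D + ∑ R i)`; scale `φ` by the
max norm (`GK.exists_scaleAll`); `φ` has no pole in the annuli, so the tuple of its reductions is
nodal (`N.node`); the tuple `a * red φ` is nodal with at most simple poles at the `Rb i`, hence a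
constant tuple `(x)_c` (`NS.nonspecial`), `x ≠ 0`; so `φ` is a unit of all the valuation rings and
`E = D + ∑ R i + div φ ≥ 0` has a point `P i` in the disc of every `Rb i`; `deg E = g` gives
`E = ∑ P i`.
-/

noncomputable section

open AlgebraicCurve Fermat.Agent.RR Fermat.Agent.Deuring

namespace Fermat.Agent.BadRedG

open Fermat.Agent.BadRed

namespace GJ

open Fermat.Agent.S18Key (mapDomain_apply_eq_sum mapDomain_nonneg le_mapDomain kl_ord_div_const
  sum_single_apply_self sum_single_apply_other riemann_of_isRRField ord_nonneg_mul)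

open Fermat.Agent.BadRed.NK

variable {K F k : Type*} [Field K] [Field F] [Algebra K F] [Field k]
  {κ : Type*} {Fk : κ → Type*} [∀ c, Field (Fk c)] [∀ c, Algebra k (Fk c)] {ι : Type*}

variable {N : GraphSetup K F k κ Fk ι}

/-- nodal tuples are closed under multiplication. -/
theorem isNodalFn_mul {y y' : ∀ c, Fk c} (h : N.IsNodalFn y) (h' : N.IsNodalFn y') :
    N.IsNodalFn (fun c => y c * y' c) := by
  intro i
  obtain ⟨h1, h2, c, hc1, hc2⟩ := h i
  obtain ⟨h1', h2', c', hc1', hc2'⟩ := h' i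
  exact ⟨ord_nonneg_mul _ h1 h1', ord_nonneg_mul _ h2 h2', c * c', NJ.valAt_mul hc1 hc1' h1',
    NJ.valAt_mul hc2 hc2' h2'⟩

theorem isNodalFn_one : N.IsNodalFn (fun _ => 1) := fun i =>
  ⟨by simp, by simp, 1, Or.inl (map_one _).symm, Or.inl (map_one _).symm⟩

/-- a point of the special fibre is smooth or a branch of a node. -/
theorem isSmooth_or_branch (N : GraphSetup K F k κ Fk ι) (X : Σ c, Place k (Fk c)) :
    N.IsSmooth X ∨ (∃ i, X = ⟨N.src i, N.s₁ i⟩) ∨ ∃ i, X = ⟨N.tgt i, N.s₂ i⟩ := by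
  by_cases h1 : ∃ i, X = ⟨N.src i, N.s₁ i⟩
  · exact Or.inr (Or.inl h1)
  by_cases h2 : ∃ i, X = ⟨N.tgt i, N.s₂ i⟩
  · exact Or.inr (Or.inr h2)
  push Not at h1 h2
  exact Or.inl ⟨h1, h2⟩

/-- **Jacobi inversion**, general form: `D` ordinary of degree `0`, with reduction (at the smooth
points) the divisor of the nodal tuple `a`. -/
theorem exists_jacobi_tuple [Finite κ] {g : ℕ} (NS : GraphNS N g) (hg : genusFF K F = g)
    (D : Divisor K F) (hdeg : Divisor.degree D = 0) {a : ∀ c, Fk c} (ha : ∀ c, a c ≠ 0)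
    (hab : N.IsNodalFn a) (hordD : N.IsOrdDiv D)
    (hred : ∀ X, N.IsSmooth X → Finsupp.mapDomain N.r D (some X) = tupOrd X a) :
    ∃ (φ : F) (P : Fin g → Place K F), φ ≠ 0 ∧ (∀ i, N.r (P i) = some (NS.Rb i)) ∧
      ∀ v : Place K F, D v + v.ord φ =
        ∑ i, (Finsupp.single (P i) (1 : ℤ) v - Finsupp.single (NS.R i) (1 : ℤ) v) := by
  classical
  haveI : Nonempty κ := GK.nonempty_of_ns NS
  obtain ⟨c₀⟩ := ‹Nonempty κ›
  have hF : IsRRField K F := (N.S c₀).hF
  have hRinj : Function.Injective NS.R := fun i j hij =>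
    NS.Rb_inj (Option.some.inj (by rw [← NS.r_R i, ← NS.r_R j, hij]))
  set DR : Divisor K F := ∑ i, Finsupp.single (NS.R i) (1 : ℤ) with hDR
  have hdegR : Divisor.degree DR = g := by
    rw [hDR, map_sum]
    simp [Divisor.degree_single, hF.deg_one]
  obtain ⟨φ0, hφ0, hE0⟩ := riemann_of_isRRField hF g hg.le (D + DR)
    (by rw [map_add, hdeg, hdegR, zero_add])
  obtain ⟨c, hc, hm, hne⟩ := GK.exists_scaleAll N hφ0
  set φ : F := φ0 / algebraMap K F c with hφ
  have hφne : φ ≠ 0 := div_ne_zero hφ0 (by simpa using hc)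
  have hord : ∀ v : Place K F, v.ord φ = v.ord φ0 := fun v => kl_ord_div_const v hc φ0
  set E : Divisor K F := D + DR + divOf hF φ with hE
  have hEapp : ∀ v, E v = D v + DR v + v.ord φ := fun v => by
    rw [hE, Finsupp.add_apply, Finsupp.add_apply, divOf_apply]
  have hEnn : ∀ v, 0 ≤ E v := fun v => by
    rw [hEapp, hord]
    have := hE0 v
    rw [Finsupp.add_apply] at this
    exact this
  -- the divisor of the `Rb i`
  set DRb : (Σ c, Place k (Fk c)) →₀ ℤ := ∑ i, Finsupp.single (NS.Rb i) (1 : ℤ) with hDRb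
  have hDRb_self : ∀ i, DRb (NS.Rb i) = 1 := fun i => sum_single_apply_self NS.Rb NS.Rb_inj i
  have hDRb_other : ∀ X, (∀ i, X ≠ NS.Rb i) → DRb X = 0 := fun X hX =>
    sum_single_apply_other NS.Rb X hX
  have hDRb_nn : ∀ X, 0 ≤ DRb X := fun X => by
    rw [hDRb, Finsupp.finsetSum_apply]
    refine Finset.sum_nonneg fun i _ => ?_
    rw [Finsupp.single_apply]
    split_ifs <;> norm_num
  have hmapDR : ∀ X, Finsupp.mapDomain N.r DR (some X) = DRb X := by
    intro X
    rw [hDR, Finsupp.mapDomain_finsetSum, hDRb, Finsupp.finsetSum_apply, Finsupp.finsetSum_apply]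
    refine Finset.sum_congr rfl fun i _ => ?_
    rw [Finsupp.mapDomain_single, NS.r_R, Finsupp.single_apply, Finsupp.single_apply]
    simp only [Option.some.injEq]
  -- `φ` has no pole in the annuli
  have hDRnone : ∀ v, N.r v = none → DR v = 0 := fun v hv =>
    sum_single_apply_other NS.R v (fun i h => by
      rw [h, NS.r_R] at hv
      exact Option.some_ne_none _ hv)
  have hDnone : ∀ v, N.r v = none → D v = 0 := fun v hv => by
    by_contra h
    obtain ⟨Q, hQ⟩ := hordD v h
    rw [hv] at hQ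
    exact Option.some_ne_none _ hQ.symm
  have hreg : ∀ v, N.r v = none → 0 ≤ v.ord φ := fun v hv => by
    have := hEnn v
    rw [hEapp, hDnone v hv, hDRnone v hv] at this
    linarith
  have hnodeφ : N.IsNodalFn (N.redAll φ) := N.node φ hm hreg
  have hAB : N.IsNodalFn (fun c => a c * N.redAll φ c) := isNodalFn_mul hab hnodeφ
  -- push forward at the smooth points
  have hmapE : ∀ X : Σ c, Place k (Fk c), N.IsSmooth X → (N.S X.1).red φ ≠ 0 →
      Finsupp.mapDomain N.r E (some X) = DRb X + tupOrd X (fun c => a c * N.redAll φ c) := by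
    rintro ⟨c₁, Q⟩ hX hnz
    rw [hE, Finsupp.mapDomain_add, Finsupp.mapDomain_add, Finsupp.add_apply, Finsupp.add_apply,
      hmapDR, hred _ hX]
    have hnz' : (N.S c₁).red φ ≠ 0 := hnz
    have hU : (GK.gside N c₁).IsU φ := isU_of_red_ne_zero (S := GK.gside N c₁) (hm c₁) hnz'
    have hp : Finsupp.mapDomain N.r (divOf hF φ) (some ⟨c₁, Q⟩) = Q.ord ((N.S c₁).red φ) :=
      push_eq (S := GK.gside N c₁) hU Q hX
    rw [hp, tupOrd_mk, tupOrd_mk, GraphSetup.redAll_apply, Q.ord_mul (ha c₁) hnz']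
    ring
  have hpole : ∀ X : Σ c, Place k (Fk c), N.IsSmooth X →
      -DRb X ≤ tupOrd X (fun c => a c * N.redAll φ c) := by
    intro X hX
    by_cases hnz : (N.S X.1).red φ ≠ 0
    · have h1 := mapDomain_nonneg N.r E (some X) (fun P _ => hEnn P)
      rw [hmapE X hX hnz] at h1
      linarith
    · have h' : (N.S X.1).red φ = 0 := not_not.mp hnz
      have h0 : tupOrd X (fun c => a c * N.redAll φ c) = 0 := by
        show X.2.ord (a X.1 * (N.S X.1).red φ) = 0
        rw [h', mul_zero, Place.ord_zero]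
      rw [h0]
      have := hDRb_nn X
      linarith
  -- the tuple is constant
  obtain ⟨x, hx⟩ := NS.nonspecial _ hAB
    (fun X hX => by
      rcases isSmooth_or_branch N X with hs | ⟨i, rfl⟩ | ⟨i, rfl⟩
      · have := hpole X hs
        rw [hDRb_other _ (fun i h => hX i h.symm), neg_zero] at this
        exact this
      · exact (hAB i).1
      · exact (hAB i).2.1)
    (fun i => by
      have := hpole (NS.Rb i) (GK.isSmooth_of_r N (NS.r_R i))
      rw [hDRb_self] at this
      exact this)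
  have hx' : ∀ c₁, a c₁ * (N.S c₁).red φ = algebraMap k (Fk c₁) x := fun c₁ => hx c₁
  have hx0 : x ≠ 0 := by
    rintro rfl
    obtain ⟨c₁, hc₁⟩ := hne
    have := hx' c₁
    rw [map_zero] at this
    exact mul_ne_zero (ha c₁) hc₁ this
  have hnz : ∀ c₁, (N.S c₁).red φ ≠ 0 := by
    intro c₁ h
    have := hx' c₁
    rw [h, mul_zero] at this
    exact hx0 ((map_eq_zero (algebraMap k (Fk c₁))).mp this.symm)
  have hpc : ∀ X : Σ c, Place k (Fk c), tupOrd X (fun c => a c * N.redAll φ c) = 0 := by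
    rintro ⟨c₁, Q⟩
    show Q.ord (a c₁ * (N.S c₁).red φ) = 0
    rw [hx' c₁]
    exact Fermat.Agent.S24Res.ord_algebraMap Q x
  have hmapRb : ∀ i, Finsupp.mapDomain N.r E (some (NS.Rb i)) = 1 := fun i => by
    rw [hmapE (NS.Rb i) (GK.isSmooth_of_r N (NS.r_R i)) (hnz _), hDRb_self, hpc, add_zero]
  -- choose the points `P i`
  have hex : ∀ i, ∃ P : Place K F, N.r P = some (NS.Rb i) ∧ 0 < E P := by
    intro i
    by_contra hcon
    push Not at hcon
    have : Finsupp.mapDomain N.r E (some (NS.Rb i)) ≤ 0 := by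
      rw [mapDomain_apply_eq_sum]
      apply Finset.sum_nonpos
      intro P _
      split_ifs with h1
      · exact hcon P h1
      · exact le_rfl
    rw [hmapRb] at this
    omega
  choose P hP hPpos using hex
  have hPinj : Function.Injective P := fun i j hij =>
    NS.Rb_inj (Option.some.inj (by rw [← hP i, ← hP j, hij]))
  set EP : Divisor K F := ∑ i, Finsupp.single (P i) (1 : ℤ) with hEP
  have hEP_self : ∀ i, EP (P i) = 1 := fun i => sum_single_apply_self P hPinj i
  have hEP_other : ∀ v, (∀ i, v ≠ P i) → EP v = 0 := fun v hv =>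
    sum_single_apply_other P v hv
  have hdegEP : Divisor.degree EP = g := by
    rw [hEP, map_sum]
    simp [Divisor.degree_single, hF.deg_one]
  have hle : EP ≤ E := by
    rw [Finsupp.le_def]
    intro v
    by_cases hv : ∃ i, v = P i
    · obtain ⟨i, rfl⟩ := hv
      rw [hEP_self]
      have := hPpos i
      omega
    · push Not at hv
      rw [hEP_other v hv]
      exact hEnn v
  have hdegE : Divisor.degree E = g := by
    rw [hE, map_add, map_add, hdeg, hdegR, degree_divOf]
    ring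
  have hEeq : EP = E := eq_of_le_of_degree_eq_aux hF hle (by rw [hdegEP, hdegE])
  refine ⟨φ, P, hφne, hP, fun v => ?_⟩
  have h1 : D v + v.ord φ = E v - DR v := by
    rw [hEapp]
    ring
  rw [h1, ← hEeq, Finset.sum_sub_distrib, hEP, hDR, Finsupp.finsetSum_apply,
    Finsupp.finsetSum_apply]

/-- **graph Jacobi inversion.** -/
theorem graphJacobi [Finite κ] (N : GraphSetup K F k κ Fk ι) (g : ℕ) (NS : GraphNS N g) :
    GraphJacobiStatement N g NS := by
  intro hg D hdeg hred
  refine exists_jacobi_tuple NS hg D hdeg (a := fun _ => 1) (fun _ => one_ne_zero)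
    isNodalFn_one hred.1 (fun X _ => ?_)
  rw [hred.2 X]
  show (0 : ℤ) = X.2.ord 1
  simp

/-- **the graph KEY LEMMA, with `GraphNS` as a hypothesis.** -/
theorem graphKeyOfNS [Finite κ] (N : GraphSetup K F k κ Fk ι) : GraphKeyOfNS N :=
  graphKeyOfNS_of_steps N (fun NS => graphJacobi N _ NS) (fun NS => GK.graphMain N _ NS)

/-- **the graph KEY LEMMA for divisors whose reduction is the divisor of a nodal tuple**:
`D` ordinary of degree `0`, `r_* D = div a` at the smooth points for a nodal tuple `a` with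
`a c ≠ 0`, and `m D` principal, `m` a unit of `A`: then `D` is principal. -/
theorem graphKey_tuple [Finite κ] (NS : GraphNS N (genusFF K F)) (m : ℕ) (hm0 : (m : K) ≠ 0)
    (c₀ : κ) (hmA : ((m : K))⁻¹ ∈ (N.S c₀).A) (D : Divisor K F)
    (hdeg : Divisor.degree D = 0)
    {a : ∀ c, Fk c} (ha : ∀ c, a c ≠ 0) (hab : N.IsNodalFn a)
    (hordD : N.IsOrdDiv D)
    (hred : ∀ X, N.IsSmooth X → Finsupp.mapDomain N.r D (some X) = tupOrd X a)
    (hmD : (m • D) ∈ Divisor.principal (K := K) (F := F)) :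
    D ∈ Divisor.principal (K := K) (F := F) := by
  obtain ⟨φ, P, hφ, hP, hE⟩ := exists_jacobi_tuple NS rfl D hdeg ha hab hordD hred
  obtain ⟨f₁, hf₁, hf₁d⟩ := hmD
  have hmain := GK.graphMain N _ NS m hm0 c₀ hmA P hP (f₁ * φ ^ m)
    (mul_ne_zero hf₁ (pow_ne_zero _ hφ))
    (fun v => by
      rw [v.ord_mul hf₁ (pow_ne_zero _ hφ), ← hf₁d, ← hE v, Finsupp.smul_apply]
      have hpow : ∀ n : ℕ, v.ord (φ ^ n) = n * v.ord φ := by
        intro n
        induction n with
        | zero => simp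
        | succ k ihk => rw [pow_succ, v.ord_mul (pow_ne_zero _ hφ) hφ, ihk]; push_cast; ring
      rw [hpow m]
      simp only [nsmul_eq_mul]
      ring)
  refine ⟨φ⁻¹, inv_ne_zero hφ, fun v => ?_⟩
  rw [v.ord_inv]
  have h := hE v
  rw [Finset.sum_eq_zero (fun i _ => by rw [hmain i, sub_self])] at h
  omega

end GJ

end Fermat.Agent.BadRedG
end
end MergeWrap_Lib_BadRed_Graph_KeyJacobi

section MergeWrap_Lib_BadRed_Graph_Deuring_MainOf -- from Lib/BadRed/Graph/Deuring/MainOf.lean

set_option autoImplicit false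

/-!
# Cluster G, graph Deuring construction: ASSEMBLY  `GraphType + Push ⟹ GraphSetup` with all exports

For a seed `G`, a reduction map `T : GraphType G` (`Type.lean`) and its push statement
`hp : T.Push` (`Push*.lean`):

* `GraphType.setup T hp : GraphSetup K F k κ Fk ι` : the graph reduction package, with the SAME
  `S src tgt s₁ s₂` (definitionally) and `r = T.r`;
* `GraphType.setup_genusRel` : the genus relation;
* `GraphType.setup_hasLift` : (LIFT) for `G.D₀`, `G.R`;
* `GraphType.setup_supp` : the places of `supp D₀` reduce into the supports of the `R c`;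
* `GraphType.setup_isOrdDiv_D₀` : the seed divisor is ordinary;
* `GraphType.setup_key` : **the graph KEY LEMMA** `GraphKeyStatement (T.setup hp)`
  (`k` algebraically closed).

The final file `Main.lean` applies this to `G.graphType` and `GraphType.push`.
-/

noncomputable section

open AlgebraicCurve Fermat.Agent.RR Fermat.Agent.Deuring

namespace Fermat.Agent.BadRedG

open Fermat.Agent.BadRed

variable {K F k : Type*} [Field K] [Field F] [Algebra K F] [Field k]
  {κ : Type*} {Fk : κ → Type*} [∀ c, Field (Fk c)] [∀ c, Algebra k (Fk c)] {ι : Type*}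
  [Fintype κ] [Fintype ι] {G : GraphSeed K F k κ Fk ι}

/-- **The graph reduction package of a seed.** -/
def GraphType.setup [Infinite k] [Nonempty κ] (T : GraphType G) (hp : T.Push) :
    GraphSetup K F k κ Fk ι :=
  T.toGraphSetup (T.rSurj G.hasLift hp) hp T.node

section

variable [Infinite k] [Nonempty κ] (T : GraphType G) (hp : T.Push)

@[simp] theorem GraphType.setup_S : (T.setup hp).S = G.S := rfl

@[simp] theorem GraphType.setup_src : (T.setup hp).src = G.src := rfl

@[simp] theorem GraphType.setup_tgt : (T.setup hp).tgt = G.tgt := rfl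

@[simp] theorem GraphType.setup_s₁ : (T.setup hp).s₁ = G.s₁ := rfl

@[simp] theorem GraphType.setup_s₂ : (T.setup hp).s₂ = G.s₂ := rfl

@[simp] theorem GraphType.setup_r : (T.setup hp).r = T.r := rfl

/-- the genus relation. -/
theorem GraphType.setup_genusRel : (T.setup hp).GenusRel :=
  G.genus_eq

/-- (LIFT). -/
theorem GraphType.setup_hasLift : (T.setup hp).HasLift G.D₀ G.R :=
  T.toGraphSetup_hasLift _ _ _ G.hasLift

/-- (SUPP): the places of the support of `D₀` reduce into the supports of the `R c`. -/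
theorem GraphType.setup_supp (P : Place K F) (hP : G.D₀ P ≠ 0) :
    ∃ (c : κ) (Q : Place k (Fk c)), (T.setup hp).r P = some ⟨c, Q⟩ ∧ G.R c Q ≠ 0 :=
  T.supp P hP

/-- the seed divisor is ordinary. -/
theorem GraphType.setup_isOrdDiv_D₀ : (T.setup hp).IsOrdDiv G.D₀ := by
  intro P hP
  obtain ⟨c, Q, h, -⟩ := T.setup_supp hp P hP
  exact ⟨_, h⟩

/-- the multiples of the seed divisor are ordinary. -/
theorem GraphType.setup_isOrdDiv_smul_D₀ (m : ℕ) : (T.setup hp).IsOrdDiv (m • G.D₀) := by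
  intro P hP
  refine T.setup_isOrdDiv_D₀ hp P ?_
  intro h0
  apply hP
  rw [Finsupp.smul_apply, h0, smul_zero]

end

/-- **The graph KEY LEMMA** for the package of a seed: the kernel of reduction has no
`m`-torsion, `m` a unit of `A`. -/
theorem GraphType.setup_key [IsAlgClosed k] [Infinite k] [Nonempty κ] (T : GraphType G)
    (hp : T.Push) : GraphKeyStatement (T.setup hp) :=
  graphKeyStatement_of_ns _ (GJ.graphKeyOfNS _)
    (fun hg => (T.setup hp).nonempty_graphNS_of_lift hg G.D₀ G.R G.R_pos G.R_node₁ G.R_node₂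
      (T.setup_hasLift hp))

end Fermat.Agent.BadRedG
end
end MergeWrap_Lib_BadRed_Graph_Deuring_MainOf

section MergeWrap_Lib_BadRed_Graph_Deuring_Main -- from Lib/BadRed/Graph/Deuring/Main.lean

set_option autoImplicit false
set_option linter.style.haveILetI false
set_option linter.unusedSectionVars false

/-!
# Cluster G: MAIN THEOREM of the graph Deuring construction (SEED ⇒ GraphSetup)  (helper20)

For a seed `G : GraphSeed K F k κ Fk ι` (`Graph/Seed.lean`), `k` infinite, `κ` nonempty: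

* `G.graphSetup : GraphSetup K F k κ Fk ι` : the graph reduction package, with the SAME
  `S src tgt s₁ s₂` (definitionally) and `r = G.rmap G.hasLift`;
* `G.graphSetup_genusRel` : the genus relation;
* `G.graphSetup_hasLift` : the lifting property (LIFT);
* `G.graphSetup_supp`, `G.graphSetup_isOrdDiv_D₀` : the seed divisor is ordinary;
* `G.graphSetup_r_eq_of_pole` : the reduction of a place is determined by ONE pole witness;
* `G.graphSetup_pole`, `_zero`, `_unit`, `_node_unit` : the characteristic properties of `r`;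
* `G.graphSetup_pushAll`, `G.graphSetup_mapDomain_D₀`;
* `G.graphSetup_canon` : canonicity (automorphisms trivial on the special fibre);
* `G.graphSetup_rSmulPerm`, `G.graphSetup_ordSmulPerm` : canonicity for the automorphisms
  which permute the components;
* `G.graphSetup_key` : the graph KEY LEMMA (`k` algebraically closed);
* `G.graphSeedStatement : GraphSeedStatement G`.

Unconditional (no hypothesis besides the seed); all the pieces are in `Graph/Deuring/*.lean`.
-/

noncomputable section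

open AlgebraicCurve Fermat.Agent.RR Fermat.Agent.Deuring

namespace Fermat.Agent.BadRedG

open Fermat.Agent.BadRed

variable {K F k : Type*} [Field K] [Field F] [Algebra K F] [Field k]
  {κ : Type*} {Fk : κ → Type*} [∀ c, Field (Fk c)] [∀ c, Algebra k (Fk c)] {ι : Type*}
  [Fintype κ] [Fintype ι]

/-- **The reduction type of a seed** (unconditional). -/
def GraphSeed.gType [Infinite k] [Nonempty κ] (G : GraphSeed K F k κ Fk ι) : GraphType G :=
  G.graphType G.hasLift

/-- **The graph reduction package of a seed.** -/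
def GraphSeed.graphSetup [Infinite k] [Nonempty κ] (G : GraphSeed K F k κ Fk ι) :
    GraphSetup K F k κ Fk ι :=
  G.gType.setup G.gType.push

section

variable [Infinite k] [Nonempty κ] (G : GraphSeed K F k κ Fk ι)

@[simp] theorem GraphSeed.graphSetup_S : G.graphSetup.S = G.S := rfl

@[simp] theorem GraphSeed.graphSetup_src : G.graphSetup.src = G.src := rfl

@[simp] theorem GraphSeed.graphSetup_tgt : G.graphSetup.tgt = G.tgt := rfl

@[simp] theorem GraphSeed.graphSetup_s₁ : G.graphSetup.s₁ = G.s₁ := rfl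

@[simp] theorem GraphSeed.graphSetup_s₂ : G.graphSetup.s₂ = G.s₂ := rfl

@[simp] theorem GraphSeed.graphSetup_r : G.graphSetup.r = G.rmap G.hasLift := rfl

theorem GraphSeed.gType_r : G.gType.r = G.rmap G.hasLift := rfl

/-- the genus relation. -/
theorem GraphSeed.graphSetup_genusRel : G.graphSetup.GenusRel :=
  G.gType.setup_genusRel G.gType.push

/-- (LIFT). -/
theorem GraphSeed.graphSetup_hasLift : G.graphSetup.HasLift G.D₀ G.R :=
  G.gType.setup_hasLift G.gType.push

/-- (SUPP): the places of the support of `D₀` reduce into the supports of the `R c`. -/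
theorem GraphSeed.graphSetup_supp (P : Place K F) (hP : G.D₀ P ≠ 0) :
    ∃ (c : κ) (Q : Place k (Fk c)), G.graphSetup.r P = some ⟨c, Q⟩ ∧ G.R c Q ≠ 0 :=
  G.gType.setup_supp G.gType.push P hP

/-- the seed divisor is ordinary. -/
theorem GraphSeed.graphSetup_isOrdDiv_D₀ : G.graphSetup.IsOrdDiv G.D₀ :=
  G.gType.setup_isOrdDiv_D₀ G.gType.push

/-- the multiples of the seed divisor are ordinary. -/
theorem GraphSeed.graphSetup_isOrdDiv_smul_D₀ (m : ℕ) : G.graphSetup.IsOrdDiv (m • G.D₀) :=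
  G.gType.setup_isOrdDiv_smul_D₀ G.gType.push m

/-- **uniqueness of the reduction**: a pole of order `m R_c(Q) + 1` at the smooth point `Q` of a
function of `𝔏(m D₀ + P)` forces `r P = ⟨c, Q⟩` (any level `m`). -/
theorem GraphSeed.graphSetup_r_eq_of_pole {P : Place K F} {c : κ} {Q : Place k (Fk c)}
    (hQ : G.toGraphCore.IsSmoothPt c Q) {m : ℕ} {f : F}
    (hf : G.toGraphCore.IsInt (m • G.D₀ + Finsupp.single P 1) f) (hred : (G.S c).red f ≠ 0)
    (hord : Q.ord ((G.S c).red f) = -((m • G.R c) Q) - 1) :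
    G.graphSetup.r P = some ⟨c, Q⟩ :=
  G.gType.r_eq_of_pole hQ hf hred hord

/-- the reduction of a place is a smooth point. -/
theorem GraphSeed.graphSetup_isSmoothPt {P : Place K F} {c : κ} {Q : Place k (Fk c)}
    (h : G.graphSetup.r P = some ⟨c, Q⟩) : G.toGraphCore.IsSmoothPt c Q :=
  ⟨fun i hi => G.gType.r_ne_node₁ P i (hi ▸ h), fun i hi => G.gType.r_ne_node₂ P i (hi ▸ h)⟩

/-- a place which reduces to `⟨c, Q⟩` has a pole witness at EVERY level `m ≥ m₁`. -/
theorem GraphSeed.graphSetup_hasPole {P : Place K F} {c : κ} {Q : Place k (Fk c)}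
    (h : G.graphSetup.r P = some ⟨c, Q⟩) {m : ℕ} (hm : G.m₁ G.hasLift ≤ m) :
    G.HasPole m P c Q :=
  GraphSeed.hasPole_of_rmap G.hasLift h hm

/-- a place without reduction is of node type at EVERY level `m ≥ m₁`. -/
theorem GraphSeed.graphSetup_isNodeType {P : Place K F} (h : G.graphSetup.r P = none) {m : ℕ}
    (hm : G.m₁ G.hasLift ≤ m) : G.IsNodeType m P :=
  GraphSeed.isNodeType_of_rmap G.hasLift h hm

theorem GraphSeed.graphSetup_pole (P : Place K F) (c : κ) (Q : Place k (Fk c))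
    (h : G.graphSetup.r P = some ⟨c, Q⟩) : ∃ (m : ℕ) (f : F),
    G.toGraphCore.IsInt (m • G.D₀ + Finsupp.single P 1) f ∧ (G.S c).red f ≠ 0 ∧
      Q.ord ((G.S c).red f) = -((m • G.R c) Q) - 1 :=
  G.gType.pole P c Q h

theorem GraphSeed.graphSetup_zero (P : Place K F) (c : κ) (Q : Place k (Fk c))
    (h : G.graphSetup.r P = some ⟨c, Q⟩) : ∃ (m : ℕ) (f : F),
    G.toGraphCore.IsInt (m • G.D₀ - Finsupp.single P 1) f ∧ (G.S c).red f ≠ 0 ∧
      Q.ord ((G.S c).red f) = -((m • G.R c) Q) + 1 :=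
  G.gType.zero P c Q h

theorem GraphSeed.graphSetup_unit (P : Place K F) (c : κ) (Q : Place k (Fk c))
    (hQ : G.toGraphCore.IsSmoothPt c Q) (h : G.graphSetup.r P ≠ some ⟨c, Q⟩) :
    ∃ (m : ℕ) (f : F), G.toGraphCore.IsInt (m • G.D₀ - Finsupp.single P 1) f ∧
      (G.S c).red f ≠ 0 ∧ Q.ord ((G.S c).red f) = -((m • G.R c) Q) :=
  G.gType.unit P c Q hQ h

theorem GraphSeed.graphSetup_node_unit (P : Place K F) (X : Σ c, Place k (Fk c))
    (h : G.graphSetup.r P = some X) (i : ι) : ∃ (m : ℕ) (f : F),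
    G.toGraphCore.IsInt (m • G.D₀ - Finsupp.single P 1) f ∧
      ValAt (G.s₁ i) ((G.S (G.src i)).red f) 1 ∧ ValAt (G.s₂ i) ((G.S (G.tgt i)).red f) 1 :=
  G.gType.node_unit P X h i

/-- push at the smooth points, for the units of ALL the valuation rings. -/
theorem GraphSeed.graphSetup_pushAll : G.gType.PushAll := G.gType.pushAll

/-- `r_* D₀ = R` at the smooth points. -/
theorem GraphSeed.graphSetup_mapDomain_D₀ {c : κ} {Q : Place k (Fk c)}
    (hQ : G.toGraphCore.IsSmoothPt c Q) :
    Finsupp.mapDomain G.graphSetup.r G.D₀ (some ⟨c, Q⟩) = G.R c Q :=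
  G.gType.mapDomain_D₀ hQ

/-- **canonicity**: an automorphism which preserves the valuation rings, is trivial on the
residue fields and fixes `D₀` commutes with the reduction map. -/
theorem GraphSeed.graphSetup_canon (t : SemilinearAut K F)
    (hm : ∀ c (f : F), f ∈ (G.S c).Ov → t • f ∈ (G.S c).Ov)
    (hr : ∀ c (f : F), f ∈ (G.S c).Ov → (G.S c).red (t • f) = (G.S c).red f)
    (hD : ∀ P, G.D₀ (t • P) = G.D₀ P) (P : Place K F) :
    G.graphSetup.r (t • P) = G.graphSetup.r P :=
  G.gType.canon t hm hr hD P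

/-- **canonicity for the automorphisms of the seed which permute the components**. -/
theorem GraphSeed.graphSetup_rSmulPerm (t : SemilinearAut K F) (π : Equiv.Perm κ)
    (e : ∀ c, Fk c ≃ₐ[k] Fk (π c)) (ht : G.IsPermAut t π e) (P : Place K F) (c : κ)
    (Q : Place k (Fk c)) (h : G.graphSetup.r P = some ⟨c, Q⟩) :
    ∃ Q' : Place k (Fk (π c)), PlaceCorr (e c) Q Q' ∧
      G.graphSetup.r (t • P) = some ⟨π c, Q'⟩ :=
  G.gType.rSmulPerm t π e ht P c Q h

/-- the automorphisms of the seed preserve the ordinary places. -/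
theorem GraphSeed.graphSetup_ordSmulPerm (t : SemilinearAut K F) (π : Equiv.Perm κ)
    (e : ∀ c, Fk c ≃ₐ[k] Fk (π c)) (ht : G.IsPermAut t π e) (P : Place K F)
    (hP : G.graphSetup.IsOrd P) : G.graphSetup.IsOrd (t • P) :=
  G.gType.ordSmulPerm t π e ht P hP

end

/-- **The graph KEY LEMMA** for the package of a seed: the kernel of reduction has no
`m`-torsion, `m` a unit of `A`. -/
theorem GraphSeed.graphSetup_key [IsAlgClosed k] [Infinite k] [Nonempty κ]
    (G : GraphSeed K F k κ Fk ι) : GraphKeyStatement G.graphSetup :=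
  G.gType.setup_key G.gType.push

/-- **SEED ⟹ GraphSetup**: the statement of `Graph/Seed.lean`. -/
theorem GraphSeed.graphSeedStatement [Infinite k] [Nonempty κ] (G : GraphSeed K F k κ Fk ι) :
    GraphSeedStatement G := by
  refine ⟨G.graphSetup, rfl, rfl, rfl, HEq.rfl, HEq.rfl, G.graphSetup_genusRel,
    fun t hm hr hD P => G.graphSetup_canon t hm hr (fun P' => ?_) P⟩
  have := SemilinearAut.divisor_smul_apply_smul t G.D₀ P'
  rwa [hD] at this

end Fermat.Agent.BadRedG
end
end MergeWrap_Lib_BadRed_Graph_Deuring_Main
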