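import Mathlib
import Fermat.Agent.MUL.Lib.BadRed.Graph.Deuring.PermDef
import Fermat.Agent.MUL.Lib.BadRed.Graph.Deuring.Thresh
import Fermat.Agent.MUL.Lib.BadRed.Graph.Deuring.RRDim
import Fermat.Agent.MUL.Lib.BadRed.Graph.RRGraph
import Fermat.Agent.MUL.Lib.BadRed.HPVal.DiscRes

section MergeWrap_Lib_BadRed_Graph_Deuring_PermNode -- from Lib/BadRed/Graph/Deuring/PermNode.lean

set_option autoImplicit false
set_option linter.unusedSectionVars false

/-!
# Cluster G, graph Deuring construction: the NODES are canonical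
(helper82; the field `node` of `GraphSeed.IsPermAut` is automatic)

In the modular instance the second branches `s₂ i` of the nodes are CHOSEN by a matching argument
(`S36/G/SeedMatch.lean`), so the modular side cannot prove directly that the inertia group maps
nodes to nodes.  It is automatic: for `m ≥ m₁` every tuple of `graphRR (m R)` is the reduction of a
function of `𝔏(m D₀)`; an automorphism `t` which permutes the valuation rings and fixes `D₀` acts
on `𝔏(m D₀)`, hence the induced transport of tuples maps `graphRR (m R)` INTO itself, and ONTO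
itself because it is injective and the space is finite-dimensional.  So every tuple of
`graphRR (m R)` takes the same value at the images of the two branches of a node; by
interpolation at the nodes (`graphRRVal_surjective`) two branch points with this property are
the two branches of ONE node.

* `PlaceCorr.valAt`, `PlaceCorr.trans`, `placeCorr_cast` : place correspondences;
* `permTuple π e` : the transport of the tuples, `permTuple_apply`, `permTuple_injective`;
* `GraphSeed.permTuple_mem_graphRR`, `GraphSeed.exists_permTuple_eq` : it maps `graphRR (m R)`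
  onto itself (`m ≥ m₁`);
* `GraphSeed.node_of_branch` : the images of the two branches of a node are the two branches of a
  node;
* `GraphSeed.IsPermAutW t π e` : the WEAK automorphisms of a seed (no condition on the nodes:
  `mem`, `red`, `D₀_smul`, `R_smul` and `br_iff`: branch points correspond to branch points);
* `GraphSeed.IsPermAutW.isPermAut : G.IsPermAutW t π e → G.IsPermAut t π e`.
-/

noncomputable section

open AlgebraicCurve Fermat.Agent.RR Fermat.Agent.Deuring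

namespace Fermat.Agent.BadRedG

open Fermat.Agent.BadRed

/-! ### place correspondences -/

section Corr

variable {k : Type*} [Field k]

/-- a place correspondence preserves the values. -/
theorem PlaceCorr.valAt {L L' : Type*} [Field L] [Field L'] [Algebra k L] [Algebra k L']
    {e : L ≃ₐ[k] L'} {Q : Place k L} {Q' : Place k L'} (h : PlaceCorr e Q Q') {y : L} {a : k}
    (hy : ValAt Q y a) : ValAt Q' (e y) a := by
  rcases hy with hy | hy
  · left
    rw [hy, AlgEquiv.commutes]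
  · right
    have h1 := h (y - algebraMap k L a)
    rw [map_sub, AlgEquiv.commutes] at h1
    rw [h1]
    exact hy

/-- composition of place correspondences. -/
theorem PlaceCorr.trans {L L' L'' : Type*} [Field L] [Field L'] [Field L''] [Algebra k L]
    [Algebra k L'] [Algebra k L''] {e : L ≃ₐ[k] L'} {e' : L' ≃ₐ[k] L''} {Q : Place k L}
    {Q' : Place k L'} {Q'' : Place k L''} (h : PlaceCorr e Q Q') (h' : PlaceCorr e' Q' Q'') :
    PlaceCorr (e.trans e') Q Q'' := by
  intro y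
  rw [AlgEquiv.trans_apply, h' (e y), h y]

/-- equal points of the special fibre correspond under the cast. -/
theorem placeCorr_cast {κ : Type*} {Fk : κ → Type*} [∀ c, Field (Fk c)] [∀ c, Algebra k (Fk c)]
    {c c' : κ} (h : c = c') {Q : Place k (Fk c)} {Q' : Place k (Fk c')}
    (hQ : (⟨c, Q⟩ : Σ c, Place k (Fk c)) = ⟨c', Q'⟩) :
    PlaceCorr (AlgEquiv.cast (R := k) (A := Fk) h) Q Q' := by
  subst h
  have h2 := eq_of_heq (Sigma.mk.inj_iff.mp hQ).2
  subst h2
  intro y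
  rfl

end Corr

variable {K F k : Type*} [Field K] [Field F] [Algebra K F] [Field k]
  {κ : Type*} {Fk : κ → Type*} [∀ c, Field (Fk c)] [∀ c, Algebra k (Fk c)] {ι : Type*}

/-! ### the transport of the tuples -/

section Tuple

/-- the transport of the tuples of residue functions: `(permTuple π e y) (π c) = e c (y c)`. -/
def permTuple (π : Equiv.Perm κ) (e : ∀ c, Fk c ≃ₐ[k] Fk (π c)) :
    (∀ c, Fk c) →ₗ[k] (∀ c, Fk c) :=
  LinearMap.pi fun c' =>
    ((AlgEquiv.cast (R := k) (A := Fk) (π.apply_symm_apply c')).toLinearMap ∘ₗ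
      (e (π.symm c')).toLinearMap) ∘ₗ LinearMap.proj (π.symm c')

theorem permTuple_apply (π : Equiv.Perm κ) (e : ∀ c, Fk c ≃ₐ[k] Fk (π c)) (y : ∀ c, Fk c)
    (c : κ) : permTuple π e y (π c) = e c (y c) := by
  have key : ∀ (c₀ : κ) (h : π c₀ = π c),
      AlgEquiv.cast (R := k) (A := Fk) h (e c₀ (y c₀)) = e c (y c) := by
    intro c₀ h
    have h1 : c₀ = c := π.injective h
    subst h1
    rfl
  exact key (π.symm (π c)) (π.apply_symm_apply (π c))

theorem permTuple_injective (π : Equiv.Perm κ) (e : ∀ c, Fk c ≃ₐ[k] Fk (π c)) :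
    Function.Injective (permTuple (k := k) π e) := by
  intro y y' h
  funext c
  have h1 := congrFun h (π c)
  rw [permTuple_apply, permTuple_apply] at h1
  exact (e c).injective h1

end Tuple

/-! ### the action on `𝔏(m D₀)` and on `graphRR (m R)` -/

section Seed

variable [Fintype κ] [Fintype ι] {G : GraphSeed K F k κ Fk ι}

/-- an automorphism which permutes the valuation rings and fixes `D₀` maps `𝔏(m D₀)` into
itself. -/
theorem GraphSeed.isInt_smul (t : SemilinearAut K F) (π : Equiv.Perm κ)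
    (hm : ∀ (c : κ) (f : F), f ∈ (G.S c).Ov → t • f ∈ (G.S (π c)).Ov)
    (hD : ∀ P, G.D₀ (t • P) = G.D₀ P) {m : ℕ} {f : F}
    (hf : G.toGraphCore.IsInt (m • G.D₀) f) : G.toGraphCore.IsInt (m • G.D₀) (t • f) := by
  obtain ⟨h1, h2⟩ := hf
  refine ⟨?_, fun c => ?_⟩
  · rw [mem_riemannRochSpace_iff] at h1 ⊢
    intro v
    rcases h1 (t⁻¹ • v) with h0 | hle
    · left
      rw [h0, smul_zero]
    · right
      have hord : v.ord (t • f) = (t⁻¹ • v).ord f := by
        have h := SemilinearAut.ord_smul t (t⁻¹ • v) f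
        rwa [smul_inv_smul] at h
      have hD' : G.D₀ v = G.D₀ (t⁻¹ • v) := by
        have := hD (t⁻¹ • v)
        rwa [smul_inv_smul] at this
      rw [hord, Finsupp.smul_apply, hD', ← Finsupp.smul_apply]
      exact hle
  · have h := hm (π.symm c) f (h2 _)
    rwa [Equiv.apply_symm_apply] at h

/-- the reduction of `t • f` is the transport of the reduction of `f`. -/
theorem GraphSeed.redAll_smul (t : SemilinearAut K F) (π : Equiv.Perm κ)
    (e : ∀ c, Fk c ≃ₐ[k] Fk (π c))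
    (hr : ∀ (c : κ) (f : F), f ∈ (G.S c).Ov → (G.S (π c)).red (t • f) = e c ((G.S c).red f))
    {f : F} (hf : ∀ c, f ∈ (G.S c).Ov) :
    G.toGraphCore.redAll (t • f) = permTuple π e (G.toGraphCore.redAll f) := by
  funext c'
  obtain ⟨c, rfl⟩ := π.surjective c'
  rw [permTuple_apply]
  exact hr c f (hf c)

variable [Nonempty κ]

/-- the transport maps `graphRR (m R)` into itself, `m ≥ m₁`. -/
theorem GraphSeed.permTuple_mem_graphRR (t : SemilinearAut K F) (π : Equiv.Perm κ)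
    (e : ∀ c, Fk c ≃ₐ[k] Fk (π c))
    (hm : ∀ (c : κ) (f : F), f ∈ (G.S c).Ov → t • f ∈ (G.S (π c)).Ov)
    (hr : ∀ (c : κ) (f : F), f ∈ (G.S c).Ov → (G.S (π c)).red (t • f) = e c ((G.S c).red f))
    (hD : ∀ P, G.D₀ (t • P) = G.D₀ P) {m : ℕ} (hm₁ : G.m₁ G.hasLift ≤ m) {y : ∀ c, Fk c}
    (hy : y ∈ graphRR G.src G.tgt G.s₁ G.s₂ (fun c => m • G.R c)) :
    permTuple π e y ∈ graphRR G.src G.tgt G.s₁ G.s₂ (fun c => m • G.R c) := by
  obtain ⟨f, hf, rfl⟩ := GraphSeed.exists_lift G.hasLift hm₁ hy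
  rw [← GraphSeed.redAll_smul t π e hr hf.2]
  have hf' := GraphSeed.isInt_smul t π hm hD hf
  exact G.seed m (t • f) hf'.1 hf'.2

/-- the transport maps `graphRR (m R)` ONTO itself, `m ≥ m₁`. -/
theorem GraphSeed.exists_permTuple_eq (t : SemilinearAut K F) (π : Equiv.Perm κ)
    (e : ∀ c, Fk c ≃ₐ[k] Fk (π c))
    (hm : ∀ (c : κ) (f : F), f ∈ (G.S c).Ov → t • f ∈ (G.S (π c)).Ov)
    (hr : ∀ (c : κ) (f : F), f ∈ (G.S c).Ov → (G.S (π c)).red (t • f) = e c ((G.S c).red f))
    (hD : ∀ P, G.D₀ (t • P) = G.D₀ P) {m : ℕ} (hm₁ : G.m₁ G.hasLift ≤ m) {y : ∀ c, Fk c}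
    (hy : y ∈ graphRR G.src G.tgt G.s₁ G.s₂ (fun c => m • G.R c)) :
    ∃ y' ∈ graphRR G.src G.tgt G.s₁ G.s₂ (fun c => m • G.R c), permTuple π e y' = y := by
  have : Module.Finite k ↥(graphRR G.src G.tgt G.s₁ G.s₂ (fun c => m • G.R c)) :=
    finite_graphRR (fun c => (G.S c).hFk) _ _ _ _ _
  let Φ : ↥(graphRR G.src G.tgt G.s₁ G.s₂ (fun c => m • G.R c)) →ₗ[k]
      ↥(graphRR G.src G.tgt G.s₁ G.s₂ (fun c => m • G.R c)) :=
    (permTuple π e).restrict
      (fun y hy => GraphSeed.permTuple_mem_graphRR t π e hm hr hD hm₁ hy)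
  have hinj : Function.Injective Φ := by
    intro a b hab
    apply Subtype.ext
    apply permTuple_injective (k := k) π e
    exact congrArg Subtype.val hab
  obtain ⟨y', hy'⟩ := LinearMap.surjective_of_injective hinj ⟨y, hy⟩
  exact ⟨y'.1, y'.2, congrArg Subtype.val hy'⟩

/-- **the nodes are canonical**: the images of the two branches of a node are the two branches
of ONE node. -/
theorem GraphSeed.node_of_branch (t : SemilinearAut K F) (π : Equiv.Perm κ)
    (e : ∀ c, Fk c ≃ₐ[k] Fk (π c))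
    (hm : ∀ (c : κ) (f : F), f ∈ (G.S c).Ov → t • f ∈ (G.S (π c)).Ov)
    (hr : ∀ (c : κ) (f : F), f ∈ (G.S c).Ov → (G.S (π c)).red (t • f) = e c ((G.S c).red f))
    (hD : ∀ P, G.D₀ (t • P) = G.D₀ P)
    (hbr : ∀ (c : κ) (Q : Place k (Fk c)) (Q' : Place k (Fk (π c))), PlaceCorr (e c) Q Q' →
      G.toGraphCore.IsBr ⟨c, Q⟩ → G.toGraphCore.IsBr ⟨π c, Q'⟩)
    (i : ι) {Q₁' : Place k (Fk (π (G.src i)))} {Q₂' : Place k (Fk (π (G.tgt i)))}
    (h₁ : PlaceCorr (e (G.src i)) (G.s₁ i) Q₁') (h₂ : PlaceCorr (e (G.tgt i)) (G.s₂ i) Q₂') :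
    ∃ j : ι,
      ((⟨π (G.src i), Q₁'⟩ : Σ c, Place k (Fk c)) = ⟨G.src j, G.s₁ j⟩ ∧
        (⟨π (G.tgt i), Q₂'⟩ : Σ c, Place k (Fk c)) = ⟨G.tgt j, G.s₂ j⟩) ∨
      ((⟨π (G.src i), Q₁'⟩ : Σ c, Place k (Fk c)) = ⟨G.tgt j, G.s₂ j⟩ ∧
        (⟨π (G.tgt i), Q₂'⟩ : Σ c, Place k (Fk c)) = ⟨G.src j, G.s₁ j⟩) := by
  classical
  set m := G.m₁ G.hasLift with hmdef
  have hm₁ : G.m₁ G.hasLift ≤ m := le_refl _
  -- the value of a tuple at a point of the special fibre
  let VA : (∀ c, Fk c) → (Σ c, Place k (Fk c)) → k → Prop := fun y X a => ValAt X.2 (y X.1) a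
  -- every tuple of `graphRR` takes the same value at the two image points
  have hsame : ∀ y ∈ graphRR G.src G.tgt G.s₁ G.s₂ (fun c => m • G.R c), ∃ a : k,
      VA y ⟨π (G.src i), Q₁'⟩ a ∧ VA y ⟨π (G.tgt i), Q₂'⟩ a := by
    intro y hy
    obtain ⟨y', hy', rfl⟩ := GraphSeed.exists_permTuple_eq t π e hm hr hD hm₁ hy
    obtain ⟨a, ha₁, ha₂⟩ := hy'.2 i
    refine ⟨a, ?_, ?_⟩
    · show ValAt Q₁' (permTuple π e y' (π (G.src i))) a
      rw [permTuple_apply]
      exact h₁.valAt ha₁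
    · show ValAt Q₂' (permTuple π e y' (π (G.tgt i))) a
      rw [permTuple_apply]
      exact h₂.valAt ha₂
  -- interpolation at the nodes
  have hsurj := graphRRVal_surjective (R := fun c => m • G.R c) (fun c => (G.S c).hFk)
    G.s₁_inj G.s₂_inj G.s₁_ne_s₂ (G.smul_R_node₁ m) (G.smul_R_node₂ m) (fun c => by
      have h1 := GraphSeed.big G.hasLift hm₁ c
      have h2 : ((graphRRBranchesAt G.src G.tgt G.s₁ G.s₂ c).card : ℤ) ≤ Fintype.card ι := by
        exact_mod_cast card_graphRRBranchesAt_le_card G.src_ne_tgt c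
      have h3 := Int.natCast_nonneg (genusFF K F)
      show 2 * (genusFF k (Fk c) : ℤ) - 2 <
        Divisor.degree (m • G.R c) - (graphRRBranchesAt G.src G.tgt G.s₁ G.s₂ c).card
      omega)
  -- the value of a tuple of `graphRR` at a branch of the node `j`
  have hval : ∀ (y : ↥(graphRR G.src G.tgt G.s₁ G.s₂ (fun c => m • G.R c))) (j : ι)
      (X : Σ c, Place k (Fk c)) (a : k), VA y.1 X a →
      (X = ⟨G.src j, G.s₁ j⟩ ∨ X = ⟨G.tgt j, G.s₂ j⟩) →
      graphRRVal G.src G.tgt G.s₁ G.s₂ (fun c => m • G.R c) y j = a := by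
    intro y j X a hX hj
    rcases hj with rfl | rfl
    · exact graphRRVal_eq_of_valAt₁ y j hX
    · exact graphRRVal_eq_of_valAt₂ y j hX
  -- the two image points are branch points
  have hb₁ := hbr _ _ _ h₁ (G.toGraphCore.isBr_src i)
  have hb₂ := hbr _ _ _ h₂ (G.toGraphCore.isBr_tgt i)
  have hb₁' : ∃ j₁, (⟨π (G.src i), Q₁'⟩ : Σ c, Place k (Fk c)) = ⟨G.src j₁, G.s₁ j₁⟩ ∨
      (⟨π (G.src i), Q₁'⟩ : Σ c, Place k (Fk c)) = ⟨G.tgt j₁, G.s₂ j₁⟩ := by
    rcases hb₁ with ⟨j, hj⟩ | ⟨j, hj⟩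
    · exact ⟨j, Or.inl hj⟩
    · exact ⟨j, Or.inr hj⟩
  have hb₂' : ∃ j₂, (⟨π (G.tgt i), Q₂'⟩ : Σ c, Place k (Fk c)) = ⟨G.src j₂, G.s₁ j₂⟩ ∨
      (⟨π (G.tgt i), Q₂'⟩ : Σ c, Place k (Fk c)) = ⟨G.tgt j₂, G.s₂ j₂⟩ := by
    rcases hb₂ with ⟨j, hj⟩ | ⟨j, hj⟩
    · exact ⟨j, Or.inl hj⟩
    · exact ⟨j, Or.inr hj⟩
  obtain ⟨j₁, hj₁⟩ := hb₁'
  obtain ⟨j₂, hj₂⟩ := hb₂'
  -- they are branches of the same node
  have hjj : j₁ = j₂ := by
    by_contra hne
    obtain ⟨y, hy⟩ := hsurj (Pi.single j₁ 1)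
    obtain ⟨a, ha₁, ha₂⟩ := hsame y.1 y.2
    have e1 := hval y j₁ _ a ha₁ hj₁
    have e2 := hval y j₂ _ a ha₂ hj₂
    rw [hy] at e1 e2
    rw [Pi.single_eq_same] at e1
    rw [Pi.single_eq_of_ne (fun h => hne h.symm)] at e2
    rw [← e1] at e2
    exact one_ne_zero e2.symm
  subst hjj
  -- the two image points are distinct
  have hne : (⟨π (G.src i), Q₁'⟩ : Σ c, Place k (Fk c)) ≠ ⟨π (G.tgt i), Q₂'⟩ := by
    intro h
    exact G.src_ne_tgt i (π.injective (congrArg Sigma.fst h))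
  refine ⟨j₁, ?_⟩
  rcases hj₁ with hj₁ | hj₁ <;> rcases hj₂ with hj₂ | hj₂
  · exact absurd (hj₁.trans hj₂.symm) hne
  · exact Or.inl ⟨hj₁, hj₂⟩
  · exact Or.inr ⟨hj₁, hj₂⟩
  · exact absurd (hj₁.trans hj₂.symm) hne

end Seed

/-! ### the weak automorphisms of a seed -/

section Weak

variable [Fintype κ] [Fintype ι]

/-- `t` is a WEAK automorphism of the seed `G`: as `GraphSeed.IsPermAut`, but without the
condition on the nodes; the branch points correspond to branch points. -/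
structure GraphSeed.IsPermAutW (G : GraphSeed K F k κ Fk ι) (t : SemilinearAut K F)
    (π : Equiv.Perm κ) (e : ∀ c, Fk c ≃ₐ[k] Fk (π c)) : Prop where
  mem : ∀ (c : κ) (f : F), f ∈ (G.S c).Ov → t • f ∈ (G.S (π c)).Ov
  red : ∀ (c : κ) (f : F), f ∈ (G.S c).Ov → (G.S (π c)).red (t • f) = e c ((G.S c).red f)
  D₀_smul : ∀ P : Place K F, G.D₀ (t • P) = G.D₀ P
  /-- every place has an image, with the same multiplicity in `R` -/
  R_smul : ∀ (c : κ) (Q : Place k (Fk c)), ∃ Q' : Place k (Fk (π c)),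
    PlaceCorr (e c) Q Q' ∧ G.R (π c) Q' = G.R c Q
  /-- the branch points correspond to the branch points -/
  br_iff : ∀ (c : κ) (Q : Place k (Fk c)) (Q' : Place k (Fk (π c))), PlaceCorr (e c) Q Q' →
    (G.toGraphCore.IsBr ⟨c, Q⟩ ↔ G.toGraphCore.IsBr ⟨π c, Q'⟩)

variable {G : GraphSeed K F k κ Fk ι} [Nonempty κ]

/-- **a weak automorphism of a seed is an automorphism**: the nodes are mapped to nodes. -/
theorem GraphSeed.IsPermAutW.isPermAut {t : SemilinearAut K F} {π : Equiv.Perm κ}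
    {e : ∀ c, Fk c ≃ₐ[k] Fk (π c)} (h : G.IsPermAutW t π e) : G.IsPermAut t π e where
  mem := h.mem
  red := h.red
  D₀_smul := h.D₀_smul
  R_smul := h.R_smul
  smooth := by
    intro c Q Q' hcorr hQ
    rw [GraphCore.isSmoothPt_iff] at hQ ⊢
    exact fun hbr => hQ ((h.br_iff c Q Q' hcorr).mpr hbr)
  node := by
    intro i
    obtain ⟨Q₁', h₁, -⟩ := h.R_smul (G.src i) (G.s₁ i)
    obtain ⟨Q₂', h₂, -⟩ := h.R_smul (G.tgt i) (G.s₂ i)
    obtain ⟨j, hj | hj⟩ := GraphSeed.node_of_branch t π e h.mem h.red h.D₀_smul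
      (fun c Q Q' hcorr hbr => (h.br_iff c Q Q' hcorr).mp hbr) i h₁ h₂
    · refine ⟨j, Or.inl ⟨congrArg Sigma.fst hj.1, congrArg Sigma.fst hj.2, ?_, ?_⟩⟩
      · exact h₁.trans (placeCorr_cast (congrArg Sigma.fst hj.1) hj.1)
      · exact h₂.trans (placeCorr_cast (congrArg Sigma.fst hj.2) hj.2)
    · refine ⟨j, Or.inr ⟨congrArg Sigma.fst hj.1, congrArg Sigma.fst hj.2, ?_, ?_⟩⟩
      · exact h₁.trans (placeCorr_cast (congrArg Sigma.fst hj.1) hj.1)
      · exact h₂.trans (placeCorr_cast (congrArg Sigma.fst hj.2) hj.2)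

end Weak

end Fermat.Agent.BadRedG
end
end MergeWrap_Lib_BadRed_Graph_Deuring_PermNode
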